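import Fermat.Agent.Newform.Basis
import Fermat.Agent.S23
import Fermat.Agent.DSLift.Finite

/-!
# Galois conjugates of eigenforms, integrality and reality of the coefficients
-/

set_option autoImplicit false

noncomputable section

namespace Fermat.Agent.Newform

open UpperHalfPlane Matrix Set
open scoped MatrixGroups ModularForm Manifold
open ModularFormClass (qCoeff)
open DSLift (heckeOp)
open CuspForm (GoodEigensystemOccursAt heckeAlgebra)

variable {M N D : ℕ}

/-! ### Conjugates -/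

theorem exists_conj [NeZero N] (σ : ℂ →+* ℂ) (f : S2 N) :
    ∃ g : S2 N, ∀ n, qCoeff g n = σ (qCoeff f n) := by
  have hf : f ∈ Submodule.span ℂ ((CuspForm.intLattice N 2 : Submodule ℤ (S2 N)) : Set (S2 N)) := by
    rw [show Submodule.span ℂ ((CuspForm.intLattice N 2 : Submodule ℤ (S2 N)) : Set (S2 N)) = ⊤
      from S23.result N]
    trivial
  induction hf using Submodule.span_induction with
  | mem f hf =>
    refine ⟨f, fun n => ?_⟩
    obtain ⟨m, hm⟩ := (DSLift.mem_intLattice_iff f).1 hf n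
    rw [hm, map_intCast]
  | zero => exact ⟨0, fun n => by
      rw [show qCoeff (⇑(0 : S2 N)) n = 0 from qCoeff_zero_fun _, map_zero]⟩
  | add x y _ _ hx hy =>
    obtain ⟨x', hx'⟩ := hx
    obtain ⟨y', hy'⟩ := hy
    exact ⟨x' + y', fun n => by rw [qCoeff_add', qCoeff_add', hx', hy', map_add]⟩
  | smul c x _ hx =>
    obtain ⟨x', hx'⟩ := hx
    exact ⟨σ c • x', fun n => by rw [qCoeff_smul', qCoeff_smul', hx', map_mul]⟩

/-- the conjugate of a cusp form under a field automorphism -/
def conj [NeZero N] (σ : ℂ →+* ℂ) (f : S2 N) : S2 N := (exists_conj σ f).choose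

@[simp] theorem qCoeff_conj [NeZero N] (σ : ℂ →+* ℂ) (f : S2 N) (n : ℕ) :
    qCoeff (conj σ f) n = σ (qCoeff f n) := (exists_conj σ f).choose_spec n

theorem isNormalizedEigenform_conj [NeZero N] (σ : ℂ →+* ℂ) {f : S2 N}
    (hf : f.IsNormalizedEigenform) : (conj σ f).IsNormalizedEigenform := by
  refine ⟨?_, fun m n hmn => ?_, fun p r hp hpN => ?_, fun p r hp hpN => ?_⟩
  · rw [qCoeff_conj, hf.qCoeff_one, map_one]
  · simp only [qCoeff_conj]
    rw [hf.qCoeff_mul_of_coprime m n hmn, map_mul]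
  · simp only [qCoeff_conj]
    rw [hf.qCoeff_prime_pow_of_not_dvd p r hp hpN]
    simp
  · simp only [qCoeff_conj]
    rw [hf.qCoeff_prime_pow_of_dvd p r hp hpN, map_mul]

theorem isNewform_conj [NeZero N] (σ : ℂ ≃+* ℂ) {f : S2 N} (hf : f.IsNewform) :
    (conj (σ : ℂ →+* ℂ) f).IsNewform := by
  refine ⟨isNormalizedEigenform_conj _ hf.1, fun M hM hne => ?_⟩
  rintro ⟨g, hg, hgf⟩
  have hM0 : NeZero M := ⟨fun h => NeZero.ne N (Nat.eq_zero_of_zero_dvd (h ▸ hM))⟩
  refine hf.2 M hM hne ⟨conj (σ.symm : ℂ →+* ℂ) g, isNormalizedEigenform_conj _ hg,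
    fun ℓ hℓ hℓN => ?_⟩
  rw [qCoeff_conj, hgf ℓ hℓ hℓN, qCoeff_conj]
  simp

/-! ### The eigencharacter -/

theorem exists_eigenvalue [NeZero N] {f : S2 N} (hf : f.IsNormalizedEigenform) {S : Set ℕ}
    (t : heckeAlgebra N 2 S) :
    ∃ c : ℂ, (t : Module.End ℂ (S2 N)) f = c • f := by
  obtain ⟨t, ht⟩ := t
  induction ht using Algebra.adjoin_induction with
  | mem t ht =>
    rcases ht with ⟨ℓ, hℓ, hℓN, -, rfl⟩ | ⟨q, hqN, hq, -, rfl⟩
    · refine ⟨qCoeff f ℓ, ?_⟩
      rw [← DSLift.heckeOp_apply_of_isNormalizedEigenform N hf hℓ, DSLift.heckeOp_of_not_dvd hℓ hℓN]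
    · refine ⟨qCoeff f q, ?_⟩
      rw [← DSLift.heckeOp_apply_of_isNormalizedEigenform N hf hq, DSLift.heckeOp_of_dvd hq hqN]
  | algebraMap r => exact ⟨r, by
      show (algebraMap ℤ (Module.End ℂ (S2 N)) r) f = _
      rw [Module.algebraMap_end_apply, Int.cast_smul_eq_zsmul]⟩
  | add x y _ _ hx hy =>
    obtain ⟨c, hc⟩ := hx
    obtain ⟨d, hd⟩ := hy
    exact ⟨c + d, by
      show (x + y) f = _
      rw [LinearMap.add_apply, hc, hd, add_smul]⟩
  | mul x y _ _ hx hy =>
    obtain ⟨c, hc⟩ := hx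
    obtain ⟨d, hd⟩ := hy
    exact ⟨c * d, by
      show (x * y) f = _
      rw [Module.End.mul_apply, hd, map_smul, hc, smul_smul, mul_comm]⟩

theorem smul_injective_of_eigenform [NeZero N] {f : S2 N} (hf : f.IsNormalizedEigenform)
    {c d : ℂ} (h : c • f = d • f) : c = d := by
  have h1 := congrArg (fun g : S2 N => qCoeff g 1) h
  simp only [qCoeff_smul', hf.qCoeff_one, mul_one] at h1
  exact h1

/-- the character of the Hecke algebra on an eigenform -/
def eigHom [NeZero N] (f : S2 N) (hf : f.IsNormalizedEigenform) (S : Set ℕ) :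
    heckeAlgebra N 2 S →+* ℂ where
  toFun t := (exists_eigenvalue hf t).choose
  map_one' := smul_injective_of_eigenform hf (by
    rw [← (exists_eigenvalue hf (1 : heckeAlgebra N 2 S)).choose_spec, one_smul]; rfl)
  map_mul' x y := smul_injective_of_eigenform hf (by
    rw [← (exists_eigenvalue hf (x * y)).choose_spec,
      mul_comm (exists_eigenvalue hf x).choose, ← smul_smul,
      ← (exists_eigenvalue hf x).choose_spec, ← map_smul,
      ← (exists_eigenvalue hf y).choose_spec]
    rfl)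
  map_zero' := smul_injective_of_eigenform hf (by
    rw [← (exists_eigenvalue hf (0 : heckeAlgebra N 2 S)).choose_spec, zero_smul]; rfl)
  map_add' x y := smul_injective_of_eigenform hf (by
    rw [← (exists_eigenvalue hf (x + y)).choose_spec, add_smul,
      ← (exists_eigenvalue hf x).choose_spec, ← (exists_eigenvalue hf y).choose_spec]
    rfl)

theorem apply_eq_eigHom_smul [NeZero N] {f : S2 N} (hf : f.IsNormalizedEigenform) {S : Set ℕ}
    (t : heckeAlgebra N 2 S) : (t : Module.End ℂ (S2 N)) f = eigHom f hf S t • f :=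
  (exists_eigenvalue hf t).choose_spec

theorem heckeOp_mem_heckeAlgebra [NeZero N] {p : ℕ} (hp : p.Prime) {S : Set ℕ} (hpS : p ∉ S) :
    heckeOp N 2 hp ∈ heckeAlgebra N 2 S :=
  Algebra.subset_adjoin (DSLift.heckeOp_mem_heckeGenerators hp hpS)

theorem eigHom_heckeOp [NeZero N] {f : S2 N} (hf : f.IsNormalizedEigenform) {S : Set ℕ}
    {p : ℕ} (hp : p.Prime) (hpS : p ∉ S) :
    eigHom f hf S ⟨heckeOp N 2 hp, heckeOp_mem_heckeAlgebra hp hpS⟩ = qCoeff f p := by
  apply smul_injective_of_eigenform hf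
  rw [← apply_eq_eigHom_smul, DSLift.heckeOp_apply_of_isNormalizedEigenform N hf hp]

instance moduleFinite_heckeAlgebra [NeZero N] (S : Set ℕ) : Module.Finite ℤ (heckeAlgebra N 2 S) :=
  DSLift.moduleFinite_heckeAlgebra_of_hasIntegralStructure N S (S23.result N)

theorem qCoeff_mem_range_eigHom [NeZero N] {f : S2 N} (hf : f.IsNormalizedEigenform) (n : ℕ) :
    qCoeff f n ∈ (eigHom f hf ∅).range := by
  induction n using Nat.strong_induction_on with
  | _ n ih =>
    rcases Nat.eq_zero_or_pos n with rfl | hn0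
    · rw [DSLift.qCoeff_zero_eq f]; exact zero_mem _
    rcases Nat.lt_or_ge 1 n with hn1 | hn1
    swap
    · obtain rfl : n = 1 := by omega
      rw [hf.qCoeff_one]; exact one_mem _
    have hp : n.minFac.Prime := Nat.minFac_prime (by omega)
    set p := n.minFac with hp'
    obtain ⟨m, hm⟩ : p ∣ n := Nat.minFac_dvd n
    have hm0 : 0 < m := Nat.pos_of_ne_zero (by rintro rfl; omega)
    have hmn : m < n := by rw [hm]; exact lt_mul_of_one_lt_left hm0 hp.one_lt
    have h2 := qCoeff_heckeOp' hp f m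
    rw [DSLift.heckeOp_apply_of_isNormalizedEigenform N hf hp, qCoeff_smul'] at h2
    have hap : qCoeff f p ∈ (eigHom f hf ∅).range :=
      ⟨_, eigHom_heckeOp hf hp (Set.notMem_empty _)⟩
    have h3 : qCoeff f n = qCoeff f p * qCoeff f m -
        (if p ∣ N then 0 else (p : ℂ)) * (if p ∣ m then qCoeff f (m / p) else 0) := by
      rw [h2, hm, mul_comm m p, add_sub_cancel_right]
    rw [h3]
    refine sub_mem (mul_mem hap (ih m hmn)) (mul_mem ?_ ?_)
    · split_ifs
      · exact zero_mem _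
      · exact natCast_mem _ _
    · split_ifs
      · exact ih _ ((Nat.div_le_self _ _).trans_lt hmn)
      · exact zero_mem _

theorem isIntegral_eigHom [NeZero N] {f : S2 N} (hf : f.IsNormalizedEigenform) {S : Set ℕ}
    (t : heckeAlgebra N 2 S) : IsIntegral ℤ (eigHom f hf S t) :=
  (Algebra.IsIntegral.isIntegral (R := ℤ) t).map (eigHom f hf S).toIntAlgHom

/-- The coefficients of an eigenform are algebraic integers. -/
theorem isIntegral_qCoeff [NeZero N] {f : S2 N} (hf : f.IsNormalizedEigenform) (n : ℕ) :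
    IsIntegral ℤ (qCoeff f n) := by
  obtain ⟨t, ht⟩ := qCoeff_mem_range_eigHom hf n
  rw [← ht]
  exact isIntegral_eigHom hf t

/-- The coefficients of an eigenform lie in a number field. -/
theorem exists_numberField [NeZero N] {f : S2 N} (hf : f.IsNormalizedEigenform) :
    ∃ K : IntermediateField ℚ ℂ, FiniteDimensional ℚ K ∧ ∀ n, qCoeff f n ∈ K := by
  -- the `ℤ`-module generated by a finite set
  obtain ⟨s, hs⟩ := (inferInstance : Module.Finite ℤ (heckeAlgebra N 2 ∅))
  refine ⟨IntermediateField.adjoin ℚ ((eigHom f hf ∅) '' (s : Set (heckeAlgebra N 2 ∅))),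
    ?_, fun n => ?_⟩
  · refine IntermediateField.finiteDimensional_adjoin ?_
    rintro _ ⟨t, -, rfl⟩
    exact (isIntegral_eigHom hf t).tower_top
  · obtain ⟨t, ht⟩ := qCoeff_mem_range_eigHom hf n
    rw [← ht]
    clear ht
    have ht' : t ∈ Submodule.span ℤ (s : Set (heckeAlgebra N 2 ∅)) := by rw [hs]; trivial
    induction ht' using Submodule.span_induction with
    | mem x hx => exact IntermediateField.subset_adjoin _ _ ⟨x, hx, rfl⟩
    | zero => rw [map_zero]; exact zero_mem _
    | add x y _ _ hx hy => rw [map_add]; exact add_mem hx hy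
    | smul c x _ hx => rw [map_zsmul]; exact zsmul_mem hx c

/-- Good coefficients of partial eigenforms are real. -/
theorem conj_eigenvalue [NeZero N] {f : S2 N} (hf0 : f ≠ 0) {ℓ : ℕ} (hℓ : ℓ.Prime)
    (hℓN : ¬ ℓ ∣ N) {c : ℂ} (hc : heckeOp N 2 hℓ f = c • f) : (starRingEnd ℂ) c = c := by
  let _ : NormedAddCommGroup (S2 N) := (core N).toNormedAddCommGroup
  let _ : InnerProductSpace ℂ (S2 N) := InnerProductSpace.ofCore (core N).toCore
  have hs : (heckeOp N 2 hℓ).IsSymmetric := fun f g => heckeOp_symm hℓ hℓN f g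
  exact hs.conj_eigenvalue_eq_self
    (Module.End.hasEigenvalue_of_hasEigenvector ⟨Module.End.mem_eigenspace_iff.2 hc, hf0⟩)

theorem conj_qCoeff_prime [NeZero N] {f : S2 N} (hf : f.IsNormalizedEigenform) {ℓ : ℕ}
    (hℓ : ℓ.Prime) (hℓN : ¬ ℓ ∣ N) : (starRingEnd ℂ) (qCoeff f ℓ) = qCoeff f ℓ :=
  conj_eigenvalue hf.ne_zero hℓ hℓN (DSLift.heckeOp_apply_of_isNormalizedEigenform N hf hℓ)

/-- **The Fourier coefficients of a newform are real.** -/
theorem IsNewform.conj_qCoeff [NeZero N] {f : S2 N} (hf : f.IsNewform) (n : ℕ) :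
    (starRingEnd ℂ) (qCoeff f n) = qCoeff f n := by
  have h1 : conj (starRingEnd ℂ) f = f := by
    refine newform_eq_of_level_eq hf (isNormalizedEigenform_conj _ hf.1) (NeZero.ne N)
      fun ℓ hℓ hℓN => ?_
    rw [qCoeff_conj, conj_qCoeff_prime hf.1 hℓ hℓN]
  rw [← qCoeff_conj, h1]

end Fermat.Agent.Newform
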