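import Fermat.Agent.Newform.BadPrime

/-!
# Strong multiplicity one
-/

set_option autoImplicit false

noncomputable section

namespace Fermat.Agent.Newform

open UpperHalfPlane Matrix Set
open scoped MatrixGroups ModularForm Manifold ComplexConjugate
open ModularFormClass (qCoeff)
open DSLift (heckeOp)
open CuspForm (GoodEigensystemOccursAt)

variable {M N D : ℕ} {f g : ℍ → ℂ}

theorem slash_comm_L {M₀ p D : ℕ} (hf : ∀ γ ∈ G0 (M₀ * p), f ∣[(2 : ℤ)] γ = f)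
    {r : GL (Fin 2) ℝ} {b e : ℝ} (i : ℕ) (hr : Ent r 1 b (i * (M₀ * D ^ 2)) e)
    (hdet : 1 * e - b * (i * (M₀ * D ^ 2)) = 1) {d : ℕ} (hd : d ∈ D.divisors) (j : ℕ) :
    (f ∣[(2 : ℤ)] r) ∣[(2 : ℤ)] Tr (((j * p : ℕ) : ℝ) / d) =
      (f ∣[(2 : ℤ)] Tr (((j * p : ℕ) : ℝ) / d)) ∣[(2 : ℤ)] r := by
  obtain ⟨D', hD'⟩ := Nat.dvd_of_mem_divisors hd
  have hd0 : (d : ℝ) ≠ 0 := by exact_mod_cast (Nat.pos_of_mem_divisors hd).ne'
  have hDR : (D : ℝ) = d * D' := by exact_mod_cast hD'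
  rw [hDR] at hr hdet
  refine slash_comm hr hdet (k1 := j * p * (i * (M₀ * (d * D' ^ 2))))
    (k2 := j ^ 2 * p ^ 2 * (i * (M₀ * D' ^ 2)))
    (k3 := j * (i ^ 2 * (M₀ * (d ^ 3 * D' ^ 4))))
    (k4 := j ^ 2 * p ^ 2 * (i ^ 2 * (M₀ ^ 2 * (d ^ 2 * D' ^ 4)))) ?_ ?_ ?_ ?_ hf
  · push_cast; field_simp
  · push_cast; field_simp; ring
  · push_cast; field_simp
  · push_cast; field_simp

theorem isRat_Lo' {x : ℝ} (q : ℚ) (h : x = q) : IsRat (Lo x) := by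
  rw [h]; exact isRat_Lo q

/-- good systems of representatives for `Γ₀(M₀) / Γ₀(M₀p)` -/
theorem exists_sysL {p : ℕ} (hp : p.Prime) (M₀ D : ℕ) (hM₀ : M₀ ≠ 0) (hD : D ≠ 0)
    (hpD : ¬ p ∣ D) :
    ∃ (ι : Type) (_ : Fintype ι) (_ : Nonempty ι) (r : ι → GL (Fin 2) ℝ),
      (∀ i, IsRat (r i)) ∧ (∀ i, 0 < (r i).det.val) ∧
      HSys (G0 (M₀ * p)) r 1 (G0 M₀ : Set (GL (Fin 2) ℝ)) ∧
      HSys (G0 ((M₀ * D ^ 2) * p)) r 1 (G0 (M₀ * D ^ 2) : Set (GL (Fin 2) ℝ)) ∧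
      ∀ f : ℍ → ℂ, (∀ γ ∈ G0 (M₀ * p), f ∣[(2 : ℤ)] γ = f) → ∀ i, ∀ d ∈ D.divisors, ∀ j : ℕ,
        (f ∣[(2 : ℤ)] (r i)) ∣[(2 : ℤ)] Tr (((j * p : ℕ) : ℝ) / d) =
        (f ∣[(2 : ℤ)] Tr (((j * p : ℕ) : ℝ) / d)) ∣[(2 : ℤ)] (r i) := by
  have hp0 := hp.ne_zero
  have hpR : (p : ℝ) ≠ 0 := by exact_mod_cast hp0
  have hMD : M₀ * D ^ 2 ≠ 0 := mul_ne_zero hM₀ (pow_ne_zero 2 hD)
  have hD2 : ¬ (p : ℤ) ∣ ((D ^ 2 : ℕ) : ℤ) := by
    rw [Int.natCast_dvd_natCast]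
    exact fun h => hpD (hp.dvd_of_dvd_pow h)
  have h1 : ¬ (p : ℤ) ∣ (1 : ℤ) := (Nat.prime_iff_prime_int.1 hp).not_dvd_one
  by_cases hpM : p ∣ M₀
  · refine ⟨Fin p, inferInstance, ⟨⟨0, hp.pos⟩⟩,
      fun j => Lo (((j : ℕ) : ℝ) * (M₀ * ((D ^ 2 : ℕ) : ℤ))), ?_, ?_,
      hsysL1 hp hM₀ hpM hD2, ?_, ?_⟩
    · exact fun i => isRat_Lo' (((i : ℕ) : ℚ) * (M₀ * ((D ^ 2 : ℕ) : ℤ))) (by push_cast; rfl)
    · intro i
      rw [(ent_Lo _).det]; norm_num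
    · have h2 := hsysL1 (M := M₀ * D ^ 2) hp hMD (hpM.mul_right _) h1
      convert h2 using 4
      push_cast; ring
    · intro f hf i d hd j
      refine slash_comm_L (D := D) hf i ((ent_Lo _).congr rfl rfl ?_ rfl) ?_ hd j
      · push_cast; ring
      · ring
  · have hw : ¬ (p : ℤ) ∣ ((M₀ * D ^ 2 : ℕ) : ℤ) := by
      rw [Int.natCast_dvd_natCast, hp.dvd_mul, not_or]
      exact ⟨hpM, fun h => hpD (hp.dvd_of_dvd_pow h)⟩
    obtain ⟨x, hx⟩ := exists_mul_add_one hp hw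
    refine ⟨Option (Fin p), inferInstance, inferInstance,
      rL p x (M₀ * ((D ^ 2 : ℕ) : ℤ)), ?_, ?_,
      hsysL2 hp hM₀ (by push_cast at hx ⊢; exact hx), ?_, ?_⟩
    · rintro (_ | i)
      · refine (isRat_Lo' (M₀ * ((D ^ 2 : ℕ) : ℤ)) (by push_cast; rfl)).mul ?_
        have := isRat_Tr (x : ℚ)
        push_cast at this
        exact this
      · exact isRat_Lo' (((i : ℕ) : ℚ) * (M₀ * ((D ^ 2 : ℕ) : ℤ))) (by push_cast; rfl)
    · rintro (_ | i)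
      · rw [(ent_rL_none _ _).det]
        ring_nf; norm_num
      · show 0 < (Lo _).det.val
        rw [(ent_Lo _).det]; norm_num
    · have h2 := hsysL2 (M := M₀ * D ^ 2) (w' := 1) hp hMD (by rw [mul_one]; exact hx)
      convert h2 using 2
      push_cast; ring
    · intro f hf i d hd j
      rcases i with _ | i
      · refine slash_comm_L (D := D) hf 1 ((ent_rL_none _ _).congr rfl rfl ?_ rfl) ?_ hd j
        · push_cast; ring
        · push_cast; ring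
      · refine slash_comm_L (D := D) hf i ((ent_Lo _).congr rfl rfl ?_ rfl) ?_ hd j
        · push_cast; ring
        · ring

theorem dep_zero (D : ℕ) : dep D 0 = 0 := by
  rw [dep]
  refine Finset.sum_eq_zero fun d hd => ?_
  rw [ep_eq_sum (Nat.pos_of_mem_divisors hd).ne']
  simp only [SlashAction.zero_slash, Finset.sum_const_zero, smul_zero]

/-- **Strong multiplicity one**, main step: the level of a newform divides every level at which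
its eigensystem occurs. -/
theorem factorization_le {N₁ N₂ : ℕ} [NeZero N₁] [NeZero N₂] {f : S2 N₁} (hf : f.IsNewform)
    {g : S2 N₂} (hg : g.IsNormalizedEigenform) {D : ℕ} (hD : D ≠ 0)
    (h : ∀ ℓ : ℕ, ℓ.Prime → ¬ ℓ ∣ D → qCoeff f ℓ = qCoeff g ℓ) {p : ℕ} (hp : p.Prime) :
    N₁.factorization p ≤ N₂.factorization p := by
  by_contra hlt
  push Not at hlt
  -- `p` divides `N₁`
  have hpN₁ : p ∣ N₁ := by
    by_contra h0
    rw [Nat.factorization_eq_zero_of_not_dvd h0] at hlt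
    exact absurd hlt (Nat.not_lt_zero _)
  obtain ⟨M₀, hM₀⟩ : ∃ M, N₁ = M * p := ⟨N₁ / p, (Nat.div_mul_cancel hpN₁).symm⟩
  subst hM₀
  have hM₀0 : M₀ ≠ 0 := fun h => NeZero.ne (M₀ * p) (by rw [h, zero_mul])
  -- the auxiliary integer
  set E := D * (M₀ * p) * N₂ with hE
  have hE0 : E ≠ 0 := mul_ne_zero (mul_ne_zero hD (NeZero.ne _)) (NeZero.ne _)
  have : NeZero E := ⟨hE0⟩
  set D₀ := ordCompl[p] E with hD₀
  have hD₀0 : D₀ ≠ 0 := (Nat.ordCompl_pos p hE0).ne'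
  have hpD₀ : ¬ p ∣ D₀ := Nat.not_dvd_ordCompl hp hE0
  have hcop : ∀ n, ¬ p ∣ n → n.Coprime D₀ → n.Coprime E := by
    intro n hn1 hn2
    rw [← Nat.ordProj_mul_ordCompl_eq_self E p]
    exact Nat.Coprime.mul_right (Nat.Coprime.pow_right _
      ((Nat.Prime.coprime_iff_not_dvd hp).2 hn1).symm) hn2
  have hfg : ∀ n, n.Coprime E → qCoeff f n = qCoeff g n := fun n hn =>
    qCoeff_eq_of_chi_eq (N := E) ((dvd_mul_left _ _).mul_right _) (dvd_mul_left _ _) hf.1 hg hD h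
      n hn
  -- `N₂ ∣ M₀ D₀`
  have hN₂ : N₂ ∣ M₀ * D₀ := by
    rw [← Nat.ordProj_mul_ordCompl_eq_self N₂ p]
    refine mul_dvd_mul ?_ ?_
    · refine (Nat.Prime.pow_dvd_iff_le_factorization hp hM₀0).2 ?_
      rw [Nat.factorization_mul hM₀0 hp.ne_zero, hp.factorization] at hlt
      simp at hlt
      exact hlt
    · exact Nat.ordCompl_dvd_ordCompl_of_dvd (dvd_mul_left _ _) p
  set D₁ := D₀ ^ 2 with hD₁
  have hD₁0 : D₁ ≠ 0 := pow_ne_zero 2 hD₀0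
  have hpD₁ : ¬ p ∣ D₁ := fun h => hpD₀ (hp.dvd_of_dvd_pow h)
  have hdiv : ∀ d ∈ D₀.divisors, d ∈ D₁.divisors := fun d hd =>
    Nat.mem_divisors.2 ⟨(Nat.dvd_of_mem_divisors hd).trans (Dvd.intro_left (D₀ ^ 1) (by
      rw [hD₁]; ring)), hD₁0⟩
  set M := M₀ * D₁ ^ 2 with hM
  have hM0 : NeZero M := ⟨mul_ne_zero hM₀0 (pow_ne_zero 2 hD₁0)⟩
  have hMp : NeZero (M * p) := ⟨mul_ne_zero hM0.ne hp.ne_zero⟩
  set f' := dep D₀ f with hf'
  set g' := dep D₀ g with hg'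
  have hf'CF : IsCF (M * p) f' := ((isCF f).dep D₀).mono ⟨D₀ ^ 2, by rw [hM, hD₁]; ring⟩
  have hg'CF : IsCF M g' := ((isCF g).dep D₀).mono (by
    refine (mul_dvd_mul_right hN₂ _).trans ⟨D₀, ?_⟩
    rw [hM, hD₁]; ring)
  have hg'CF' : IsCF (M * p) g' := hg'CF.mono (dvd_mul_right _ _)
  have hsupp : ∀ n, ¬ p ∣ n → qCoeff (f' - g') n = 0 := by
    intro n hn
    rw [hf'CF.qCoeff_sub hg'CF', hf', hg', (isCF f).qCoeff_dep hD₀0, (isCF g).qCoeff_dep hD₀0]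
    split_ifs with h1
    · rw [hfg n (hcop n hn h1), sub_self]
    · rw [sub_zero]
  obtain ⟨v, hv, hfgv⟩ := (hf'CF.sub hg'CF').exists_Bd hp hsupp (M' := M) ⟨1, by ring⟩
  -- the two traces vanish
  have hfT : ⇑f ∣[(2 : ℤ)] Tr 1 = ⇑f := by simpa using (isCF f).slash_Tr_int 1
  have hpD₀' : p.Coprime D₀ := (Nat.Prime.coprime_iff_not_dvd hp).2 hpD₀
  have hz : (0 : ℍ → ℂ) ∣[(2 : ℤ)] Tr 1 = 0 := SlashAction.zero_slash _ _
  have hBv : IsCF (M * p) (Bd p v) := hv.Bd hp.ne_zero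
  have hA : ip (psi (M * p)) f' (Bd p v) = 0 := by
    obtain ⟨ι, _, _, r, hrat, hdet, hsys, hsys', hcomm⟩ := exists_sysK hp M₀ D₁ hpD₁
    have h1 := newform_sumK_eq_zero hp hf hrat hsys
    have h2 := dep_sum (f := f) (c := p) (D := D₀) hpD₀' hdet
      (fun i d hd j => hcomm f (isCF f).inv i d (hdiv d hd) (j * p)) hfT (by rw [h1, hz])
    rw [h1, dep_zero, ← hf'] at h2
    have h3 := ip_sum_slash hsys' hf'CF hBv fun γ hγ => KK_inv_of_isCF hp.ne_zero hv hγ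
    rw [h2] at h3
    have h4 : ip (psi (M * p)) 0 (Bd p v) = 0 := by
      have := ip_smul_left (ψ := psi (M * p)) 0 0 (Bd p v)
      rwa [smul_zero, map_zero, zero_mul] at this
    rw [h4] at h3
    have hc0 : (Fintype.card ι : ℂ) ≠ 0 := by exact_mod_cast Fintype.card_ne_zero
    exact (mul_eq_zero.1 h3.symm).resolve_left hc0
  have hB : ip (psi (M * p)) f' g' = 0 := by
    obtain ⟨ι, _, _, r, hrat, hdet, hsys, hsys', hcomm⟩ := exists_sysL hp M₀ D₁ hM₀0 hD₁0 hpD₁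
    have h1 := newform_sumL_eq_zero hp hf hrat hsys
    have h2 := dep_sum (f := f) (c := p) (D := D₀) hpD₀' hdet
      (fun i d hd j => hcomm f (isCF f).inv i d (hdiv d hd) j) hfT (by rw [h1, hz])
    rw [h1, dep_zero, ← hf'] at h2
    have h3 := ip_sum_slash hsys' hf'CF hg'CF' fun γ hγ => hg'CF.inv γ hγ
    rw [h2] at h3
    have h4 : ip (psi (M * p)) 0 g' = 0 := by
      have := ip_smul_left (ψ := psi (M * p)) 0 0 g'
      rwa [smul_zero, map_zero, zero_mul] at this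
    rw [h4] at h3
    have hc0 : (Fintype.card ι : ℂ) ≠ 0 := by exact_mod_cast Fintype.card_ne_zero
    exact (mul_eq_zero.1 h3.symm).resolve_left hc0
  have hC : ip (psi (M * p)) f' f' = 0 := by
    have h1 : f' = Bd p v + g' := by rw [← hfgv]; abel
    have h2 : ip (psi (M * p)) f' (Bd p v + g') = 0 := by
      rw [← ip_symm, ip_add_left hBv.nice hg'CF'.nice hf'CF.nice (isWt_psi _), map_add, ip_symm,
        ip_symm, hA, hB, add_zero]
    rwa [← h1] at h2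
  have h0 := eq_zero_of_ip_self hf'CF.nice (isWt_psi _) hC
  have h1 := (isCF f).qCoeff_dep hD₀0 1
  rw [← hf', h0, qCoeff_zero_fun, if_pos (Nat.coprime_one_left _), hf.1.qCoeff_one] at h1
  exact zero_ne_one h1

/-- the level of a newform divides every level at which its eigensystem occurs. -/
theorem level_dvd {N₁ N₂ : ℕ} [NeZero N₁] [NeZero N₂] {f : S2 N₁} (hf : f.IsNewform)
    {g : S2 N₂} (hg : g.IsNormalizedEigenform) {D : ℕ} (hD : D ≠ 0)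
    (h : ∀ ℓ : ℕ, ℓ.Prime → ¬ ℓ ∣ D → qCoeff f ℓ = qCoeff g ℓ) : N₁ ∣ N₂ := by
  rw [← Nat.factorization_le_iff_dvd (NeZero.ne _) (NeZero.ne _)]
  intro p
  by_cases hp : p.Prime
  · exact factorization_le hf hg hD h hp
  · rw [Nat.factorization_eq_zero_of_not_prime _ hp]
    exact Nat.zero_le _

/-- **Strong multiplicity one.** -/
theorem strong_multiplicity_one {N₁ N₂ : ℕ} [NeZero N₁] [NeZero N₂] {f : S2 N₁}
    (hf : f.IsNewform) {g : S2 N₂} (hg : g.IsNewform) {D : ℕ} (hD : D ≠ 0)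
    (h : ∀ ℓ : ℕ, ℓ.Prime → ¬ ℓ ∣ D → qCoeff f ℓ = qCoeff g ℓ) :
    ∃ e : N₁ = N₂, e ▸ f = g := by
  have h1 := level_dvd hf hg.1 hD h
  have h2 := level_dvd hg hf.1 hD fun ℓ hℓ hℓD => (h ℓ hℓ hℓD).symm
  obtain rfl := Nat.dvd_antisymm h1 h2
  exact ⟨rfl, (newform_eq_of_level_eq hf hg.1 hD h).symm⟩

end Fermat.Agent.Newform
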