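import Fermat.Agent.Newform.Mult

/-!
# Newforms are orthogonal to oldforms; coefficients at bad primes
-/

set_option autoImplicit false

noncomputable section

namespace Fermat.Agent.Newform

open UpperHalfPlane Matrix Set
open scoped MatrixGroups ModularForm Manifold ComplexConjugate
open ModularFormClass (qCoeff)
open DSLift (heckeOp)
open CuspForm (GoodEigensystemOccursAt)

variable {M N D : ℕ} {f g : ℍ → ℂ}

theorem IsCF.nice [NeZero N] (hf : IsCF N f) : Nice (G0 N) f := nice_cuspForm (mkCF N f hf)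

theorem IsCF.cont (hf : IsCF N f) : Continuous f := hf.v.holo.continuous

theorem ip_sum_slash [NeZero N] {ι : Type*} [Fintype ι] {r : ι → GL (Fin 2) ℝ}
    {K : Subgroup (GL (Fin 2) ℝ)} (h : HSys (G0 N) r 1 (K : Set (GL (Fin 2) ℝ)))
    (hf : IsCF N f) (hg : IsCF N g) (hgK : ∀ γ ∈ K, g ∣[(2 : ℤ)] γ = g) :
    ip (psi N) (∑ i, f ∣[(2 : ℤ)] (r i)) g = (Fintype.card ι : ℂ) * ip (psi N) f g := by
  rw [h.selfadjoint (isWt_psi N) hf.nice hg.nice
    (fun i => (MDifferentiable.slash hf.v.holo 2 _).continuous)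
    (fun i => (MDifferentiable.slash hg.v.holo 2 _).continuous), h.sum_of_inv hgK]
  rw [← ip_symm, ip_smul_left, map_mul, Complex.conj_conj, ip_symm]

/-- Petersson product as a linear map in the second variable -/
def ipR [NeZero N] (f : S2 N) : S2 N →ₗ[ℂ] ℂ where
  toFun g := ip (psi N) f g
  map_add' g h := by
    rw [← ip_symm, ← ip_symm (⇑f) (⇑g), ← ip_symm (⇑f) (⇑h), ← map_add]
    congr 1
    exact ip_add_left (nice_cuspForm g) (nice_cuspForm h) (nice_cuspForm f) (isWt_psi N)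
  map_smul' c g := by
    rw [← ip_symm, ← ip_symm (⇑f) (⇑g)]
    have : ⇑(c • g) = c • ⇑g := rfl
    rw [this, ip_smul_left, map_mul, Complex.conj_conj]
    rfl

theorem ipR_apply [NeZero N] (f g : S2 N) : ipR f g = ip (psi N) f g := rfl

/-- newforms are orthogonal to oldforms. -/
theorem ip_newform_old [NeZero N] {f : S2 N} (hf : f.IsNewform) [NeZero M] (hne : M ≠ N)
    {d : ℕ} (hd : d ≠ 0) (h : M * d ∣ N) (v : S2 M) : ip (psi N) f (bL M N d hd h v) = 0 := by
  have hMN : M ∣ N := (dvd_mul_right _ _).trans h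
  have hdN : d ∣ N := (dvd_mul_left _ _).trans h
  have hle : (⊤ : Submodule ℂ (S2 M)) ≤ LinearMap.ker (ipR f ∘ₗ bL M N d hd h) := by
    rw [← iSup_Eig hMN]
    refine iSup_le fun χ => ?_
    intro v hv
    rw [LinearMap.mem_ker, LinearMap.comp_apply, ipR_apply]
    by_cases hχ : χ = chi f N
    · rw [hχ, Eig_eq_bot_of_isNewform hf hMN hne (NeZero.ne N), Submodule.mem_bot] at hv
      rw [hv, map_zero, ← ipR_apply, map_zero]
    · refine ip_Eig dvd_rfl (Ne.symm hχ) (mem_Eig_chi hf.1 N) ?_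
      rw [mem_Eig] at hv ⊢
      intro ℓ
      rw [← bL_heckeOp hd h ℓ.2.1 (fun h => ℓ.2.2 (h.trans hdN)) (fun h => absurd h ℓ.2.2), hv ℓ,
        map_smul]
  have := hle (Submodule.mem_top (x := v))
  rwa [LinearMap.mem_ker, LinearMap.comp_apply, ipR_apply] at this

/-- traces of newforms to old level vanish. -/
theorem newform_sum_eq_zero [NeZero N] {f : S2 N} (hf : f.IsNewform) [NeZero M] (hne : M ≠ N)
    {d : ℕ} (hd : d ≠ 0) (h : M * d ∣ N) {ι : Type*} [Fintype ι] {r : ι → GL (Fin 2) ℝ}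
    {K : Subgroup (GL (Fin 2) ℝ)} (hsys : HSys (G0 N) r 1 (K : Set (GL (Fin 2) ℝ)))
    {u : ℍ → ℂ} (hu : IsCF M u) (hsum : ∑ i, ⇑f ∣[(2 : ℤ)] (r i) = Bd d u) :
    ∑ i, ⇑f ∣[(2 : ℤ)] (r i) = 0 := by
  have hF : IsCF N (Bd d u) := (hu.Bd hd).mono h
  have hinv : ∀ γ ∈ K, (Bd d u) ∣[(2 : ℤ)] γ = Bd d u := fun γ hγ => by
    rw [← hsum]; exact hsys.slash_sum (isCF f).inv hγ
  have h1 := ip_sum_slash hsys (isCF f) hF hinv
  have h2 : ip (psi N) f (Bd d u) = 0 := ip_newform_old hf hne hd h (mkCF M u hu)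
  rw [h2, mul_zero, hsum] at h1
  rw [hsum]
  exact eq_zero_of_ip_self hF.nice (isWt_psi N) h1

/-- the `K`-trace of a newform vanishes -/
theorem newform_sumK_eq_zero {p : ℕ} (hp : p.Prime) [NeZero (M * p)] {f : S2 (M * p)}
    (hf : f.IsNewform) {ι : Type*} [Fintype ι] {r : ι → GL (Fin 2) ℝ} (hr : ∀ i, IsRat (r i))
    (hsys : HSys (G0 (M * p)) r 1 (KK M p : Set (GL (Fin 2) ℝ))) :
    ∑ i, ⇑f ∣[(2 : ℤ)] (r i) = 0 := by
  have hM : NeZero M := ⟨fun h => NeZero.ne (M * p) (by rw [h, zero_mul])⟩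
  obtain ⟨u, hu, hfu⟩ := isCF_of_KK hp.ne_zero
    (V2.sum Finset.univ fun i _ => (isCF f).v.slash (hr i))
    (fun γ hγ => hsys.slash_sum (isCF f).inv hγ)
  exact newform_sum_eq_zero hf (fun h => hp.one_lt.ne'
    (Nat.eq_of_mul_eq_mul_left (NeZero.pos M) (by rw [← h, mul_one])))
    hp.ne_zero dvd_rfl hsys hu hfu

/-- the trace of a newform to `Γ₀(M)` vanishes -/
theorem newform_sumL_eq_zero {p : ℕ} (hp : p.Prime) [NeZero (M * p)] {f : S2 (M * p)}
    (hf : f.IsNewform) {ι : Type*} [Fintype ι] {r : ι → GL (Fin 2) ℝ} (hr : ∀ i, IsRat (r i))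
    (hsys : HSys (G0 (M * p)) r 1 (G0 M : Set (GL (Fin 2) ℝ))) :
    ∑ i, ⇑f ∣[(2 : ℤ)] (r i) = 0 := by
  have hM : NeZero M := ⟨fun h => NeZero.ne (M * p) (by rw [h, zero_mul])⟩
  refine newform_sum_eq_zero (M := M) (d := 1) (u := ∑ i, ⇑f ∣[(2 : ℤ)] (r i)) hf
    (fun h => hp.one_lt.ne' (Nat.eq_of_mul_eq_mul_left (NeZero.pos M) (by rw [← h, mul_one])))
    one_ne_zero (by rw [mul_one]; exact dvd_mul_right _ _) hsys ⟨?_, ?_⟩ ?_
  · exact V2.sum Finset.univ fun i _ => (isCF f).v.slash (hr i)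
  · exact fun γ hγ => hsys.slash_sum (isCF f).inv hγ
  · ext z
    rw [Bd]
    have : ModularForm.heckeDiagMatrix 1 = 1 :=
      ((ent_hD one_ne_zero).congr (by simp) rfl rfl rfl).ext ent_one
    rw [this, one_smul]

/-- **Coefficients at the bad primes, additive case.** -/
theorem qCoeff_bad_of_dvd_sq [NeZero N] {f : S2 N} (hf : f.IsNewform) {q : ℕ} (hq : q.Prime)
    (hqN : q ^ 2 ∣ N) (n : ℕ) : qCoeff f (n * q) = 0 := by
  obtain ⟨M', rfl⟩ := hqN
  obtain ⟨M, hM⟩ : ∃ M, M = q * M' := ⟨_, rfl⟩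
  have h1 : q ^ 2 * M' = M * q := by rw [hM]; ring
  have key : ∀ (N : ℕ) (_ : NeZero N) (f : S2 N), f.IsNewform → N = M * q →
      qCoeff f (n * q) = 0 := by
    rintro _ _ f hf rfl
    have h2 := newform_sumK_eq_zero hq hf (r := fun j : Fin q => Tr (((j : ℕ) : ℝ) / q))
      (fun i => by
        have := isRat_Tr (((i : ℕ) : ℚ) / q)
        push_cast at this
        exact this) (hsysK1 hq (by rw [hM]; exact dvd_mul_right _ _))
    have h3 : ep q f = 0 := by
      rw [ep_eq_sum hq.ne_zero, Finset.sum_range, h2, smul_zero]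
    have h4 := (isCF f).qCoeff_ep hq.ne_zero (n * q)
    rw [h3, if_pos (dvd_mul_left _ _), qCoeff_zero_fun] at h4
    exact h4.symm
  exact key _ inferInstance f hf h1

/-- **Coefficients at the bad primes, multiplicative case.** -/
theorem qCoeff_bad_sq [NeZero N] {f : S2 N} (hf : f.IsNewform) {q : ℕ} (hq : q.Prime)
    (hqN : q ∣ N) (hq2 : ¬ q ^ 2 ∣ N) : qCoeff f q ^ 2 = 1 := by
  obtain ⟨M, hM⟩ : ∃ M, N = M * q := ⟨N / q, (Nat.div_mul_cancel hqN).symm⟩
  have hqR : (q : ℝ) ≠ 0 := by exact_mod_cast hq.ne_zero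
  have hqC : (q : ℂ) ≠ 0 := by exact_mod_cast hq.ne_zero
  subst hM
  have hqM : ¬ q ∣ M := by
    rintro ⟨k, rfl⟩
    exact hq2 ⟨k, by ring⟩
  obtain ⟨u, k, hk⟩ := exists_mul_add_one hq (w := (M : ℤ)) (by rwa [Int.natCast_dvd_natCast])
  have hkR : (1 : ℝ) + u * M = q * k := by exact_mod_cast hk
  have h2 := newform_sumK_eq_zero hq hf (r := rK q u M) ?_ (hsysK2 hq dvd_rfl ⟨k, hk⟩)
  swap
  · rintro (_ | i)
    · have h1 := isRat_Tr ((u : ℚ) / q)
      have h2 := isRat_Lo ((q : ℚ) * ((M : ℕ) : ℤ))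
      push_cast at h1 h2
      have h3 := h1.mul h2
      simpa [rK] using h3
    · have := isRat_Tr (((i : ℕ) : ℚ) / q)
      push_cast at this
      exact this
  rw [Fintype.sum_option] at h2
  have h3 : ∑ i : Fin q, ⇑f ∣[(2 : ℤ)] (rK q u M (some i)) = (q : ℂ) • ep q f := by
    rw [ep_eq_sum hq.ne_zero, smul_smul, mul_inv_cancel₀ hqC, one_smul, Finset.sum_range]
    rfl
  have hU : ModularForm.heckeU 2 q f = qCoeff f q • ⇑f := by
    have h4 := DSLift.heckeOp_apply_of_isNormalizedEigenform _ hf.1 hq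
    rw [DSLift.heckeOp_of_dvd hq hqN] at h4
    exact congrArg DFunLike.coe h4
  have h5 : (q : ℂ) • ep q f = qCoeff f q • (⇑f ∣[(2 : ℤ)] ModularForm.heckeDiagMatrix q) := by
    rw [ep, hU, slash_hD hq.ne_zero, smul_comm]
    rfl
  rw [h3, h5] at h2
  set a := qCoeff f q with ha
  have h6 : ⇑f ∣[(2 : ℤ)] (rK q u M none) =
      (-a) • (⇑f ∣[(2 : ℤ)] ModularForm.heckeDiagMatrix q) := by
    rw [_root_.neg_smul]; exact eq_neg_of_add_eq_zero_left h2
  -- the Atkin-Lehner matrix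
  set δ := ModularForm.heckeDiagMatrix q with hδ
  set W := rK q u M none * δ⁻¹ with hW
  have hdinv : 0 < (δ⁻¹).det.val := by
    have := det_hD_pos q
    rw [map_inv, Units.val_inv_eq_inv_val]
    exact inv_pos.2 this
  have h7 : ⇑f ∣[(2 : ℤ)] W = (-a) • ⇑f := by
    rw [hW, SlashAction.slash_mul, h6, smul_slash_pos hdinv, ← SlashAction.slash_mul,
      mul_inv_cancel, SlashAction.slash_one]
  have hWE : Ent W k (u / q) M 1 := by
    obtain ⟨x, y, z, w, hE⟩ := exists_ent W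
    have h8 := mul_hD_ent hq.ne_zero hE
    rw [← hδ, hW, inv_mul_cancel_right] at h8
    obtain ⟨h9, h10, h11, h12⟩ := h8.inj (ent_rK_none hq.ne_zero u M)
    refine hE.congr ?_ h10 ?_ h12
    · push_cast at h9
      rw [hkR] at h9
      rw [mul_comm] at h9; exact mul_left_cancel₀ hqR h9
    · push_cast at h11
      rw [mul_comm] at h11; exact mul_left_cancel₀ hqR h11
  have hWdet : 0 < W.det.val := by
    rw [hWE.det]
    have : (k : ℝ) * 1 - u / q * M = 1 / q := by field_simp; linarith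
    rw [this]
    have : (0 : ℝ) < q := by exact_mod_cast hq.pos
    positivity
  have h8 : ⇑f ∣[(2 : ℤ)] (W * W) = (a ^ 2) • ⇑f := by
    rw [SlashAction.slash_mul, h7, smul_slash_pos hWdet, h7, smul_smul]
    congr 1; ring
  have h9 : Sc (q : ℝ) hqR * (W * W) ∈ G0 (M * q) := by
    refine mem_G0_of_ent (q * k ^ 2 + q * k - 1) (u * (k + 1)) (k + 1) (q * k + q - 1)
      ((ent_Sc _ hqR).mul (hWE.mul hWE)) ?_ ?_ ?_ ?_ ?_
    · push_cast; field_simp; linear_combination hkR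
    · push_cast; field_simp; ring
    · push_cast; ring
    · push_cast; field_simp; linear_combination (q : ℝ) * hkR
    · have hdW : (k : ℝ) * 1 - u / q * M = 1 / q := by field_simp; linarith
      have h12 : (1 : ℝ) = q ^ 2 * ((k : ℝ) * 1 - u / q * M) ^ 2 := by
        rw [hdW]; field_simp
      refine Eq.trans ?_ h12.symm
      ring
  have h10 := (isCF f).inv _ h9
  rw [SlashAction.slash_mul, Sc_slash, h8] at h10
  have h11 : qCoeff (⇑(a ^ 2 • f)) 1 = qCoeff f 1 := by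
    have : ⇑(a ^ 2 • f) = a ^ 2 • ⇑f := rfl
    rw [this, h10]
  rw [qCoeff_smul', hf.1.qCoeff_one, mul_one] at h11
  exact h11

/-- `NewformBadPrimeCoeff` holds for every positive level. -/
theorem newformBadPrimeCoeff (N : ℕ) [NeZero N] : CuspForm.NewformBadPrimeCoeff N := by
  intro f hf q hq hqN
  refine ⟨fun h => qCoeff_bad_sq hf hq hqN h, fun h => ?_⟩
  have := qCoeff_bad_of_dvd_sq hf hq h 1
  rwa [one_mul] at this

end Fermat.Agent.Newform
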