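import Fermat.Agent.Newform.Eig
import Fermat.Prelude.Def_CuspForm_Newforms

/-!
# Newforms of weight two
-/

set_option autoImplicit false

noncomputable section

namespace Fermat.Agent.Newform

open UpperHalfPlane Matrix Set
open scoped MatrixGroups ModularForm Manifold
open ModularFormClass (qCoeff)
open DSLift (heckeOp)
open CuspForm (GoodEigensystemOccursAt)

variable {M N D : ℕ}

/-- the degeneracy map `f(z) ↦ f(dz)` -/
def bL (M N d : ℕ) [NeZero M] [NeZero N] (hd : d ≠ 0) (h : M * d ∣ N) : S2 M →ₗ[ℂ] S2 N where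
  toFun f := mkCF N (Bd d f) (((isCF f).Bd hd).mono h)
  map_add' _ _ := DFunLike.coe_injective rfl
  map_smul' c f := DFunLike.coe_injective (by
    ext z
    simp [Bd])

@[simp] theorem coe_bL [NeZero M] [NeZero N] {d : ℕ} (hd : d ≠ 0) (h : M * d ∣ N) (f : S2 M) :
    ⇑(bL M N d hd h f) = Bd d f := rfl

theorem qCoeff_bL [NeZero M] [NeZero N] {d : ℕ} (hd : d ≠ 0) (h : M * d ∣ N) (f : S2 M) (n : ℕ) :
    qCoeff (bL M N d hd h f) n = if d ∣ n then qCoeff f (n / d) else 0 :=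
  (isCF f).qCoeff_Bd hd n

theorem bL_injective [NeZero M] [NeZero N] {d : ℕ} (hd : d ≠ 0) (h : M * d ∣ N) :
    Function.Injective (bL M N d hd h) := by
  rw [injective_iff_map_eq_zero]
  intro f hf
  refine DSLift.eq_zero_of_qCoeff_eq_zero fun n => ?_
  have h1 := qCoeff_bL hd h f (d * n)
  rw [if_pos (dvd_mul_right _ _), Nat.mul_div_cancel_left _ (Nat.pos_of_ne_zero hd), hf] at h1
  rw [← h1]
  exact qCoeff_zero_fun _

theorem qCoeff_heckeOp' [NeZero M] {ℓ : ℕ} (hℓ : ℓ.Prime) (f : S2 M) (n : ℕ) :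
    qCoeff (heckeOp M 2 hℓ f) n = qCoeff f (n * ℓ) +
        (if ℓ ∣ M then 0 else (ℓ : ℂ)) * (if ℓ ∣ n then qCoeff f (n / ℓ) else 0) := by
  rw [DSLift.qCoeff_heckeOp]
  norm_num

theorem bL_heckeOp [NeZero M] [NeZero N] {d : ℕ} (hd : d ≠ 0) (h : M * d ∣ N) {ℓ : ℕ}
    (hℓ : ℓ.Prime) (hℓd : ¬ ℓ ∣ d) (hℓMN : ℓ ∣ N → ℓ ∣ M) (f : S2 M) :
    bL M N d hd h (heckeOp M 2 hℓ f) = heckeOp N 2 hℓ (bL M N d hd h f) := by
  refine DSLift.ext_qCoeff fun n => ?_
  have hMN : M ∣ N := (dvd_mul_right _ _).trans h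
  have hiff : ℓ ∣ M ↔ ℓ ∣ N := ⟨fun h => h.trans hMN, hℓMN⟩
  have hco : d.Coprime ℓ := ((Nat.Prime.coprime_iff_not_dvd hℓ).2 hℓd).symm
  have hif : (if ℓ ∣ M then 0 else (ℓ : ℂ)) = if ℓ ∣ N then 0 else (ℓ : ℂ) := by
    simp only [hiff]
  rw [qCoeff_bL, qCoeff_heckeOp', qCoeff_heckeOp', qCoeff_bL, qCoeff_bL, hif]
  have h1 : d ∣ n * ℓ ↔ d ∣ n := hco.dvd_mul_right
  by_cases hdn : d ∣ n
  · obtain ⟨m, rfl⟩ := hdn
    have hd' := Nat.pos_of_ne_zero hd
    rw [if_pos (dvd_mul_right _ _), if_pos (h1.2 (dvd_mul_right _ _)),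
      Nat.mul_div_cancel_left _ hd', mul_assoc, Nat.mul_div_cancel_left _ hd']
    congr 2
    have h2 : ℓ ∣ d * m ↔ ℓ ∣ m := hco.symm.dvd_mul_left
    by_cases hℓm : ℓ ∣ m
    · obtain ⟨k, rfl⟩ := hℓm
      have h3 : d * (ℓ * k) / ℓ = d * k := by
        rw [mul_left_comm, Nat.mul_div_cancel_left _ hℓ.pos]
      rw [if_pos (dvd_mul_right _ _), if_pos (h2.2 (dvd_mul_right _ _)), h3,
        if_pos (dvd_mul_right _ _), Nat.mul_div_cancel_left _ hd',
        Nat.mul_div_cancel_left _ hℓ.pos]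
    · rw [if_neg hℓm, if_neg (fun h => hℓm (h2.1 h))]
  · rw [if_neg hdn, if_neg (fun h => hdn (h1.1 h)), zero_add]
    by_cases hℓn : ℓ ∣ n
    · obtain ⟨k, rfl⟩ := hℓn
      have h5 : ¬ d ∣ k := fun h => hdn (h.mul_left _)
      rw [if_pos (dvd_mul_right _ _), Nat.mul_div_cancel_left _ hℓ.pos, if_neg h5, mul_zero]
    · rw [if_neg hℓn, mul_zero]

/-! ### Eigenvectors -/

/-- coefficients of partial eigenvectors -/
theorem qCoeff_eq_zero_of_mem_Eig [NeZero M] {χ : GP D → ℂ} {h : S2 M}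
    (hh : h ∈ Eig M D χ) (h1 : qCoeff h 1 = 0) (n : ℕ) (hn : n.Coprime D) : qCoeff h n = 0 := by
  rw [mem_Eig] at hh
  induction n using Nat.strong_induction_on with
  | _ n ih =>
    rcases Nat.eq_zero_or_pos n with rfl | hn0
    · exact DSLift.qCoeff_zero_eq h
    rcases Nat.lt_or_ge 1 n with hn1 | hn1
    swap
    · obtain rfl : n = 1 := by omega
      exact h1
    have hp : n.minFac.Prime := Nat.minFac_prime (by omega)
    set p := n.minFac with hp'
    obtain ⟨m, hm⟩ : p ∣ n := Nat.minFac_dvd n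
    have hm0 : 0 < m := Nat.pos_of_ne_zero (by rintro rfl; omega)
    have hmn : m < n := by rw [hm]; exact lt_mul_of_one_lt_left hm0 hp.one_lt
    have hpD : ¬ p ∣ D := fun h => hp.one_lt.ne'
      (Nat.dvd_one.1 (hn ▸ Nat.dvd_gcd (hm ▸ dvd_mul_right _ _) h))
    have hmD : m.Coprime D := Nat.Coprime.coprime_dvd_left (hm ▸ dvd_mul_left _ _) hn
    have h2 := qCoeff_heckeOp' hp h m
    rw [hh ⟨p, hp, hpD⟩] at h2
    have h3 : qCoeff (⇑(χ ⟨p, hp, hpD⟩ • h)) m = 0 := by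
      have := (isCF h).qCoeff_smul (χ ⟨p, hp, hpD⟩) m
      rw [ih m hmn hmD, mul_zero] at this
      exact this
    rw [h3] at h2
    have h4 : (if p ∣ m then qCoeff h (m / p) else 0) = 0 := by
      split_ifs with h5
      · refine ih _ ((Nat.div_le_self _ _).trans_lt hmn) ?_
        exact Nat.Coprime.coprime_dvd_left (Nat.div_dvd_of_dvd h5) hmD
      · rfl
    rw [h4, mul_zero, add_zero] at h2
    rw [hm, mul_comm, ← h2]

theorem qCoeff_smul' [NeZero M] (c : ℂ) (f : S2 M) (n : ℕ) :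
    qCoeff (⇑(c • f)) n = c * qCoeff f n :=
  (DSLift.qCoeffLin M 2 n).map_smul c f

theorem qCoeff_sub' [NeZero M] (f g : S2 M) (n : ℕ) :
    qCoeff (⇑(f - g)) n = qCoeff f n - qCoeff g n :=
  (DSLift.qCoeffLin M 2 n).map_sub f g

theorem qCoeff_add' [NeZero M] (f g : S2 M) (n : ℕ) :
    qCoeff (⇑(f + g)) n = qCoeff f n + qCoeff g n :=
  (DSLift.qCoeffLin M 2 n).map_add f g

/-- common eigenvectors in stable subspaces -/
theorem exists_common_eigenvector [NeZero M] (V : Submodule ℂ (S2 M)) (hV : V ≠ ⊥)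
    (hs : ∀ (p : ℕ) (hp : p.Prime), ∀ v ∈ V, heckeOp M 2 hp v ∈ V) :
    ∃ g ∈ V, g.IsNormalizedEigenform := by
  classical
  -- a minimal stable nonzero subspace
  let Q : ℕ → Prop := fun n => ∃ W : Submodule ℂ (S2 M), W ≠ ⊥ ∧ W ≤ V ∧
    (∀ (p : ℕ) (hp : p.Prime), ∀ v ∈ W, heckeOp M 2 hp v ∈ W) ∧ Module.finrank ℂ W = n
  have hQ : ∃ n, Q n := ⟨_, V, hV, le_rfl, hs, rfl⟩
  obtain ⟨W, hW0, hWV, hWs, hWn⟩ := Nat.find_spec hQ
  have hscal : ∀ (p : ℕ) (hp : p.Prime), ∃ c : ℂ, ∀ v ∈ W, heckeOp M 2 hp v = c • v := by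
    intro p hp
    have : Nontrivial W := Submodule.nontrivial_iff_ne_bot.2 hW0
    obtain ⟨c, hc⟩ := Module.End.exists_eigenvalue ((heckeOp M 2 hp).restrict (hWs p hp))
    obtain ⟨v, hv⟩ := hc.exists_hasEigenvector
    set W' := W ⊓ (heckeOp M 2 hp).eigenspace c with hW'
    have hW'0 : W' ≠ ⊥ := by
      intro h0
      have : (v : S2 M) ∈ W' := by
        refine ⟨v.2, ?_⟩
        rw [SetLike.mem_coe, Module.End.mem_eigenspace_iff]
        exact congrArg Subtype.val hv.apply_eq_smul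
      rw [h0, Submodule.mem_bot] at this
      exact hv.2 (Subtype.ext this)
    have hW's : ∀ (q : ℕ) (hq : q.Prime), ∀ v ∈ W', heckeOp M 2 hq v ∈ W' := by
      intro q hq v hv
      refine ⟨hWs q hq v hv.1, ?_⟩
      have h1 := hv.2
      rw [SetLike.mem_coe, Module.End.mem_eigenspace_iff] at h1 ⊢
      have h2 := LinearMap.congr_fun (heckeOp_commute (M := M) hp hq).eq v
      rw [Module.End.mul_apply, Module.End.mul_apply, h1, map_smul] at h2
      exact h2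
    have h3 := Nat.find_min' hQ ⟨W', hW'0, inf_le_left.trans hWV, hW's, rfl⟩
    rw [← hWn] at h3
    have h4 : W' = W := Submodule.eq_of_le_of_finrank_le inf_le_left h3
    refine ⟨c, fun v hv => ?_⟩
    rw [← h4] at hv
    exact Module.End.mem_eigenspace_iff.1 hv.2
  obtain ⟨w, hw, hw0⟩ := Submodule.exists_mem_ne_zero_of_ne_bot hW0
  have hw1 : qCoeff w 1 ≠ 0 := by
    intro h1
    apply hw0
    refine DSLift.eq_zero_of_qCoeff_eq_zero fun n => ?_
    induction n using Nat.strong_induction_on with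
    | _ n ih =>
      rcases Nat.eq_zero_or_pos n with rfl | hn0
      · exact DSLift.qCoeff_zero_eq w
      rcases Nat.lt_or_ge 1 n with hn1 | hn1
      swap
      · obtain rfl : n = 1 := by omega
        exact h1
      have hp : n.minFac.Prime := Nat.minFac_prime (by omega)
      set p := n.minFac with hp'
      obtain ⟨m, hm⟩ : p ∣ n := Nat.minFac_dvd n
      have hm0 : 0 < m := Nat.pos_of_ne_zero (by rintro rfl; omega)
      have hmn : m < n := by rw [hm]; exact lt_mul_of_one_lt_left hm0 hp.one_lt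
      obtain ⟨c, hc⟩ := hscal p hp
      have h2 := qCoeff_heckeOp' hp w m
      rw [hc w hw, qCoeff_smul', ih m hmn, mul_zero] at h2
      have h4 : (if p ∣ m then qCoeff w (m / p) else 0) = 0 := by
        split_ifs with h5
        · exact ih _ ((Nat.div_le_self _ _).trans_lt hmn)
        · rfl
      rw [h4, mul_zero, add_zero] at h2
      rw [hm, mul_comm, ← h2]
  refine ⟨(qCoeff w 1)⁻¹ • w, V.smul_mem _ (hWV hw), ?_⟩
  refine DSLift.isNormalizedEigenform_of_eigen M ?_ fun p hp => ?_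
  · rw [qCoeff_smul', inv_mul_cancel₀ hw1]
  · obtain ⟨c, hc⟩ := hscal p hp
    exact ⟨c, hc _ (W.smul_mem _ hw)⟩

theorem heckeOp_mem_Eig [NeZero M] {χ : GP D → ℂ} {p : ℕ} (hp : p.Prime) {v : S2 M}
    (hv : v ∈ Eig M D χ) : heckeOp M 2 hp v ∈ Eig M D χ := by
  rw [mem_Eig] at hv ⊢
  intro ℓ
  have h2 := LinearMap.congr_fun (heckeOp_commute (M := M) ℓ.2.1 hp).eq v
  rw [Module.End.mul_apply, Module.End.mul_apply, hv ℓ, map_smul] at h2
  exact h2

/-- the eigensystem of a normalised eigenform -/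
def chi [NeZero M] (f : S2 M) (D : ℕ) : GP D → ℂ := fun ℓ => qCoeff f ℓ.1

theorem mem_Eig_chi [NeZero M] {f : S2 M} (hf : f.IsNormalizedEigenform) (D : ℕ) :
    f ∈ Eig M D (chi f D) :=
  mem_Eig.2 fun ℓ => DSLift.heckeOp_apply_of_isNormalizedEigenform M hf ℓ.2.1

theorem qCoeff_of_mem_Eig [NeZero M] {f : S2 M} (hf : qCoeff f 1 = 1) {χ : GP D → ℂ}
    (h : f ∈ Eig M D χ) (ℓ : GP D) : qCoeff f ℓ.1 = χ ℓ :=
  DSLift.qCoeff_prime_of_eigen M 2 hf ℓ.2.1 (mem_Eig.1 h ℓ)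

theorem exists_eigenform_of_Eig [NeZero M] {χ : GP D → ℂ} (h : Eig M D χ ≠ ⊥) :
    ∃ g : S2 M, g.IsNormalizedEigenform ∧ g ∈ Eig M D χ ∧ ∀ ℓ : GP D, qCoeff g ℓ.1 = χ ℓ := by
  obtain ⟨g, hg, hg'⟩ := exists_common_eigenvector _ h fun p hp v hv => heckeOp_mem_Eig hp hv
  exact ⟨g, hg', hg, qCoeff_of_mem_Eig hg'.qCoeff_one hg⟩

/-! ### Consequences of the main lemma -/

theorem primeFactors_coprime {D n : ℕ} (hD : D ≠ 0) :
    (∀ p ∈ D.primeFactors, ¬ p ∣ n) ↔ n.Coprime D := by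
  rw [Nat.coprime_comm, Nat.Coprime, Nat.eq_one_iff_not_exists_prime_dvd]
  constructor
  · intro h p hp hpg
    exact h p (Nat.mem_primeFactors.2 ⟨hp, (Nat.dvd_gcd_iff.1 hpg).1, hD⟩)
      (Nat.dvd_gcd_iff.1 hpg).2
  · intro h p hp hpn
    exact h p (Nat.prime_of_mem_primeFactors hp)
      (Nat.dvd_gcd (Nat.dvd_of_mem_primeFactors hp) hpn)

theorem neZero_div {N p : ℕ} [NeZero N] (hpN : p ∣ N) : NeZero (N / p) :=
  ⟨fun h => NeZero.ne N (by rw [← Nat.div_mul_cancel hpN, h, zero_mul])⟩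

/-- If `a_n(h) = 0` for all `n` prime to `D`, then it is so for `n` prime to the level. -/
theorem qCoeff_eq_zero_of_coprime [NeZero N] (hD : D ≠ 0) {h : ℍ → ℂ} (hh : IsCF N h)
    (h0 : ∀ n, n.Coprime D → qCoeff h n = 0) (n : ℕ) (hn : n.Coprime N) : qCoeff h n = 0 := by
  obtain ⟨g, hg, hfg⟩ := AL_main D.primeFactors (fun p hp => Nat.prime_of_mem_primeFactors hp) hh
    fun n hn => h0 n ((primeFactors_coprime hD).1 hn)
  have hCF : ∀ p ∈ D.primeFactors.filter (· ∣ N), IsCF N (Bd p (g p)) := by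
    intro p hp
    rw [Finset.mem_filter] at hp
    have := neZero_div hp.2
    have h1 := (hg p hp.1 hp.2).Bd (Nat.prime_of_mem_primeFactors hp.1).ne_zero
    rwa [Nat.div_mul_cancel hp.2] at h1
  rw [hfg, IsCF.qCoeff_sum (N := N) _ hCF]
  refine Finset.sum_eq_zero fun p hp => ?_
  have hp' := Finset.mem_filter.1 hp
  have := neZero_div hp'.2
  have hpp := Nat.prime_of_mem_primeFactors hp'.1
  rw [(hg p hp'.1 hp'.2).qCoeff_Bd hpp.ne_zero, if_neg]
  intro h1
  exact hpp.one_lt.ne' (Nat.dvd_one.1 (hn ▸ Nat.dvd_gcd h1 hp'.2))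

theorem coe_sum {ι : Type*} (S : Finset ι) (F : ι → S2 N) :
    ⇑(∑ i ∈ S, F i) = ∑ i ∈ S, ⇑(F i) := by
  classical
  induction S using Finset.induction_on with
  | empty => rfl
  | insert a s ha ih => rw [Finset.sum_insert ha, Finset.sum_insert ha, ← ih]; rfl

/-- If `a_n(h) = 0` for all `n` prime to `D`, then `h` is a sum of `h_p(pz)`. -/
theorem mem_iSup_range_of_coprime [NeZero N] (hD : D ≠ 0) {h : S2 N}
    (h0 : ∀ n, n.Coprime D → qCoeff h n = 0) :
    h ∈ ⨆ p : N.primeFactors,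
      haveI := neZero_div (Nat.dvd_of_mem_primeFactors p.2)
      LinearMap.range (bL (N / p) N p (Nat.prime_of_mem_primeFactors p.2).ne_zero
        (by rw [Nat.div_mul_cancel (Nat.dvd_of_mem_primeFactors p.2)])) := by
  obtain ⟨g, hg, hfg⟩ := AL_main D.primeFactors (fun p hp => Nat.prime_of_mem_primeFactors hp)
    (isCF h) fun n hn => h0 n ((primeFactors_coprime hD).1 hn)
  have hCF : ∀ p : D.primeFactors.filter (· ∣ N), IsCF N (Bd p (g p)) := by
    intro p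
    have hp := Finset.mem_filter.1 p.2
    have := neZero_div hp.2
    have h1 := (hg p hp.1 hp.2).Bd (Nat.prime_of_mem_primeFactors hp.1).ne_zero
    rwa [Nat.div_mul_cancel hp.2] at h1
  have h1 : h = ∑ p ∈ (D.primeFactors.filter (· ∣ N)).attach, mkCF N _ (hCF p) := by
    apply DFunLike.coe_injective
    rw [hfg, ← Finset.sum_attach]
    rw [coe_sum]
    rfl
  rw [h1]
  refine Submodule.sum_mem _ fun p _ => ?_
  have hp := Finset.mem_filter.1 p.2
  have hpp := Nat.prime_of_mem_primeFactors hp.1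
  have := neZero_div hp.2
  refine Submodule.mem_iSup_of_mem ⟨p.1, Nat.mem_primeFactors.2 ⟨hpp, hp.2, NeZero.ne N⟩⟩ ?_
  exact ⟨mkCF (N / p) (g p) (hg p hp.1 hp.2), DFunLike.coe_injective rfl⟩

end Fermat.Agent.Newform
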