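import Fermat.Agent.Newform.Cosets

/-!
# The main lemma of Atkin and Lehner
-/

set_option autoImplicit false

noncomputable section

namespace Fermat.Agent.Newform

open UpperHalfPlane Matrix Set
open scoped MatrixGroups ModularForm Manifold
open ModularFormClass (qCoeff)

variable {N M p : ℕ} {f g : ℍ → ℂ}

theorem slash_comm {r : GL (Fin 2) ℝ} {a b c d t : ℝ} (hr : Ent r a b c d)
    (hdet : a * d - b * c = 1) {k1 k2 k3 k4 : ℤ} (h1 : t * a * c = k1)
    (h2 : t * (a ^ 2 - 1) + t ^ 2 * a * c = k2) (h3 : t * c ^ 2 = N * k3)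
    (h4 : t ^ 2 * c ^ 2 = k4) (hf : ∀ γ ∈ G0 N, f ∣[(2 : ℤ)] γ = f) :
    (f ∣[(2 : ℤ)] r) ∣[(2 : ℤ)] Tr t = (f ∣[(2 : ℤ)] Tr t) ∣[(2 : ℤ)] r := by
  have hg := ((hr.mul (ent_Tr t)).mul (hr.inv hdet)).mul (ent_Tr (-t))
  have hmem : r * Tr t * r⁻¹ * Tr (-t) ∈ G0 N := by
    refine mem_G0_of_ent (1 - k1) k2 (-k3) (1 + k1 + k4) hg ?_ ?_ ?_ ?_ ?_
    · push_cast
      linear_combination (1 : ℝ) * hdet - h1
    · linear_combination h2 - t * hdet
    · push_cast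
      linear_combination -h3
    · push_cast
      linear_combination (1 : ℝ) * hdet + h1 + h4
    · linear_combination (a * d - b * c + 1) * hdet
  have h5 : r * Tr t = (r * Tr t * r⁻¹ * Tr (-t)) * (Tr t * r) := by
    rw [← Tr_inv]; group
  rw [← SlashAction.slash_mul, h5, SlashAction.slash_mul, hf _ hmem, SlashAction.slash_mul]

/-- variant of `ep` -/
def epc (c d : ℕ) (f : ℍ → ℂ) : ℍ → ℂ :=
  (d : ℂ)⁻¹ • ∑ j ∈ Finset.range d, f ∣[(2 : ℤ)] Tr (((j * c : ℕ) : ℝ) / d)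

theorem slash_Tr_mod (hf : f ∣[(2 : ℤ)] Tr 1 = f) {d : ℕ} (hd : d ≠ 0) (j : ℕ) :
    f ∣[(2 : ℤ)] Tr ((j : ℝ) / d) = f ∣[(2 : ℤ)] Tr (((j % d : ℕ) : ℝ) / d) := by
  have h1 : ∀ n : ℕ, f ∣[(2 : ℤ)] Tr (n : ℝ) = f := by
    intro n
    induction n with
    | zero => simp [Tr_zero]
    | succ n ih =>
      push_cast
      rw [← Tr_mul, SlashAction.slash_mul, ih, hf]
  have hdR : (d : ℝ) ≠ 0 := by exact_mod_cast hd
  have h2 : (j : ℝ) / d = ((j / d : ℕ) : ℝ) + ((j % d : ℕ) : ℝ) / d := by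
    field_simp
    have := Nat.div_add_mod j d
    have h3 : (j : ℝ) = d * (j / d : ℕ) + (j % d : ℕ) := by exact_mod_cast this.symm
    linear_combination h3
  rw [h2, ← Tr_mul, SlashAction.slash_mul, h1]

theorem epc_eq (hf : f ∣[(2 : ℤ)] Tr 1 = f) {c d : ℕ} (hd : d ≠ 0) (hcd : c.Coprime d) :
    epc c d f = ep d f := by
  rw [ep_eq_sum hd, epc]
  congr 1
  refine Finset.sum_nbij' (fun j => (j * c) % d)
    (fun j => (j * ((c : ZMod d)⁻¹).val) % d) ?_ ?_ ?_ ?_ ?_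
  · intro j _
    exact Finset.mem_range.2 (Nat.mod_lt _ (Nat.pos_of_ne_zero hd))
  · intro j _
    exact Finset.mem_range.2 (Nat.mod_lt _ (Nat.pos_of_ne_zero hd))
  · intro j hj
    have : NeZero d := ⟨hd⟩
    have h1 : (c : ZMod d) * (c : ZMod d)⁻¹ = 1 := ZMod.coe_mul_inv_eq_one c hcd
    have h2 : ((((j * c) % d * ((c : ZMod d)⁻¹).val) : ℕ) : ZMod d) = (j : ZMod d) := by
      push_cast
      rw [ZMod.natCast_mod, Nat.cast_mul, ZMod.natCast_zmod_val, mul_assoc, h1, mul_one]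
    have h3 := (ZMod.natCast_eq_natCast_iff' _ _ _).1 h2
    rw [h3, Nat.mod_eq_of_lt (Finset.mem_range.1 hj)]
  · intro j hj
    have : NeZero d := ⟨hd⟩
    have h1 : (c : ZMod d) * (c : ZMod d)⁻¹ = 1 := ZMod.coe_mul_inv_eq_one c hcd
    have h2 : ((((j * ((c : ZMod d)⁻¹).val) % d * c) : ℕ) : ZMod d) = (j : ZMod d) := by
      push_cast
      rw [ZMod.natCast_mod, Nat.cast_mul, ZMod.natCast_zmod_val, mul_assoc,
        mul_comm (c : ZMod d)⁻¹, h1, mul_one]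
    have h3 := (ZMod.natCast_eq_natCast_iff' _ _ _).1 h2
    rw [h3, Nat.mod_eq_of_lt (Finset.mem_range.1 hj)]
  · intro j _
    exact slash_Tr_mod hf hd _

/-- the `D`-depletion of `f` -/
def dep (D : ℕ) (f : ℍ → ℂ) : ℍ → ℂ :=
  ∑ d ∈ D.divisors, ((ArithmeticFunction.moebius d : ℤ) : ℂ) • ep d f

theorem IsCF.dep [NeZero N] (hf : IsCF N f) (D : ℕ) : IsCF (N * D ^ 2) (dep D f) := by
  refine IsCF.sum _ fun d hd => IsCF.smul ?_ _
  have h1 := Nat.dvd_of_mem_divisors hd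
  have h2 : d ≠ 0 := (Nat.pos_of_mem_divisors hd).ne'
  exact (hf.ep h2).mono (mul_dvd_mul_left _ (pow_dvd_pow_of_dvd h1 2))

theorem sum_moebius_divisors (m : ℕ) :
    ∑ d ∈ m.divisors, ((ArithmeticFunction.moebius d : ℤ) : ℂ) = if m = 1 then 1 else 0 := by
  have h := congrArg (fun F : ArithmeticFunction ℤ => F m)
    ArithmeticFunction.coe_zeta_mul_moebius
  simp only [ArithmeticFunction.coe_zeta_mul_apply, ArithmeticFunction.one_apply] at h
  have h2 := congrArg (fun x : ℤ => (x : ℂ)) h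
  push_cast at h2
  exact h2

theorem IsCF.qCoeff_dep [NeZero N] (hf : IsCF N f) {D : ℕ} (hD : D ≠ 0) (n : ℕ) :
    qCoeff (Newform.dep D f) n = if n.Coprime D then qCoeff f n else 0 := by
  have : NeZero (N * D ^ 2) := ⟨mul_ne_zero (NeZero.ne N) (pow_ne_zero 2 hD)⟩
  have h0 : ∀ d ∈ D.divisors, IsCF (N * D ^ 2) (Newform.ep d f) := fun d hd =>
    (hf.ep (Nat.pos_of_mem_divisors hd).ne').mono
      (mul_dvd_mul_left _ (pow_dvd_pow_of_dvd (Nat.dvd_of_mem_divisors hd) 2))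
  rw [Newform.dep, IsCF.qCoeff_sum (N := N * D ^ 2) _ fun d hd => (h0 d hd).smul _]
  have h1 : ∀ d ∈ D.divisors, qCoeff (((ArithmeticFunction.moebius d : ℤ) : ℂ) • Newform.ep d f) n
      = if d ∣ n then ((ArithmeticFunction.moebius d : ℤ) : ℂ) * qCoeff f n else 0 := by
    intro d hd
    rw [(h0 d hd).qCoeff_smul, hf.qCoeff_ep (Nat.pos_of_mem_divisors hd).ne', mul_ite, mul_zero]
  rw [Finset.sum_congr rfl h1, ← Finset.sum_filter, ← Finset.sum_mul]
  have h2 : D.divisors.filter (· ∣ n) = (n.gcd D).divisors := by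
    ext d
    simp only [Finset.mem_filter, Nat.mem_divisors, Nat.dvd_gcd_iff, ne_eq, Nat.gcd_eq_zero_iff]
    tauto
  rw [h2, sum_moebius_divisors]
  by_cases h3 : n.Coprime D
  · rw [if_pos h3, if_pos h3, one_mul]
  · rw [if_neg h3, if_neg h3, zero_mul]

/-- `dep` commutes with suitable sums of slashes. -/
theorem dep_sum {ι : Type*} [Fintype ι] {r : ι → GL (Fin 2) ℝ} {c D : ℕ} (hcD : c.Coprime D)
    (hr : ∀ i, 0 < (r i).det.val)
    (hcomm : ∀ i, ∀ d ∈ D.divisors, ∀ j : ℕ,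
      (f ∣[(2 : ℤ)] (r i)) ∣[(2 : ℤ)] Tr (((j * c : ℕ) : ℝ) / d) =
      (f ∣[(2 : ℤ)] Tr (((j * c : ℕ) : ℝ) / d)) ∣[(2 : ℤ)] (r i))
    (hf : f ∣[(2 : ℤ)] Tr 1 = f)
    (hF : (∑ i, f ∣[(2 : ℤ)] (r i)) ∣[(2 : ℤ)] Tr 1 = ∑ i, f ∣[(2 : ℤ)] (r i)) :
    ∑ i, (dep D f) ∣[(2 : ℤ)] (r i) = dep D (∑ i, f ∣[(2 : ℤ)] (r i)) := by
  have h1 : ∀ d ∈ D.divisors, ∑ i, (ep d f) ∣[(2 : ℤ)] (r i) = ep d (∑ i, f ∣[(2 : ℤ)] (r i)) := by
    intro d hd
    have hd0 : d ≠ 0 := (Nat.pos_of_mem_divisors hd).ne'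
    have hcd : c.Coprime d := Nat.Coprime.coprime_dvd_right (Nat.dvd_of_mem_divisors hd) hcD
    rw [← epc_eq hf hd0 hcd, ← epc_eq hF hd0 hcd, epc, epc]
    simp only [smul_slash_pos (hr _), SlashAction.sum_slash, ← Finset.smul_sum]
    rw [Finset.sum_comm]
    congr 1
    refine Finset.sum_congr rfl fun j _ => Finset.sum_congr rfl fun i _ => ?_
    exact (hcomm i d hd j).symm
  simp only [dep, SlashAction.sum_slash, smul_slash_pos (hr _)]
  rw [Finset.sum_comm]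
  refine Finset.sum_congr rfl fun d hd => ?_
  rw [← Finset.smul_sum, h1 d hd]

/-- the finite-dimensional space of functions `Bd p g`, `g` of level `M`, is the space of forms
invariant under `KK M p`. -/
theorem isCF_of_KK (hp : p ≠ 0) (hf : V2 f) (h : ∀ γ ∈ KK M p, f ∣[(2 : ℤ)] γ = f) :
    ∃ g, IsCF M g ∧ f = Bd p g := by
  have hpC : (p : ℂ) ≠ 0 := by exact_mod_cast hp
  have hdet : 0 < (ModularForm.heckeDiagMatrix p)⁻¹.det.val := by
    have := det_hD_pos p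
    rw [map_inv, Units.val_inv_eq_inv_val]
    exact inv_pos.2 this
  refine ⟨(p : ℂ) • (f ∣[(2 : ℤ)] (ModularForm.heckeDiagMatrix p)⁻¹), ⟨?_, ?_⟩, ?_⟩
  · exact (hf.slash (isRat_hD hp).inv).smul _
  · intro γ hγ
    rw [smul_slash_pos (det_pos_of_mem_G0 hγ), ← SlashAction.slash_mul]
    congr 1
    have h1 := h ((ModularForm.heckeDiagMatrix p)⁻¹ * γ * ModularForm.heckeDiagMatrix p) (by
      rw [mem_KK']
      have : ModularForm.heckeDiagMatrix p * ((ModularForm.heckeDiagMatrix p)⁻¹ * γ *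
        ModularForm.heckeDiagMatrix p) * (ModularForm.heckeDiagMatrix p)⁻¹ = γ := by group
      rwa [this])
    have h2 := congrArg (fun F => F ∣[(2 : ℤ)] (ModularForm.heckeDiagMatrix p)⁻¹) h1
    simpa only [← SlashAction.slash_mul, mul_inv_cancel_right] using h2
  · rw [Bd_eq hp, smul_slash_pos (det_hD_pos p), ← SlashAction.slash_mul, inv_mul_cancel,
      SlashAction.slash_one, smul_smul, inv_mul_cancel₀ hpC, one_smul]

theorem KK_inv_of_isCF (hp : p ≠ 0) (hg : IsCF M g) {γ : GL (Fin 2) ℝ} (hγ : γ ∈ KK M p) :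
    (Bd p g) ∣[(2 : ℤ)] γ = Bd p g := by
  rw [Bd_eq hp, smul_slash_pos (det_KK hp hγ), ← SlashAction.slash_mul]
  congr 1
  have h1 := hg.inv _ (mem_KK'.1 hγ)
  have h2 := congrArg (fun F => F ∣[(2 : ℤ)] (ModularForm.heckeDiagMatrix p)) h1
  simpa only [← SlashAction.slash_mul, inv_mul_cancel_right] using h2

theorem isCF_of_KK_inv (hp : p ≠ 0) (hf : V2 f) (h : ∀ γ ∈ KK M p, f ∣[(2 : ℤ)] γ = f) :
    IsCF (M * p) f := ⟨hf, fun γ hγ => h γ (G0_le_KK hp hγ)⟩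

theorem exists_mul_add_one {p : ℕ} (hp : p.Prime) {w : ℤ} (hw : ¬ (p : ℤ) ∣ w) :
    ∃ u : ℤ, (p : ℤ) ∣ 1 + u * w := by
  obtain ⟨j, -, hj⟩ := exists_lt_dvd hp hw (-1)
  refine ⟨j, ?_⟩
  have := dvd_neg.2 hj
  rwa [show -(-1 - (j : ℤ) * w) = 1 + j * w by ring] at this

/-- good systems of representatives for `KK M p / Γ₀(Mp)` -/
theorem exists_sysK (hp : p.Prime) (M D : ℕ) (hpD : ¬ p ∣ D) :
    ∃ (ι : Type) (_ : Fintype ι) (_ : Nonempty ι) (r : ι → GL (Fin 2) ℝ),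
      (∀ i, IsRat (r i)) ∧ (∀ i, 0 < (r i).det.val) ∧
      HSys (G0 (M * p)) r 1 (KK M p : Set (GL (Fin 2) ℝ)) ∧
      HSys (G0 ((M * D ^ 2) * p)) r 1 (KK (M * D ^ 2) p : Set (GL (Fin 2) ℝ)) ∧
      ∀ f : ℍ → ℂ, (∀ γ ∈ G0 (M * p), f ∣[(2 : ℤ)] γ = f) → ∀ i, ∀ d ∈ D.divisors, ∀ j : ℕ,
        (f ∣[(2 : ℤ)] (r i)) ∣[(2 : ℤ)] Tr ((j : ℝ) / d) =
        (f ∣[(2 : ℤ)] Tr ((j : ℝ) / d)) ∣[(2 : ℤ)] (r i) := by
  have hp0 := hp.ne_zero
  have hpR : (p : ℝ) ≠ 0 := by exact_mod_cast hp0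
  have hTr : ∀ x y : ℝ, Tr x * Tr y = Tr y * Tr x := fun x y => by rw [Tr_mul, Tr_mul, add_comm]
  by_cases hpM : p ∣ M
  · refine ⟨Fin p, inferInstance, ⟨⟨0, hp.pos⟩⟩, fun j => Tr (((j : ℕ) : ℝ) / p), ?_,
      fun i => det_Tr_pos _, hsysK1 hp hpM, hsysK1 hp (hpM.mul_right _), ?_⟩
    · intro i
      have := isRat_Tr (((i : ℕ) : ℚ) / p)
      push_cast at this
      exact this
    · intro f _ i d _ j
      rw [← SlashAction.slash_mul, ← SlashAction.slash_mul, hTr]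
  · have hw : ¬ (p : ℤ) ∣ ((M * D ^ 2 : ℕ) : ℤ) := by
      rw [Int.natCast_dvd_natCast, hp.dvd_mul, not_or]
      exact ⟨hpM, fun h => hpD (hp.dvd_of_dvd_pow h)⟩
    obtain ⟨u, hu⟩ := exists_mul_add_one hp hw
    refine ⟨Option (Fin p), inferInstance, inferInstance, rK p u ((M * D ^ 2 : ℕ) : ℤ), ?_, ?_,
      hsysK2 hp (by push_cast; exact dvd_mul_right _ _) hu, hsysK2 hp (dvd_refl _) hu, ?_⟩
    · rintro (_ | i)
      · have h1 := isRat_Tr ((u : ℚ) / p)
        have h2 := isRat_Lo ((p : ℚ) * ((M * D ^ 2 : ℕ) : ℤ))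
        push_cast at h1 h2
        have h3 := h1.mul h2
        simpa [rK] using h3
      · have := isRat_Tr (((i : ℕ) : ℚ) / p)
        push_cast at this
        exact this
    · rintro (_ | i)
      · rw [(ent_rK_none hp0 _ _).det]
        field_simp
        ring_nf
        norm_num
      · exact det_Tr_pos _
    · intro f hf i d hd j
      rcases i with _ | i
      · obtain ⟨D', hD'⟩ := Nat.dvd_of_mem_divisors hd
        have hd0 : (d : ℝ) ≠ 0 := by exact_mod_cast (Nat.pos_of_mem_divisors hd).ne'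
        have hE := ent_rK_none hp0 u ((M * D ^ 2 : ℕ) : ℤ)
        have hw' : (((M * D ^ 2 : ℕ) : ℤ) : ℝ) = M * d ^ 2 * D' ^ 2 := by
          rw [hD']; push_cast; ring
        rw [hw'] at hE
        refine slash_comm hE (by field_simp; ring)
          (k1 := j * (1 + u * (M * d ^ 2 * D' ^ 2)) * (p * (M * d * D' ^ 2)))
          (k2 := j * (2 * u * (M * d * D' ^ 2) + u ^ 2 * (M ^ 2 * d ^ 3 * D' ^ 4)) +
            j ^ 2 * (1 + u * (M * d ^ 2 * D' ^ 2)) * (p * (M * D' ^ 2)))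
          (k3 := j * p * (M * d ^ 3 * D' ^ 4))
          (k4 := j ^ 2 * p ^ 2 * (M ^ 2 * d ^ 2 * D' ^ 4)) ?_ ?_ ?_ ?_ hf
        · push_cast; field_simp
        · push_cast; field_simp; ring
        · push_cast; field_simp
        · push_cast; field_simp
      · simp only [rK]
        rw [← SlashAction.slash_mul, ← SlashAction.slash_mul, hTr]

/-- **Atkin–Lehner main lemma.** -/
theorem AL_main {N : ℕ} [NeZero N] (P : Finset ℕ) (hP : ∀ p ∈ P, p.Prime) {f : ℍ → ℂ}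
    (hf : IsCF N f) (h : ∀ n, (∀ p ∈ P, ¬ p ∣ n) → qCoeff f n = 0) :
    ∃ g : ℕ → ℍ → ℂ, (∀ p ∈ P, p ∣ N → IsCF (N / p) (g p)) ∧
      f = ∑ p ∈ P with p ∣ N, Bd p (g p) := by
  classical
  induction P using Finset.induction_on generalizing f with
  | empty =>
    refine ⟨0, by simp, ?_⟩
    have : f = 0 := hf.ext IsCF.zero fun n => by rw [h n (by simp), qCoeff_zero_fun]
    simpa using this
  | insert p P hpP ih =>
    have hp : p.Prime := hP p (Finset.mem_insert_self _ _)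
    have hP' : ∀ q ∈ P, q.Prime := fun q hq => hP q (Finset.mem_insert_of_mem hq)
    set D := ∏ q ∈ P, q with hD
    have hcop : ∀ n : ℕ, n.Coprime D ↔ ∀ q ∈ P, ¬ q ∣ n := by
      intro n
      rw [hD, Nat.coprime_prod_right_iff]
      refine forall₂_congr fun q hq => ?_
      rw [Nat.coprime_comm, (hP' q hq).coprime_iff_not_dvd]
    have hD0 : D ≠ 0 := Finset.prod_ne_zero_iff.2 fun q hq => (hP' q hq).ne_zero
    have hpD : ¬ p ∣ D := by
      rw [hD, Prime.dvd_finsetProd_iff hp.prime]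
      rintro ⟨q, hq, hpq⟩
      rw [(Nat.prime_dvd_prime_iff_eq hp (hP' q hq)).1 hpq] at hpP
      exact hpP hq
    have hy := hf.dep D
    have hy1 : ∀ n, ¬ p ∣ n → qCoeff (dep D f) n = 0 := by
      intro n hn
      rw [hf.qCoeff_dep hD0]
      split_ifs with h1
      · refine h n fun q hq => ?_
        rcases Finset.mem_insert.1 hq with rfl | hq
        · exact hn
        · exact (hcop n).1 h1 q hq
      · rfl
    by_cases hpN : p ∣ N
    · obtain ⟨M, rfl⟩ : ∃ M, N = M * p := ⟨N / p, (Nat.div_mul_cancel hpN).symm⟩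
      have hM0 : NeZero M := ⟨fun h0 => NeZero.ne (M * p) (by rw [h0, zero_mul])⟩
      have hMp2 : NeZero (M * p * D ^ 2) :=
        ⟨mul_ne_zero (NeZero.ne _) (pow_ne_zero 2 hD0)⟩
      have hMD : NeZero (M * D ^ 2 * p) :=
        ⟨mul_ne_zero (mul_ne_zero hM0.ne (pow_ne_zero 2 hD0)) hp.ne_zero⟩
      obtain ⟨v, hv, hyv⟩ := hy.exists_Bd hp hy1 (M' := M * D ^ 2) ⟨1, by ring⟩
      obtain ⟨ι, _, _, r, hrat, hdet, hsys, hsys', hcomm⟩ := exists_sysK hp M D hpD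
      set F := ∑ i, f ∣[(2 : ℤ)] (r i) with hF
      have hFinv : ∀ γ ∈ KK M p, F ∣[(2 : ℤ)] γ = F := fun γ hγ => hsys.slash_sum hf.inv hγ
      have hFV : V2 F := V2.sum _ fun i _ => hf.v.slash (hrat i)
      have hFCF : IsCF (M * p) F := isCF_of_KK_inv hp.ne_zero hFV hFinv
      obtain ⟨g₀, hg₀, hFg⟩ := isCF_of_KK hp.ne_zero hFV hFinv
      have hc0 : (Fintype.card ι : ℂ) ≠ 0 := by exact_mod_cast Fintype.card_ne_zero
      have h1 : dep D F = (Fintype.card ι : ℂ) • dep D f := by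
        rw [hF, ← dep_sum (c := 1) (Nat.coprime_one_left _) hdet ?_ ?_ ?_]
        · refine hsys'.sum_of_inv fun γ hγ => ?_
          rw [hyv]
          exact KK_inv_of_isCF hp.ne_zero hv hγ
        · intro i d hd j
          rw [mul_one]
          exact hcomm f hf.inv i d hd j
        · simpa using hf.slash_Tr_int 1
        · rw [← hF]
          simpa using hFCF.slash_Tr_int 1
      have h2 : ∀ n, (∀ q ∈ P, ¬ q ∣ n) →
          qCoeff (f - (Fintype.card ι : ℂ)⁻¹ • F) n = 0 := by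
        intro n hn
        have hn' := (hcop n).2 hn
        rw [hf.qCoeff_sub (hFCF.smul _), hFCF.qCoeff_smul]
        have h3 := hFCF.qCoeff_dep hD0 n
        have h4 := hf.qCoeff_dep hD0 n
        rw [if_pos hn'] at h3 h4
        have h5 : IsCF (M * p * D ^ 2) (dep D f) := hf.dep D
        have : NeZero (M * p * D ^ 2) := ⟨mul_ne_zero (NeZero.ne _) (pow_ne_zero 2 hD0)⟩
        rw [← h3, h1, h5.qCoeff_smul, h4, inv_mul_cancel_left₀ hc0, sub_self]
      obtain ⟨g', hg', hfg'⟩ := ih hP' (hf.sub (hFCF.smul _)) h2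
      refine ⟨fun q => if q = p then (Fintype.card ι : ℂ)⁻¹ • g₀ else g' q, ?_, ?_⟩
      · intro q hq hqN
        dsimp only
        split_ifs with hqp
        · rw [hqp, Nat.mul_div_cancel _ hp.pos]
          exact hg₀.smul _
        · exact hg' q ((Finset.mem_insert.1 hq).resolve_left hqp) hqN
      · rw [Finset.filter_insert, if_pos (dvd_mul_left _ _), Finset.sum_insert
          (fun h => hpP (Finset.mem_filter.1 h).1)]
        have h6 : ∑ q ∈ P with q ∣ M * p, Bd q (if q = p then (Fintype.card ι : ℂ)⁻¹ • g₀ else g' q)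
            = ∑ q ∈ P with q ∣ M * p, Bd q (g' q) := by
          refine Finset.sum_congr rfl fun q hq => ?_
          rw [if_neg]
          rintro rfl
          exact hpP (Finset.mem_filter.1 hq).1
        rw [h6, ← hfg']
        simp only [if_true]
        have h7 : Bd p ((Fintype.card ι : ℂ)⁻¹ • g₀) = (Fintype.card ι : ℂ)⁻¹ • F := by
          rw [hFg]; rfl
        rw [h7]
        abel
    · have hpN' : ¬ p ∣ N * D ^ 2 := by
        rw [hp.dvd_mul, not_or]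
        exact ⟨hpN, fun h => hpD (hp.dvd_of_dvd_pow h)⟩
      have : NeZero (N * D ^ 2) := ⟨mul_ne_zero (NeZero.ne N) (pow_ne_zero 2 hD0)⟩
      have h0 := hy.eq_zero_of_support hp hpN' hy1
      obtain ⟨g, hg, hfg⟩ := ih hP' hf fun n hn => by
        have h3 := hf.qCoeff_dep hD0 n
        rw [if_pos ((hcop n).2 hn), h0, qCoeff_zero_fun] at h3
        exact h3.symm
      refine ⟨g, fun q hq hqN => hg q ((Finset.mem_insert.1 hq).resolve_left ?_) hqN, ?_⟩
      · rintro rfl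
        exact hpN hqN
      · rw [Finset.filter_insert, if_neg hpN]
        exact hfg

end Fermat.Agent.Newform
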