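import Fermat.Agent.Newform.Strong

/-!
# The structure of the eigenspaces: bases of oldforms
-/

set_option autoImplicit false

noncomputable section

namespace Fermat.Agent.Newform

open UpperHalfPlane Matrix Set
open scoped MatrixGroups ModularForm Manifold ComplexConjugate
open ModularFormClass (qCoeff)
open DSLift (heckeOp)
open CuspForm (GoodEigensystemOccursAt)

variable {M N D : ℕ}

theorem bL_bL {M N L : ℕ} [NeZero M] [NeZero N] [NeZero L] {d e : ℕ} (hd : d ≠ 0) (he : e ≠ 0)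
    (h : M * d ∣ N) (h' : N * e ∣ L) (f : S2 M) :
    bL N L e he h' (bL M N d hd h f) = bL M L (d * e) (mul_ne_zero hd he)
      (by rw [← mul_assoc]; exact (mul_dvd_mul_right h e).trans h') f := by
  refine DSLift.ext_qCoeff fun n => ?_
  rw [qCoeff_bL, qCoeff_bL]
  by_cases h1 : e ∣ n
  · obtain ⟨m, rfl⟩ := h1
    have he' := Nat.pos_of_ne_zero he
    rw [if_pos (dvd_mul_right _ _), Nat.mul_div_cancel_left _ he', qCoeff_bL]
    have h2 : d * e ∣ e * m ↔ d ∣ m := by
      rw [mul_comm d e]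
      exact Nat.mul_dvd_mul_iff_left he'
    simp only [h2]
    have h3 : e * m / (d * e) = m / d := by
      rw [mul_comm d e, Nat.mul_div_mul_left _ _ he']
    rw [h3]
  · rw [if_neg h1, qCoeff_bL, if_neg fun h2 => h1 ((dvd_mul_left _ _).trans h2)]

/-- the translates of a form -/
def bset {M : ℕ} (N : ℕ) [NeZero M] [NeZero N] (f : S2 M) : Set (S2 N) :=
  {F | ∃ (d : ℕ) (hd : d ≠ 0) (h : M * d ∣ N), F = bL M N d hd h f}

theorem bL_mem_Eig [NeZero M] [NeZero N] {χ : GP D → ℂ} {d : ℕ} (hd : d ≠ 0) (h : M * d ∣ N)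
    (hND : N ∣ D) {f : S2 M} (hf : f ∈ Eig M D χ) : bL M N d hd h f ∈ Eig N D χ := by
  rw [mem_Eig] at hf ⊢
  intro ℓ
  have hℓN : ¬ ℓ.1 ∣ N := fun h => ℓ.2.2 (h.trans hND)
  rw [← bL_heckeOp hd h ℓ.2.1 (fun h' => hℓN (h'.trans ((dvd_mul_left _ _).trans h)))
    (fun h' => absurd h' hℓN), hf ℓ, map_smul]

theorem Eig_le_span_aux [NeZero M] {f : S2 M} (hf : f.IsNewform) {D : ℕ} (hD : D ≠ 0) :
    ∀ n : ℕ, ∀ (hn : NeZero n), n ∣ D → ∀ h ∈ Eig n D (chi f D), h ∈ Submodule.span ℂ (bset n f) := by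
  intro n
  induction n using Nat.strong_induction_on with
  | _ n ih =>
    intro hn hnD h hh
    by_cases hM : M ∣ n
    swap
    · -- the eigenspace is zero
      have h0 : Eig n D (chi f D) = ⊥ := by
        by_contra h0
        obtain ⟨g, hg, -, hgf⟩ := exists_eigenform_of_Eig h0
        exact hM (level_dvd hf hg hD fun ℓ hℓ hℓD => (hgf ⟨ℓ, hℓ, hℓD⟩).symm)
      rw [h0, Submodule.mem_bot] at hh
      rw [hh]
      exact Submodule.zero_mem _
    set F : S2 n := bL M n 1 one_ne_zero (by rwa [mul_one]) f with hF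
    have hFmem : F ∈ bset n f := ⟨1, one_ne_zero, _, rfl⟩
    have hFE : F ∈ Eig n D (chi f D) := bL_mem_Eig _ _ hnD (mem_Eig_chi hf.1 D)
    set w := h - qCoeff h 1 • F with hw
    have hF1 : qCoeff F 1 = 1 := by
      rw [hF, qCoeff_bL, if_pos (dvd_refl _), Nat.div_one, hf.1.qCoeff_one]
    have hwE : w ∈ Eig n D (chi f D) :=
      Submodule.sub_mem _ hh (Submodule.smul_mem _ _ hFE)
    have hw1 : qCoeff w 1 = 0 := by
      rw [hw, qCoeff_sub', qCoeff_smul', hF1, mul_one, sub_self]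
    have hw2 := mem_iSup_range_of_coprime hD (h := w)
      fun n hn => qCoeff_eq_zero_of_mem_Eig hwE hw1 n hn
    have : ∀ p : n.primeFactors, NeZero (n / p) :=
      fun p => neZero_div (Nat.dvd_of_mem_primeFactors p.2)
    have hw3 := exists_eig_preimage (M := n) (D := D) hnD
      (N := fun p : n.primeFactors => n / p)
      (fun p => (Nat.div_dvd_of_dvd (Nat.dvd_of_mem_primeFactors p.2)).trans hnD)
      (fun p => bL (n / p) n p (Nat.prime_of_mem_primeFactors p.2).ne_zero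
          (by rw [Nat.div_mul_cancel (Nat.dvd_of_mem_primeFactors p.2)]))
      (fun p ℓ v => bL_heckeOp _ _ ℓ.2.1
        (fun h => ℓ.2.2 ((h.trans (Nat.dvd_of_mem_primeFactors p.2)).trans hnD))
        (fun h => absurd (h.trans hnD) ℓ.2.2) v) (chi f D) hwE hw2
    have hw4 : w ∈ Submodule.span ℂ (bset n f) := by
      revert hw3
      rw [← SetLike.mem_coe, ← SetLike.mem_coe]
      refine fun hh => (iSup_le fun p => ?_ : (⨆ p : n.primeFactors, _) ≤
        Submodule.span ℂ (bset n f)) hh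
      have hpp := Nat.prime_of_mem_primeFactors p.2
      have hpn := Nat.dvd_of_mem_primeFactors p.2
      have ihp := ih (n / p) (Nat.div_lt_self (NeZero.pos n) hpp.one_lt) (this p)
        ((Nat.div_dvd_of_dvd hpn).trans hnD)
      rintro _ ⟨v, hv, rfl⟩
      have h5 := ihp v hv
      clear hv
      induction h5 using Submodule.span_induction with
      | mem v hv =>
        obtain ⟨d, hd, hdn, rfl⟩ := hv
        rw [bL_bL]
        exact Submodule.subset_span ⟨d * p, _, _, rfl⟩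
      | zero => rw [map_zero]; exact Submodule.zero_mem _
      | add x y _ _ hx hy => rw [map_add]; exact Submodule.add_mem _ hx hy
      | smul c x _ hx => rw [map_smul]; exact Submodule.smul_mem _ _ hx
    have h6 : h = w + qCoeff h 1 • F := by rw [hw, sub_add_cancel]
    rw [h6]
    exact Submodule.add_mem _ hw4 (Submodule.smul_mem _ _ (Submodule.subset_span hFmem))

/-- **Structure of the eigenspace of a newform at higher level.** -/
theorem Eig_eq_span [NeZero M] [NeZero N] {f : S2 M} (hf : f.IsNewform) {D : ℕ} (hD : D ≠ 0)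
    (hND : N ∣ D) : Eig N D (chi f D) = Submodule.span ℂ (bset N f) := by
  refine le_antisymm (fun h hh => Eig_le_span_aux hf hD N inferInstance hND h hh) ?_
  rw [Submodule.span_le]
  rintro _ ⟨d, hd, h, rfl⟩
  exact bL_mem_Eig hd h hND (mem_Eig_chi hf.1 D)

theorem mem_divisors_iff [NeZero M] [NeZero N] (hMN : M ∣ N) {d : ℕ} :
    d ∈ (N / M).divisors ↔ d ≠ 0 ∧ M * d ∣ N := by
  obtain ⟨k, rfl⟩ := hMN
  have hM := NeZero.pos M
  have hk : k ≠ 0 := fun h => NeZero.ne (M * k) (by rw [h, mul_zero])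
  rw [Nat.mul_div_cancel_left _ hM, Nat.mem_divisors, Nat.mul_dvd_mul_iff_left hM]
  constructor
  · rintro ⟨h1, h2⟩
    exact ⟨fun h => h2 (Nat.eq_zero_of_zero_dvd (h ▸ h1)), h1⟩
  · rintro ⟨_, h1⟩
    exact ⟨h1, hk⟩

/-- the family `f(dz)`, `d ∣ N / M` -/
def bfam [NeZero M] [NeZero N] (hMN : M ∣ N) (f : S2 M) (d : (N / M).divisors) : S2 N :=
  bL M N d ((mem_divisors_iff hMN).1 d.2).1 ((mem_divisors_iff hMN).1 d.2).2 f

theorem qCoeff_sum' [NeZero N] {ι : Type*} (s : Finset ι) (F : ι → S2 N) (n : ℕ) :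
    qCoeff (⇑(∑ i ∈ s, F i)) n = ∑ i ∈ s, qCoeff (F i) n :=
  map_sum (DSLift.qCoeffLin N 2 n) F s

theorem linearIndependent_bfam [NeZero M] [NeZero N] (hMN : M ∣ N) {f : S2 M}
    (hf1 : qCoeff f 1 = 1) : LinearIndependent ℂ (bfam hMN f) := by
  rw [Fintype.linearIndependent_iff]
  intro c hc
  by_contra hne
  push Not at hne
  obtain ⟨i, hi⟩ := hne
  -- the smallest `d` with nonzero coefficient
  have hex : ∃ n : ℕ, ∃ h : n ∈ (N / M).divisors, c ⟨n, h⟩ ≠ 0 := ⟨i.1, i.2, hi⟩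
  classical
  obtain ⟨h1, h2⟩ := Nat.find_spec hex
  set m := Nat.find hex with hm
  have h3 : qCoeff (⇑(∑ d, c d • bfam hMN f d)) m = 0 := by
    rw [hc]
    exact qCoeff_zero_fun _
  rw [qCoeff_sum', Finset.sum_eq_single ⟨m, h1⟩] at h3
  · rw [qCoeff_smul', bfam, qCoeff_bL, if_pos (dvd_refl _),
      Nat.div_self (Nat.pos_of_mem_divisors h1), hf1, mul_one] at h3
    exact h2 h3
  · rintro ⟨d, hd⟩ - hdm
    rw [qCoeff_smul', bfam, qCoeff_bL]
    split_ifs with h4
    · have h5 : d ≤ m := Nat.le_of_dvd (Nat.pos_of_mem_divisors h1) h4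
      have h6 : d < m := lt_of_le_of_ne h5 fun h => hdm (Subtype.ext h)
      have h7 := Nat.find_min hex h6
      push Not at h7
      rw [h7 hd, zero_mul]
    · rw [mul_zero]
  · exact fun h => absurd (Finset.mem_univ _) h

theorem bset_eq_range [NeZero M] [NeZero N] (hMN : M ∣ N) (f : S2 M) :
    bset N f = Set.range (bfam hMN f) := by
  ext F
  constructor
  · rintro ⟨d, hd, h, rfl⟩
    exact ⟨⟨d, (mem_divisors_iff hMN).2 ⟨hd, h⟩⟩, rfl⟩
  · rintro ⟨d, rfl⟩
    exact ⟨d, _, _, rfl⟩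

theorem finrank_Eig [NeZero M] [NeZero N] (hMN : M ∣ N) {f : S2 M} (hf : f.IsNewform) {D : ℕ}
    (hD : D ≠ 0) (hND : N ∣ D) :
    Module.finrank ℂ (Eig N D (chi f D)) = (N / M).divisors.card := by
  rw [Eig_eq_span hf hD hND, bset_eq_range hMN,
    finrank_span_eq_card (linearIndependent_bfam hMN hf.1.qCoeff_one), Fintype.card_coe]

/-- The space of cusp forms is spanned by the translates of newforms. -/
theorem span_newforms [NeZero N] :
    Submodule.span ℂ {F : S2 N | ∃ (M : ℕ) (_ : NeZero M) (f : S2 M) (_ : f.IsNewform) (d : ℕ)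
      (hd : d ≠ 0) (h : M * d ∣ N), F = bL M N d hd h f} = ⊤ := by
  rw [eq_top_iff, ← iSup_Eig (M := N) dvd_rfl]
  refine iSup_le fun χ => ?_
  by_cases h0 : Eig N N χ = ⊥
  · rw [h0]; exact bot_le
  obtain ⟨M, hM, g, hg, hgχ⟩ := exists_newform_of_Eig dvd_rfl h0
  have hM0 : NeZero M := ⟨fun h => NeZero.ne N (Nat.eq_zero_of_zero_dvd (h ▸ hM))⟩
  have hχ : χ = chi g N := funext fun ℓ => (hgχ ℓ).symm
  rw [hχ, Eig_eq_span hg (NeZero.ne N) dvd_rfl]
  refine Submodule.span_mono ?_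
  rintro _ ⟨d, hd, h, rfl⟩
  exact ⟨M, hM0, g, hg, d, hd, h, rfl⟩

end Fermat.Agent.Newform
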