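import Fermat.Agent.Newform.Petersson

/-!
# Self-adjointness of `T_p` on `S₂(Γ₀(N))`, simultaneous diagonalisation
-/

set_option autoImplicit false

noncomputable section

namespace Fermat.Agent.Newform

open UpperHalfPlane MeasureTheory Matrix Set
open scoped MatrixGroups ModularForm ENNReal ComplexConjugate

variable {𝒢 : Subgroup (GL (Fin 2) ℝ)} {ι : Type*} {r : ι → GL (Fin 2) ℝ}
    {s : GL (Fin 2) ℝ} {Δ : Set (GL (Fin 2) ℝ)}

theorem HSys.mk' (mem : ∀ γ ∈ 𝒢, ∀ i, γ * r i ∈ Δ)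
    (surj : ∀ δ ∈ Δ, ∃ i, ∃ γ ∈ 𝒢, γ * r i = δ)
    (inj : ∀ i j, ∀ γ ∈ 𝒢, γ * r j = r i → i = j) (pos : ∀ δ ∈ Δ, 0 < δ.det.val)
    (inv : ∀ δ ∈ Δ, ∃ δ' ∈ Δ, δ' * δ = s) (s_smul : ∀ z : ℍ, s • z = z)
    (s_slash : ∀ f : ℍ → ℂ, f ∣[(2 : ℤ)] s = f) (s_comm : ∀ g, s * g = g * s) :
    HSys 𝒢 r s Δ where
  mem := mem
  surj δ hδ := by
    obtain ⟨i, γ, hγ, rfl⟩ := surj δ hδ
    exact ⟨i, by rwa [mul_inv_cancel_right]⟩
  inj i j h := inj i j _ h (inv_mul_cancel_right _ _)
  pos := pos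
  inv δ hδ := by
    obtain ⟨δ', hδ', h⟩ := inv δ hδ
    rw [← h, mul_inv_cancel_right]
    exact hδ'
  s_smul := s_smul
  s_slash := s_slash
  s_comm := s_comm

theorem ent_heckeMatrix {p : ℕ} (hp : p ≠ 0) (j : ℕ) :
    Ent (ModularForm.heckeMatrix p j) 1 j 0 p := ModularForm.val_heckeMatrix hp j

theorem ent_heckeDiagMatrix {p : ℕ} (hp : p ≠ 0) :
    Ent (ModularForm.heckeDiagMatrix p) p 0 0 1 := ModularForm.val_heckeDiagMatrix hp

/-- representatives for `T_p` -/
def rT (p : ℕ) : Option (Fin p) → GL (Fin 2) ℝ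
  | none => ModularForm.heckeDiagMatrix p
  | some j => ModularForm.heckeMatrix p j

/-- the double coset -/
def DT (N p : ℕ) : Set (GL (Fin 2) ℝ) :=
  {g | ∃ a b c d : ℤ, Ent g a b ((N : ℝ) * c) d ∧ a * d - N * b * c = p}

theorem hsys_T {N p : ℕ} (hp : p.Prime) (hpN : ¬ p ∣ N) :
    HSys (G0 N) (rT p) (Sc p (by exact_mod_cast hp.ne_zero)) (DT N p) := by
  have hp0 : (p : ℝ) ≠ 0 := by exact_mod_cast hp.ne_zero
  have hpp : Prime (p : ℤ) := Nat.prime_iff_prime_int.1 hp
  have hpN' : ¬ (p : ℤ) ∣ N := by rwa [Int.natCast_dvd_natCast]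
  refine HSys.mk' ?_ ?_ ?_ ?_ ?_ (Sc_smul _ _) (Sc_slash _ _) (Sc_comm _ _)
  · intro γ hγ i
    obtain ⟨a, b, c, d, hγ, hdet⟩ := mem_G0.1 hγ
    rcases i with _ | j
    · refine ⟨a * p, b, c * p, d, ?_, ?_⟩
      · refine (hγ.mul (ent_heckeDiagMatrix hp.ne_zero)).congr ?_ ?_ ?_ ?_ <;> push_cast <;> ring
      · linear_combination (p : ℤ) * hdet
    · refine ⟨a, a * j + b * p, c, N * c * j + d * p, ?_, ?_⟩
      · refine (hγ.mul (ent_heckeMatrix hp.ne_zero j)).congr ?_ ?_ ?_ ?_ <;> push_cast <;> ring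
      · linear_combination (p : ℤ) * hdet
  · rintro δ ⟨a, b, c, d, hδ, hdet⟩
    by_cases h : (p : ℤ) ∣ a ∧ (p : ℤ) ∣ c
    · obtain ⟨⟨a', rfl⟩, ⟨c', rfl⟩⟩ := h
      have hdet' : a' * d - N * b * c' = 1 := by
        have h1 : (p : ℤ) * (a' * d - N * b * c') = p * 1 := by linear_combination hdet
        exact mul_left_cancel₀ (by exact_mod_cast hp.ne_zero) h1
      refine ⟨none, mkGL a' b (N * c') d ?_, ?_, ?_⟩
      · have : (a' : ℝ) * d - b * (N * c') = 1 := by
          have h2 : ((a' * d - N * b * c' : ℤ) : ℝ) = 1 := by rw [hdet']; simp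
          push_cast at h2; linarith
        rw [this]; exact one_ne_zero
      · exact mem_G0.2 ⟨a', b, c', d, ent_mkGL _ _ _ _ _, hdet'⟩
      · refine (((ent_mkGL _ _ _ _ _).mul (ent_heckeDiagMatrix hp.ne_zero)).congr ?_ ?_ ?_ ?_).ext
          hδ <;> push_cast <;> ring
    · -- find `j`
      obtain ⟨j, hj, h1, h2⟩ : ∃ j : ℕ, j < p ∧ (p : ℤ) ∣ b - j * a ∧ (p : ℤ) ∣ d - j * (N * c) := by
        have := Fact.mk hp
        have hd0 : (a : ZMod p) * d - N * b * c = 0 := by
          have := congrArg (fun x : ℤ => (x : ZMod p)) hdet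
          push_cast at this
          simpa using this
        have hNp : (N : ZMod p) ≠ 0 := by
          rw [Ne, ZMod.natCast_eq_zero_iff]; exact hpN
        simp only [← ZMod.intCast_zmod_eq_zero_iff_dvd] at h ⊢
        push_cast
        by_cases ha : (a : ZMod p) = 0
        · have hc : (c : ZMod p) ≠ 0 := fun hc => h ⟨ha, hc⟩
          refine ⟨((d : ZMod p) / (N * c)).val, ZMod.val_lt _, ?_, ?_⟩
          · rw [ZMod.natCast_zmod_val, ha, mul_zero, sub_zero]
            rw [ha, zero_mul, zero_sub, neg_eq_zero, mul_eq_zero, mul_eq_zero] at hd0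
            rcases hd0 with (h3 | h3) | h3
            · exact absurd h3 hNp
            · exact h3
            · exact absurd h3 hc
          · rw [ZMod.natCast_zmod_val, div_mul_cancel₀ _ (mul_ne_zero hNp hc), sub_self]
        · refine ⟨((b : ZMod p) / a).val, ZMod.val_lt _, ?_, ?_⟩
          · rw [ZMod.natCast_zmod_val, div_mul_cancel₀ _ ha, sub_self]
          · rw [ZMod.natCast_zmod_val]
            have h3 : (a : ZMod p) * (d - b / a * (N * c)) = 0 := by
              field_simp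
              linear_combination hd0
            exact (mul_eq_zero.1 h3).resolve_left ha
      obtain ⟨b', hb'⟩ := h1
      obtain ⟨d', hd'⟩ := h2
      have hdet' : a * d' - N * b' * c = 1 := by
        have h1 : (p : ℤ) * (a * d' - N * b' * c) = p * 1 := by
          linear_combination hdet - a * hd' + N * c * hb'
        exact mul_left_cancel₀ (by exact_mod_cast hp.ne_zero) h1
      refine ⟨some ⟨j, hj⟩, mkGL a b' (N * c) d' ?_, ?_, ?_⟩
      · have : (a : ℝ) * d' - b' * (N * c) = 1 := by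
          have h2 : ((a * d' - N * b' * c : ℤ) : ℝ) = 1 := by rw [hdet']; simp
          push_cast at h2; linarith
        rw [this]; exact one_ne_zero
      · exact mem_G0.2 ⟨a, b', c, d', ent_mkGL _ _ _ _ _, hdet'⟩
      · have hb2 : (b : ℝ) - j * a = p * b' := by exact_mod_cast hb'
        have hd2 : (d : ℝ) - j * (N * c) = p * d' := by exact_mod_cast hd'
        refine (((ent_mkGL _ _ _ _ _).mul (ent_heckeMatrix hp.ne_zero j)).congr
          ?_ ?_ ?_ ?_).ext hδ
        · ring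
        · linear_combination -hb2
        · ring
        · linear_combination -hd2
  · intro i j γ hγ h
    obtain ⟨a, b, c, d, hγ, hdet⟩ := mem_G0.1 hγ
    rcases i with _ | i <;> rcases j with _ | j
    · rfl
    · exfalso
      have h1 := (hγ.mul (ent_heckeMatrix hp.ne_zero j))
      have h2 : Ent (γ * ModularForm.heckeMatrix p j) (p : ℝ) 0 0 1 := by
        have h' : γ * ModularForm.heckeMatrix p j = ModularForm.heckeDiagMatrix p := h
        rw [h']; exact ent_heckeDiagMatrix hp.ne_zero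
      obtain ⟨h3, h4, h5, h6⟩ := h1.inj h2
      have h7 : (a : ℝ) = p := by linarith
      have h8 : (N : ℝ) * c = 0 := by linarith
      have h9 : (d : ℝ) * p = 1 := by rw [h8] at h6; linarith
      have h10 : d * (p : ℤ) = 1 := by exact_mod_cast h9
      exact hpp.not_isUnit (IsUnit.of_mul_eq_one _ (by linarith : (p : ℤ) * d = 1))
    · exfalso
      have h1 := (hγ.mul (ent_heckeDiagMatrix hp.ne_zero))
      have h2 : Ent (γ * ModularForm.heckeDiagMatrix p) 1 (i : ℕ) 0 (p : ℝ) := by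
        have h' : γ * ModularForm.heckeDiagMatrix p = ModularForm.heckeMatrix p i := h
        rw [h']; exact ent_heckeMatrix hp.ne_zero i
      obtain ⟨h3, h4, h5, h6⟩ := h1.inj h2
      have h7 : (a : ℝ) * p = 1 := by linarith
      have h10 : a * (p : ℤ) = 1 := by exact_mod_cast h7
      exact hpp.not_isUnit (IsUnit.of_mul_eq_one _ (by linarith : (p : ℤ) * a = 1))
    · have h1 := (hγ.mul (ent_heckeMatrix hp.ne_zero j))
      have h2 : Ent (γ * ModularForm.heckeMatrix p j) 1 (i : ℕ) 0 (p : ℝ) := by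
        have h' : γ * ModularForm.heckeMatrix p j = ModularForm.heckeMatrix p i := h
        rw [h']; exact ent_heckeMatrix hp.ne_zero i
      obtain ⟨h3, h4, h5, h6⟩ := h1.inj h2
      have h7 : (a : ℝ) = 1 := by linarith
      have h8 : ((j : ℕ) : ℝ) + b * p = (i : ℕ) := by rw [h7] at h4; linarith
      have h9 : ((j : ℕ) : ℤ) + b * p = (i : ℕ) := by exact_mod_cast h8
      have h10 : ((i : ℕ) : ℤ) ≡ ((j : ℕ) : ℤ) [ZMOD p] := by
        rw [← h9]; exact (Int.modEq_iff_dvd.2 ⟨-b, by ring⟩)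
      have h11 := Nat.ModEq.eq_of_lt_of_lt (Int.natCast_modEq_iff.1 h10) i.2 j.2
      rw [Fin.ext h11]
  · rintro δ ⟨a, b, c, d, hδ, hdet⟩
    rw [hδ.det]
    have h1 : ((a * d - N * b * c : ℤ) : ℝ) = p := by rw [hdet]; simp
    push_cast at h1
    have h2 : (0 : ℝ) < p := by exact_mod_cast hp.pos
    linarith
  · rintro δ ⟨a, b, c, d, hδ, hdet⟩
    have h1 : ((a * d - N * b * c : ℤ) : ℝ) = p := by rw [hdet]; simp
    push_cast at h1
    refine ⟨mkGL d (-b) (N * (-c : ℝ)) a ?_, ⟨d, -b, -c, a, ?_, by linarith⟩, ?_⟩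
    · rw [show (d : ℝ) * a - -b * (N * -c) = a * d - N * b * c by ring, h1]
      exact hp0
    · push_cast
      exact ent_mkGL _ _ _ _ _
    · refine (((ent_mkGL _ _ _ _ _).mul hδ).congr ?_ ?_ ?_ ?_).ext (ent_Sc _ _)
      · linarith
      · ring
      · ring
      · linarith

theorem heckeT_eq_sum {p : ℕ} (f : ℍ → ℂ) :
    ModularForm.heckeT 2 p f = ∑ i, f ∣[(2 : ℤ)] (rT p i) := by
  rw [Fintype.sum_option, ModularForm.heckeT_def, add_comm, Finset.sum_range]
  rfl

/-- `T_p` is self-adjoint. -/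
theorem heckeT_symm {N : ℕ} [NeZero N] {p : ℕ} (hp : p.Prime) (hpN : ¬ p ∣ N)
    (f g : CuspForm (CongruenceSubgroup.Gamma0 N) 2) :
    ip (psi N) (CuspForm.heckeTLin 2 hp hpN f) g =
      ip (psi N) f (CuspForm.heckeTLin 2 hp hpN g) := by
  rw [CuspForm.coe_heckeTLin_apply, CuspForm.coe_heckeTLin_apply, heckeT_eq_sum, heckeT_eq_sum]
  refine (hsys_T hp hpN).selfadjoint (isWt_psi N) (nice_cuspForm f) (nice_cuspForm g) ?_ ?_
  · exact fun i => (MDifferentiable.slash (CuspFormClass.holo f) 2 _).continuous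
  · exact fun i => (MDifferentiable.slash (CuspFormClass.holo g) 2 _).continuous

end Fermat.Agent.Newform
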