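import Fermat.Agent.Newform.LemmaK
import Fermat.Agent.Newform.HeckeSA

/-!
# Explicit coset representatives at a prime
-/

set_option autoImplicit false

noncomputable section

namespace Fermat.Agent.Newform

open UpperHalfPlane Matrix Set
open scoped MatrixGroups ModularForm Manifold
open ModularFormClass (qCoeff)

variable {𝒢 K : Subgroup (GL (Fin 2) ℝ)} {ι : Type*} {r : ι → GL (Fin 2) ℝ}

theorem HSys.ofSubgroup (h𝒢 : 𝒢 ≤ K) (hr : ∀ i, r i ∈ K)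
    (surj : ∀ δ ∈ K, ∃ i, ∃ γ ∈ 𝒢, γ * r i = δ)
    (inj : ∀ i j, ∀ γ ∈ 𝒢, γ * r j = r i → i = j) (pos : ∀ δ ∈ K, 0 < δ.det.val) :
    HSys 𝒢 r 1 (K : Set (GL (Fin 2) ℝ)) :=
  HSys.mk' (fun γ hγ i => K.mul_mem (h𝒢 hγ) (hr i)) surj inj pos
    (fun δ hδ => ⟨δ⁻¹, K.inv_mem hδ, inv_mul_cancel δ⟩) (one_smul _)
    (fun f => SlashAction.slash_one 2 f) (fun g => by rw [one_mul, mul_one])

/-- sums over coset representatives are invariant. -/
theorem HSys.slash_sum [Fintype ι] (h : HSys 𝒢 r 1 (K : Set (GL (Fin 2) ℝ))) {f : ℍ → ℂ}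
    (hf : ∀ γ ∈ 𝒢, f ∣[(2 : ℤ)] γ = f) {δ : GL (Fin 2) ℝ} (hδ : δ ∈ K) :
    (∑ i, f ∣[(2 : ℤ)] (r i)) ∣[(2 : ℤ)] δ = ∑ i, f ∣[(2 : ℤ)] (r i) := by
  have hr : ∀ i, r i ∈ K := fun i => by simpa using h.mem 1 𝒢.one_mem i
  choose σ hσ using fun i => h.surj (r i * δ) (K.mul_mem (hr i) hδ)
  have hinj : Function.Injective σ := by
    intro i j hij
    refine h.inj i j ?_
    have h1 := 𝒢.mul_mem (hσ i) (𝒢.inv_mem (hσ j))
    rw [hij] at h1
    have h2 : r i * δ * (r (σ j))⁻¹ * (r j * δ * (r (σ j))⁻¹)⁻¹ = r i * (r j)⁻¹ := by group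
    rwa [h2] at h1
  have hbij : Function.Bijective σ := Finite.injective_iff_bijective.1 hinj
  rw [SlashAction.sum_slash,
    ← (Equiv.ofBijective σ hbij).sum_comp (fun i => f ∣[(2 : ℤ)] (r i))]
  refine Finset.sum_congr rfl fun i _ => ?_
  rw [Equiv.ofBijective_apply, ← SlashAction.slash_mul]
  have h3 : r i * δ = (r i * δ * (r (σ i))⁻¹) * r (σ i) := by group
  rw [h3, SlashAction.slash_mul, hf _ (hσ i)]

theorem HSys.sum_of_inv [Fintype ι] (h : HSys 𝒢 r 1 (K : Set (GL (Fin 2) ℝ))) {f : ℍ → ℂ}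
    (hf : ∀ γ ∈ K, f ∣[(2 : ℤ)] γ = f) :
    (∑ i, f ∣[(2 : ℤ)] (r i)) = (Fintype.card ι : ℂ) • f := by
  have hr : ∀ i, r i ∈ K := fun i => by simpa using h.mem 1 𝒢.one_mem i
  simp only [hf _ (hr _), Finset.sum_const, Finset.card_univ]
  rw [Nat.cast_smul_eq_nsmul]

theorem exists_lt_dvd {p : ℕ} (hp : p.Prime) {a : ℤ} (ha : ¬ (p : ℤ) ∣ a) (b : ℤ) :
    ∃ j : ℕ, j < p ∧ (p : ℤ) ∣ b - j * a := by
  have := Fact.mk hp
  have ha' : (a : ZMod p) ≠ 0 := by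
    rwa [Ne, ZMod.intCast_zmod_eq_zero_iff_dvd]
  refine ⟨((b : ZMod p) / a).val, ZMod.val_lt _, ?_⟩
  rw [← ZMod.intCast_zmod_eq_zero_iff_dvd]
  push_cast
  rw [ZMod.natCast_zmod_val, div_mul_cancel₀ _ ha', sub_self]

theorem eq_of_dvd_sub {p : ℕ} {i j : Fin p} (h : (p : ℤ) ∣ ((i : ℕ) : ℤ) - ((j : ℕ) : ℤ)) :
    i = j := by
  have h1 : ((j : ℕ) : ℤ) ≡ ((i : ℕ) : ℤ) [ZMOD p] := Int.modEq_iff_dvd.2 h
  exact (Fin.ext (Nat.ModEq.eq_of_lt_of_lt (Int.natCast_modEq_iff.1 h1) j.2 i.2)).symm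

variable {M p : ℕ}

/-- the conjugate of `Γ₀(M)` by `diag(p, 1)` -/
def KK (M p : ℕ) : Subgroup (GL (Fin 2) ℝ) :=
  (G0 M).comap (MulAut.conj (ModularForm.heckeDiagMatrix p)).toMonoidHom

theorem mem_KK' {g : GL (Fin 2) ℝ} : g ∈ KK M p ↔
    ModularForm.heckeDiagMatrix p * g * (ModularForm.heckeDiagMatrix p)⁻¹ ∈ G0 M := by
  rw [KK, Subgroup.mem_comap]
  rfl

theorem ent_conj_iff (hp : p ≠ 0) {g : GL (Fin 2) ℝ} {a b c d : ℝ} :
    Ent g a (b / p) (p * c) d ↔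
    Ent (ModularForm.heckeDiagMatrix p * g * (ModularForm.heckeDiagMatrix p)⁻¹) a b c d := by
  have hpR : (p : ℝ) ≠ 0 := by exact_mod_cast hp
  constructor
  · intro h
    obtain ⟨x, y, z, w, hE⟩ := exists_ent
      (ModularForm.heckeDiagMatrix p * g * (ModularForm.heckeDiagMatrix p)⁻¹)
    have h1 := mul_hD_ent hp hE
    rw [inv_mul_cancel_right] at h1
    obtain ⟨h2, h3, h4, h5⟩ := h1.inj (hD_mul_ent hp h)
    refine hE.congr ?_ ?_ ?_ ?_
    · rw [mul_comm] at h2; exact mul_left_cancel₀ hpR h2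
    · rw [h3]; field_simp
    · rw [mul_comm] at h4; exact mul_left_cancel₀ hpR h4
    · exact h5
  · intro h
    obtain ⟨x, y, z, w, hE⟩ := exists_ent g
    have h1 := mul_hD_ent hp h
    rw [inv_mul_cancel_right] at h1
    obtain ⟨h2, h3, h4, h5⟩ := h1.inj (hD_mul_ent hp hE)
    refine hE.congr ?_ ?_ ?_ ?_
    · rw [mul_comm] at h2; exact (mul_left_cancel₀ hpR h2).symm
    · rw [h3]; field_simp
    · rw [← h4]; ring
    · exact h5.symm

theorem mem_KK (hp : p ≠ 0) {g : GL (Fin 2) ℝ} : g ∈ KK M p ↔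
    ∃ a b c d : ℤ, Ent g a ((b : ℝ) / p) (p * (M * c)) d ∧ a * d - M * b * c = 1 := by
  rw [mem_KK', mem_G0]
  simp only [ent_conj_iff hp]

theorem G0_le_KK (hp : p ≠ 0) : G0 (M * p) ≤ KK M p := by
  intro g hg
  obtain ⟨a, b, c, d, hg, hdet⟩ := mem_G0.1 hg
  have hpR : (p : ℝ) ≠ 0 := by exact_mod_cast hp
  refine (mem_KK hp).2 ⟨a, p * b, c, d, hg.congr rfl ?_ ?_ rfl, ?_⟩
  · push_cast; field_simp
  · push_cast; ring
  · push_cast at hdet; linarith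

theorem det_KK (hp : p ≠ 0) {g : GL (Fin 2) ℝ} (hg : g ∈ KK M p) : 0 < g.det.val := by
  have hpR : (p : ℝ) ≠ 0 := by exact_mod_cast hp
  obtain ⟨a, b, c, d, hg, hdet⟩ := (mem_KK hp).1 hg
  rw [hg.det]
  have : ((a * d - M * b * c : ℤ) : ℝ) = 1 := by rw [hdet]; simp
  push_cast at this
  have h2 : (a : ℝ) * d - b / p * (p * (M * c)) = a * d - M * b * c := by field_simp
  rw [h2, this]; norm_num

theorem G0_le_G0 : G0 (M * p) ≤ G0 M := G0_mono (dvd_mul_right _ _)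

theorem Tr_mem_KK (hp : p ≠ 0) (j : ℤ) : Tr ((j : ℝ) / p) ∈ KK M p :=
  (mem_KK hp).2 ⟨1, j, 0, 1, (ent_Tr _).congr (by simp) rfl (by simp) (by simp), by ring⟩

theorem Lo_mem_KK (hp : p ≠ 0) {w : ℤ} (hw : (M : ℤ) ∣ w) : Lo ((p : ℝ) * w) ∈ KK M p := by
  obtain ⟨w', rfl⟩ := hw
  exact (mem_KK hp).2 ⟨1, 0, w', 1, (ent_Lo _).congr (by simp) (by simp) (by push_cast; ring)
    (by simp), by ring⟩

theorem surj_aux (hp : p.Prime) {δ : GL (Fin 2) ℝ} {a b c d : ℤ}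
    (hδ : Ent δ a ((b : ℝ) / p) (p * (M * c)) d) (hdet : a * d - M * b * c = 1)
    (ha : ¬ (p : ℤ) ∣ a) : ∃ j : Fin p, ∃ γ ∈ G0 (M * p), γ * Tr (((j : ℕ) : ℝ) / p) = δ := by
  have hpR : (p : ℝ) ≠ 0 := by exact_mod_cast hp.ne_zero
  obtain ⟨j, hj, k, hk⟩ := exists_lt_dvd hp ha b
  refine ⟨⟨j, hj⟩, δ * Tr (-((j : ℝ) / p)), ?_, ?_⟩
  · have hkR : (b : ℝ) - j * a = p * k := by exact_mod_cast hk
    refine mem_G0.2 ⟨a, k, c, d - M * c * j, (hδ.mul (ent_Tr _)).congr ?_ ?_ ?_ ?_, ?_⟩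
    · ring
    · field_simp; linear_combination hkR
    · push_cast; ring
    · push_cast; field_simp
      ring
    · push_cast; linear_combination hdet + M * c * hk
  · rw [mul_assoc, Tr_mul]
    simp [Tr_zero]

theorem Tr_inj_aux {i j : Fin p} (hp : p ≠ 0) {γ : GL (Fin 2) ℝ} (hγ : γ ∈ G0 (M * p))
    (h : γ * Tr (((j : ℕ) : ℝ) / p) = Tr (((i : ℕ) : ℝ) / p)) : i = j := by
  have hpR : (p : ℝ) ≠ 0 := by exact_mod_cast hp
  obtain ⟨a, b, c, d, hγ, hdet⟩ := mem_G0.1 hγ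
  have h1 := hγ.mul (ent_Tr (((j : ℕ) : ℝ) / p))
  rw [h] at h1
  obtain ⟨h2, h3, h4, h5⟩ := (ent_Tr _).inj h1
  have h6 : (a : ℝ) = 1 := by linarith
  rw [h6] at h3
  field_simp at h3
  refine eq_of_dvd_sub ⟨b, ?_⟩
  have : ((i : ℕ) : ℝ) - (j : ℕ) = p * b := by linear_combination h3
  exact_mod_cast this

theorem hsysK1 (hp : p.Prime) (hpM : p ∣ M) :
    HSys (G0 (M * p)) (fun j : Fin p => Tr (((j : ℕ) : ℝ) / p)) 1 (KK M p : Set (GL (Fin 2) ℝ)) := by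
  refine HSys.ofSubgroup (G0_le_KK hp.ne_zero) (fun j => ?_) ?_ ?_ fun δ hδ => det_KK hp.ne_zero hδ
  · simpa using Tr_mem_KK (M := M) hp.ne_zero ((j : ℕ) : ℤ)
  · intro δ hδ
    obtain ⟨a, b, c, d, hδ, hdet⟩ := (mem_KK hp.ne_zero).1 hδ
    refine surj_aux hp hδ hdet fun ha => ?_
    have h3 : (p : ℤ) ∣ 1 := by
      rw [← hdet]
      have : (p : ℤ) ∣ M := by exact_mod_cast hpM
      exact dvd_sub (ha.mul_right _) ((this.mul_right _).mul_right _)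
    exact (Nat.prime_iff_prime_int.1 hp).not_dvd_one h3
  · intro i j γ hγ h
    exact Tr_inj_aux hp.ne_zero hγ h

/-- representatives for `K / Γ₀(Mp)`, `p ∤ M`. -/
def rK (p : ℕ) (u w : ℤ) : Option (Fin p) → GL (Fin 2) ℝ
  | none => Tr ((u : ℝ) / p) * Lo (p * w)
  | some j => Tr (((j : ℕ) : ℝ) / p)

theorem ent_rK_none (hp : p ≠ 0) (u w : ℤ) :
    Ent (rK p u w none) (1 + u * w) (u / p) (p * w) 1 := by
  have hpR : (p : ℝ) ≠ 0 := by exact_mod_cast hp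
  refine ((ent_Tr _).mul (ent_Lo _)).congr ?_ ?_ ?_ ?_
  · field_simp
  · ring
  · ring
  · ring

theorem hsysK2 (hp : p.Prime) {u w : ℤ} (hw : (M : ℤ) ∣ w) (huw : (p : ℤ) ∣ 1 + u * w) :
    HSys (G0 (M * p)) (rK p u w) 1 (KK M p : Set (GL (Fin 2) ℝ)) := by
  have hpR : (p : ℝ) ≠ 0 := by exact_mod_cast hp.ne_zero
  have hpp := Nat.prime_iff_prime_int.1 hp
  have hu : ¬ (p : ℤ) ∣ u := fun hu => hpp.not_dvd_one (by
    have := dvd_sub huw (hu.mul_right w)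
    simpa using this)
  have hinj : ∀ (j : Fin p) (γ : GL (Fin 2) ℝ), γ ∈ G0 (M * p) →
      γ * rK p u w (some j) ≠ rK p u w none := by
    intro j γ hγ h
    obtain ⟨a, b, c, d, hγ, hdet⟩ := mem_G0.1 hγ
    have h1 := hγ.mul (ent_Tr (((j : ℕ) : ℝ) / p))
    have h1' : Ent (rK p u w none) _ _ _ _ := h ▸ h1
    obtain ⟨h2, h3, h4, h5⟩ := (ent_rK_none hp.ne_zero u w).inj h1'
    have h6 : (1 + u * w : ℝ) = a := by linarith
    rw [← h6] at h3
    field_simp at h3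
    have h7 : u = (1 + u * w) * (j : ℕ) + p * b := by
      have : (u : ℝ) = (1 + u * w) * (j : ℕ) + p * b := by linear_combination h3
      exact_mod_cast this
    apply hu
    rw [h7]
    exact dvd_add (huw.mul_right _) (dvd_mul_right _ _)
  refine HSys.ofSubgroup (G0_le_KK hp.ne_zero) (fun j => ?_) ?_ ?_ fun δ hδ => det_KK hp.ne_zero hδ
  · rcases j with _ | j
    · exact (KK M p).mul_mem (Tr_mem_KK hp.ne_zero u) (Lo_mem_KK hp.ne_zero hw)
    · simpa [rK] using Tr_mem_KK (M := M) hp.ne_zero ((j : ℕ) : ℤ)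
  · intro δ hδ
    obtain ⟨a, b, c, d, hδ, hdet⟩ := (mem_KK hp.ne_zero).1 hδ
    by_cases ha : (p : ℤ) ∣ a
    · refine ⟨none, δ * (rK p u w none)⁻¹, ?_, inv_mul_cancel_right _ _⟩
      obtain ⟨a', rfl⟩ := ha
      obtain ⟨k, hk⟩ := huw
      obtain ⟨w', rfl⟩ := hw
      have hi := (ent_rK_none hp.ne_zero u (M * w')).inv (by field_simp; ring)
      have hkR : (1 : ℝ) + u * (M * w') = p * k := by exact_mod_cast hk
      refine mem_G0.2 ⟨p * a' - b * (M * w'), b * k - u * a', c - d * w',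
        d * (1 + u * (M * w')) - M * c * u, (hδ.mul hi).congr ?_ ?_ ?_ ?_, ?_⟩
      · push_cast; field_simp; ring
      · push_cast; field_simp; linear_combination (b : ℝ) * hkR
      · push_cast; field_simp; ring
      · push_cast; field_simp; ring
      · push_cast at hdet ⊢
        linear_combination hdet + M * b * (c - d * w') * hk
    · obtain ⟨j, γ, hγ, h⟩ := surj_aux hp hδ hdet ha
      exact ⟨some j, γ, hγ, h⟩
  · intro i j γ hγ h
    rcases i with _ | i <;> rcases j with _ | j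
    · rfl
    · exact absurd h (hinj j γ hγ)
    · refine absurd ?_ (hinj i γ⁻¹ ((G0 (M * p)).inv_mem hγ))
      rw [← h, inv_mul_cancel_left]
    · rw [Tr_inj_aux hp.ne_zero hγ h]

/-! ### representatives for `Γ₀(M) / Γ₀(Mp)` -/

theorem Lo_mul (x y : ℝ) : Lo x * Lo y = Lo (x + y) :=
  ((ent_Lo x).mul (ent_Lo y)).congr (by ring) (by ring) (by ring) (by ring) |>.ext (ent_Lo _)

theorem Lo_zero : Lo 0 = 1 := (ent_Lo 0).ext ent_one

theorem Lo_mem_G0 (c : ℤ) : Lo ((M : ℝ) * c) ∈ G0 M :=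
  mem_G0.2 ⟨1, 0, c, 1, (ent_Lo _).congr (by simp) (by simp) rfl (by simp), by ring⟩

theorem surjL_aux (hp : p.Prime) {w' : ℤ} (hw' : ¬ (p : ℤ) ∣ w') {δ : GL (Fin 2) ℝ} {a b c d : ℤ}
    (hδ : Ent δ a b (M * c) d) (hdet : a * d - M * b * c = 1)
    (hd : ¬ (p : ℤ) ∣ d) : ∃ j : Fin p, ∃ γ ∈ G0 (M * p),
      γ * Lo (((j : ℕ) : ℝ) * (M * w')) = δ := by
  have hdw : ¬ (p : ℤ) ∣ d * w' := fun h =>
    ((Nat.prime_iff_prime_int.1 hp).dvd_or_dvd h).elim hd hw'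
  obtain ⟨j, hj, k, hk⟩ := exists_lt_dvd hp hdw c
  refine ⟨⟨j, hj⟩, δ * Lo (-((j : ℝ) * (M * w'))), ?_, ?_⟩
  · have hkR : (c : ℝ) - j * (d * w') = p * k := by exact_mod_cast hk
    refine mem_G0.2 ⟨a - b * (j * (M * w')), b, k, d, (hδ.mul (ent_Lo _)).congr ?_ ?_ ?_ ?_, ?_⟩
    · push_cast; ring
    · ring
    · push_cast; linear_combination (M : ℝ) * hkR
    · ring
    · push_cast; linear_combination hdet + M * b * hk
  · rw [mul_assoc, Lo_mul]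
    simp [Lo_zero]

theorem Lo_inj_aux {i j : Fin p} (hp : p.Prime) (hM : M ≠ 0) {w' : ℤ} (hw' : ¬ (p : ℤ) ∣ w')
    {γ : GL (Fin 2) ℝ} (hγ : γ ∈ G0 (M * p))
    (h : γ * Lo (((j : ℕ) : ℝ) * (M * w')) = Lo (((i : ℕ) : ℝ) * (M * w'))) : i = j := by
  obtain ⟨a, b, c, d, hγ, hdet⟩ := mem_G0.1 hγ
  have h1 := hγ.mul (ent_Lo (((j : ℕ) : ℝ) * (M * w')))
  rw [h] at h1
  obtain ⟨h2, h3, h4, h5⟩ := (ent_Lo _).inj h1
  have h6 : (d : ℝ) = 1 := by linarith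
  rw [h6] at h4
  have hMR : (M : ℝ) ≠ 0 := by exact_mod_cast hM
  have h7 : (M : ℝ) * ((((i : ℕ) : ℝ) - (j : ℕ)) * w') = M * (p * c) := by
    push_cast at h4
    linear_combination h4
  have h8 := mul_left_cancel₀ hMR h7
  have h9 : (((i : ℕ) : ℤ) - (j : ℕ)) * w' = p * c := by exact_mod_cast h8
  refine eq_of_dvd_sub ?_
  exact ((Nat.prime_iff_prime_int.1 hp).dvd_or_dvd ⟨c, h9⟩).resolve_right hw'

theorem hsysL1 (hp : p.Prime) (hM : M ≠ 0) (hpM : p ∣ M) {w' : ℤ} (hw' : ¬ (p : ℤ) ∣ w') :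
    HSys (G0 (M * p)) (fun j : Fin p => Lo (((j : ℕ) : ℝ) * (M * w'))) 1
      (G0 M : Set (GL (Fin 2) ℝ)) := by
  refine HSys.ofSubgroup G0_le_G0 (fun j => ?_) ?_ ?_ fun δ hδ => det_pos_of_mem_G0 hδ
  · have := Lo_mem_G0 (M := M) ((j : ℕ) * w')
    push_cast at this
    rwa [mul_left_comm] at this
  · intro δ hδ
    obtain ⟨a, b, c, d, hδ, hdet⟩ := mem_G0.1 hδ
    refine surjL_aux hp hw' hδ hdet fun hd => ?_
    have h3 : (p : ℤ) ∣ 1 := by
      rw [← hdet]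
      have : (p : ℤ) ∣ M := by exact_mod_cast hpM
      exact dvd_sub (hd.mul_left _) ((this.mul_right _).mul_right _)
    exact (Nat.prime_iff_prime_int.1 hp).not_dvd_one h3
  · intro i j γ hγ h
    exact Lo_inj_aux hp hM hw' hγ h

/-- representatives for `Γ₀(M) / Γ₀(Mp)`, `p ∤ M`. -/
def rL (p : ℕ) (x w : ℤ) : Option (Fin p) → GL (Fin 2) ℝ
  | none => Lo w * Tr x
  | some j => Lo (((j : ℕ) : ℝ) * w)

theorem ent_rL_none (x w : ℤ) :
    Ent (rL p x w none) 1 x w (1 + x * w) := by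
  refine ((ent_Lo _).mul (ent_Tr _)).congr ?_ ?_ ?_ ?_
  · ring
  · ring
  · ring
  · ring

theorem hsysL2 (hp : p.Prime) (hM : M ≠ 0) {x w' : ℤ} (hxw : (p : ℤ) ∣ 1 + x * (M * w')) :
    HSys (G0 (M * p)) (rL p x (M * w')) 1 (G0 M : Set (GL (Fin 2) ℝ)) := by
  have hpp := Nat.prime_iff_prime_int.1 hp
  have hMR : (M : ℝ) ≠ 0 := by exact_mod_cast hM
  have hw' : ¬ (p : ℤ) ∣ w' := fun hu => hpp.not_dvd_one (by
    have := dvd_sub hxw ((hu.mul_left (M : ℤ)).mul_left x)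
    simpa using this)
  have hinj : ∀ (j : Fin p) (γ : GL (Fin 2) ℝ), γ ∈ G0 (M * p) →
      γ * rL p x (M * w') (some j) ≠ rL p x (M * w') none := by
    intro j γ hγ h
    obtain ⟨a, b, c, d, hγ, hdet⟩ := mem_G0.1 hγ
    have h1 := hγ.mul (ent_Lo (((j : ℕ) : ℝ) * ((M * w' : ℤ) : ℝ)))
    have h1' : Ent (rL p x (M * w') none) _ _ _ _ := h ▸ h1
    obtain ⟨h2, h3, h4, h5⟩ := (ent_rL_none (p := p) x (M * w')).inj h1'
    have h6 : (1 + x * (M * w' : ℤ) : ℝ) = d := by linarith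
    rw [← h6] at h4
    have h7 : (M : ℝ) * w' = M * (p * c + (1 + x * (M * w')) * ((j : ℕ) * w')) := by
      push_cast at h4; linear_combination h4
    have h8 := mul_left_cancel₀ hMR h7
    have h9 : w' = p * c + (1 + x * (M * w')) * ((j : ℕ) * w') := by exact_mod_cast h8
    apply hw'
    rw [h9]
    exact dvd_add (dvd_mul_right _ _) (hxw.mul_right _)
  refine HSys.ofSubgroup G0_le_G0 (fun j => ?_) ?_ ?_ fun δ hδ => det_pos_of_mem_G0 hδ
  · rcases j with _ | j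
    · refine (G0 M).mul_mem ?_ (Tr_one_mem x)
      have := Lo_mem_G0 (M := M) w'
      push_cast
      exact this
    · have := Lo_mem_G0 (M := M) ((j : ℕ) * w')
      push_cast at this
      rw [mul_left_comm] at this
      simpa [rL] using this
  · intro δ hδ
    obtain ⟨a, b, c, d, hδ, hdet⟩ := mem_G0.1 hδ
    by_cases hd : (p : ℤ) ∣ d
    · refine ⟨none, δ * (rL p x (M * w') none)⁻¹, ?_, inv_mul_cancel_right _ _⟩
      obtain ⟨d', rfl⟩ := hd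
      obtain ⟨k, hk⟩ := hxw
      have hi := (ent_rL_none (p := p) x (M * w')).inv (by ring)
      have hkR : (1 : ℝ) + x * (M * w') = p * k := by exact_mod_cast hk
      refine mem_G0.2 ⟨a * (1 + x * (M * w')) - b * (M * w'), b - x * a, c * k - d' * w',
        p * d' - M * c * x, (hδ.mul hi).congr ?_ ?_ ?_ ?_, ?_⟩
      · push_cast; ring
      · push_cast; ring
      · push_cast; linear_combination (M * c : ℝ) * hkR
      · push_cast; ring
      · push_cast at hdet ⊢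
        linear_combination hdet + M * (b - x * a) * c * hk
    · obtain ⟨j, γ, hγ, h⟩ := surjL_aux hp hw' hδ hdet hd
      exact ⟨some j, γ, hγ, by simpa [rL] using h⟩
  · intro i j γ hγ h
    rcases i with _ | i <;> rcases j with _ | j
    · rfl
    · exact absurd h (hinj j γ hγ)
    · refine absurd ?_ (hinj i γ⁻¹ ((G0 (M * p)).inv_mem hγ))
      rw [← h, inv_mul_cancel_left]
    · rw [Lo_inj_aux (i := i) (j := j) hp hM hw' hγ (by simpa [rL] using h)]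

end Fermat.Agent.Newform
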