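import Fermat.Agent.Newform.AL

/-!
# Joint eigenspaces of the good Hecke operators
-/

set_option autoImplicit false

noncomputable section

namespace Fermat.Agent.Newform

open UpperHalfPlane Matrix Set
open scoped MatrixGroups ModularForm Manifold
open ModularFormClass (qCoeff)
open DSLift (heckeOp)

/-- weight two cusp forms -/
abbrev S2 (N : ℕ) := CuspForm (CongruenceSubgroup.Gamma0 N) 2

/-- good primes -/
def GP (D : ℕ) := {ℓ : ℕ // ℓ.Prime ∧ ¬ ℓ ∣ D}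

variable {M N D : ℕ}

theorem heckeOp_symm [NeZero M] {ℓ : ℕ} (hℓ : ℓ.Prime) (hℓM : ¬ ℓ ∣ M) (f g : S2 M) :
    ip (psi M) (heckeOp M 2 hℓ f) g = ip (psi M) f (heckeOp M 2 hℓ g) := by
  rw [DSLift.heckeOp_of_not_dvd hℓ hℓM]
  exact heckeT_symm hℓ hℓM f g

theorem heckeOp_commute [NeZero M] {p q : ℕ} (hp : p.Prime) (hq : q.Prime) :
    Commute (heckeOp M 2 hp) (heckeOp M 2 hq) :=
  CuspForm.commute_of_mem_heckeGenerators
    (DSLift.heckeOp_mem_heckeGenerators hp (S := ∅) (Set.notMem_empty _))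
    (DSLift.heckeOp_mem_heckeGenerators hq (S := ∅) (Set.notMem_empty _))

/-- joint eigenspaces of the `T_ℓ`, `ℓ ∤ D`. -/
def Eig (M D : ℕ) [NeZero M] (χ : GP D → ℂ) : Submodule ℂ (S2 M) :=
  ⨅ ℓ : GP D, (heckeOp M 2 ℓ.2.1).eigenspace (χ ℓ)

theorem mem_Eig [NeZero M] {χ : GP D → ℂ} {f : S2 M} :
    f ∈ Eig M D χ ↔ ∀ ℓ : GP D, heckeOp M 2 ℓ.2.1 f = χ ℓ • f := by
  simp only [Eig, Submodule.mem_iInf, Module.End.mem_eigenspace_iff]

theorem iSup_Eig [NeZero M] (hMD : M ∣ D) : ⨆ χ, Eig M D χ = ⊤ := by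
  let _ : NormedAddCommGroup (S2 M) := (core M).toNormedAddCommGroup
  let _ : InnerProductSpace ℂ (S2 M) := InnerProductSpace.ofCore (core M).toCore
  refine LinearMap.IsSymmetric.iSup_iInf_eq_top_of_commute
    (T := fun ℓ : GP D => heckeOp M 2 ℓ.2.1) (fun ℓ f g => ?_) fun ℓ ℓ' _ =>
      heckeOp_commute ℓ.2.1 ℓ'.2.1
  exact heckeOp_symm ℓ.2.1 (fun h => ℓ.2.2 (h.trans hMD)) f g

theorem iSupIndep_Eig [NeZero M] (hMD : M ∣ D) : iSupIndep (Eig M D) := by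
  let _ : NormedAddCommGroup (S2 M) := (core M).toNormedAddCommGroup
  let _ : InnerProductSpace ℂ (S2 M) := InnerProductSpace.ofCore (core M).toCore
  have h := LinearMap.IsSymmetric.orthogonalFamily_iInf_eigenspaces
    (T := fun ℓ : GP D => heckeOp M 2 ℓ.2.1) (fun ℓ f g =>
      heckeOp_symm ℓ.2.1 (fun h => ℓ.2.2 (h.trans hMD)) f g)
  exact h.independent

theorem ip_Eig [NeZero M] (hMD : M ∣ D) {χ χ' : GP D → ℂ} (hne : χ ≠ χ') {f g : S2 M}
    (hf : f ∈ Eig M D χ) (hg : g ∈ Eig M D χ') : ip (psi M) f g = 0 := by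
  let _ : NormedAddCommGroup (S2 M) := (core M).toNormedAddCommGroup
  let _ : InnerProductSpace ℂ (S2 M) := InnerProductSpace.ofCore (core M).toCore
  have h := LinearMap.IsSymmetric.orthogonalFamily_iInf_eigenspaces
    (T := fun ℓ : GP D => heckeOp M 2 ℓ.2.1) (fun ℓ f g =>
      heckeOp_symm ℓ.2.1 (fun h => ℓ.2.2 (h.trans hMD)) f g)
  exact h hne ⟨f, hf⟩ ⟨g, hg⟩

/-- intertwining maps respect decompositions. -/
theorem exists_eig_preimage [NeZero M] (hMD : M ∣ D) {κ : Type*} {N : κ → ℕ}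
    [hN : ∀ i, NeZero (N i)] (hND : ∀ i, N i ∣ D) (φ : ∀ i, S2 (N i) →ₗ[ℂ] S2 M)
    (hφ : ∀ i (ℓ : GP D) (v : S2 (N i)), φ i (heckeOp (N i) 2 ℓ.2.1 v) =
      heckeOp M 2 ℓ.2.1 (φ i v)) (χ : GP D → ℂ) {w : S2 M} (hw : w ∈ Eig M D χ)
    (hw' : w ∈ ⨆ i, LinearMap.range (φ i)) : w ∈ ⨆ i, (Eig (N i) D χ).map (φ i) := by
  have hmap : ∀ i χ', (Eig (N i) D χ').map (φ i) ≤ Eig M D χ' := by
    rintro i χ' _ ⟨v, hv, rfl⟩
    rw [SetLike.mem_coe, mem_Eig] at hv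
    rw [mem_Eig]
    intro ℓ
    rw [← hφ, hv ℓ, map_smul]
  have key : ∀ w ∈ ⨆ i, LinearMap.range (φ i),
      ∃ w' ∈ ⨆ i, (Eig (N i) D χ).map (φ i), w - w' ∈ ⨆ (χ') (_ : χ' ≠ χ), Eig M D χ' := by
    intro w hw
    induction hw using Submodule.iSup_induction' with
    | mem i w hw =>
      obtain ⟨v, rfl⟩ := hw
      have h1 : v ∈ Eig (N i) D χ ⊔ ⨆ (χ') (_ : χ' ≠ χ), Eig (N i) D χ' := by
        have : Eig (N i) D χ ⊔ ⨆ (χ') (_ : χ' ≠ χ), Eig (N i) D χ' = ⊤ := by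
          rw [eq_top_iff, ← iSup_Eig (hND i)]
          refine iSup_le fun χ' => ?_
          by_cases h : χ' = χ
          · rw [h]; exact le_sup_left
          · exact le_sup_of_le_right (le_iSup₂_of_le χ' h le_rfl)
        rw [this]; trivial
      obtain ⟨v', hv', v'', hv'', rfl⟩ := Submodule.mem_sup.1 h1
      refine ⟨φ i v', Submodule.mem_iSup_of_mem i (Submodule.mem_map_of_mem hv'), ?_⟩
      rw [map_add, add_sub_cancel_left]
      have h2 : (⨆ (χ') (_ : χ' ≠ χ), Eig (N i) D χ').map (φ i) ≤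
          ⨆ (χ') (_ : χ' ≠ χ), Eig M D χ' := by
        simp only [Submodule.map_iSup]
        exact iSup₂_mono fun χ' _ => hmap i χ'
      exact h2 (Submodule.mem_map_of_mem hv'')
    | zero => exact ⟨0, Submodule.zero_mem _, by simp⟩
    | add x y _ _ hx hy =>
      obtain ⟨x', hx', hx''⟩ := hx
      obtain ⟨y', hy', hy''⟩ := hy
      refine ⟨x' + y', Submodule.add_mem _ hx' hy', ?_⟩
      rw [add_sub_add_comm]
      exact Submodule.add_mem _ hx'' hy''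
  obtain ⟨w', hw1, hw2⟩ := key w hw'
  have h3 : w' ∈ Eig M D χ := (iSup_le fun i => hmap i χ) hw1
  have h4 : w - w' ∈ Eig M D χ := Submodule.sub_mem _ hw h3
  have h5 := (iSupIndep_Eig (M := M) hMD) χ
  have h6 := Submodule.disjoint_def.1 h5 _ h4 hw2
  rw [sub_eq_zero.1 h6]
  exact hw1

end Fermat.Agent.Newform
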