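import Fermat.Agent.Newform.Petersson
import Fermat.Agent.DSLift.Duality

/-!
# Cusp forms of weight 2 as functions, level changing operators
-/

set_option autoImplicit false

noncomputable section

namespace Fermat.Agent.Newform

open UpperHalfPlane Matrix Set
open scoped MatrixGroups ModularForm Manifold
open ModularFormClass (qCoeff)

/-- rational matrices -/
def IsRat (g : GL (Fin 2) ℝ) : Prop :=
  ∃ g' : GL (Fin 2) ℚ, g = Matrix.GeneralLinearGroup.map (Rat.castHom ℝ) g'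

theorem IsRat.mul {g h : GL (Fin 2) ℝ} (hg : IsRat g) (hh : IsRat h) : IsRat (g * h) := by
  obtain ⟨g', rfl⟩ := hg
  obtain ⟨h', rfl⟩ := hh
  exact ⟨g' * h', by rw [map_mul]⟩

theorem IsRat.inv {g : GL (Fin 2) ℝ} (hg : IsRat g) : IsRat g⁻¹ := by
  obtain ⟨g', rfl⟩ := hg
  exact ⟨g'⁻¹, by rw [map_inv]⟩

theorem isRat_of_ent {g : GL (Fin 2) ℝ} {a b c d : ℚ} (hg : Ent g a b c d) : IsRat g := by
  have h0 : a * d - b * c ≠ 0 := by
    intro h
    have h1 := hg.det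
    have h2 : ((a * d - b * c : ℚ) : ℝ) = 0 := by rw [h]; simp
    push_cast at h2
    rw [h2] at h1
    exact g.det.ne_zero h1
  refine ⟨Matrix.GeneralLinearGroup.mkOfDetNeZero !![a, b; c, d]
    (by rwa [Matrix.det_fin_two_of]), ?_⟩
  refine hg.ext ?_
  rw [Ent]
  ext i j
  fin_cases i <;> fin_cases j <;> rfl

/-- holomorphic functions vanishing at all the cusps -/
structure V2 (f : ℍ → ℂ) : Prop where
  holo : MDiff f
  zero : ∀ c, IsCusp c 𝒮ℒ → OnePoint.IsZeroAt c f 2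

theorem V2.zero' : V2 (0 : ℍ → ℂ) where
  holo := fun _ => mdifferentiableAt_const
  zero c _ g _ := by
    rw [SlashAction.zero_slash]
    exact Filter.zero_zeroAtFilter _

theorem V2.add {f g : ℍ → ℂ} (hf : V2 f) (hg : V2 g) : V2 (f + g) where
  holo := hf.holo.add hg.holo
  zero c hc := (hf.zero c hc).add (hg.zero c hc)

theorem V2.smul {f : ℍ → ℂ} (hf : V2 f) (a : ℂ) : V2 (a • f) where
  holo := hf.holo.const_smul a
  zero c hc g hg := by
    rw [ModularForm.smul_slash]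
    exact (hf.zero c hc g hg).smul _

theorem V2.sub {f g : ℍ → ℂ} (hf : V2 f) (hg : V2 g) : V2 (f - g) := by
  have := hf.add (hg.smul (-1))
  rwa [neg_one_smul, ← sub_eq_add_neg] at this

theorem V2.sum {ι : Type*} (S : Finset ι) {f : ι → ℍ → ℂ} (hf : ∀ i ∈ S, V2 (f i)) :
    V2 (∑ i ∈ S, f i) := by
  classical
  induction S using Finset.induction_on with
  | empty => simpa using V2.zero'
  | insert a s ha ih =>
    rw [Finset.sum_insert ha]
    exact (hf a (Finset.mem_insert_self a s)).add (ih fun i hi => hf i (Finset.mem_insert_of_mem hi))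

theorem V2.slash {f : ℍ → ℂ} (hf : V2 f) {g : GL (Fin 2) ℝ} (hg : IsRat g) :
    V2 (f ∣[(2 : ℤ)] g) where
  holo := MDifferentiable.slash hf.holo 2 g
  zero c hc := by
    obtain ⟨g', rfl⟩ := hg
    refine OnePoint.IsZeroAt.smul_iff.mp (hf.zero _ ?_)
    rw [isCusp_SL2Z_iff] at hc ⊢
    obtain ⟨c, rfl⟩ := hc
    exact ⟨g' • c, by rw [← Rat.coe_castHom, OnePoint.map_smul]⟩

theorem isRat_of_mem_G0 {N : ℕ} {g : GL (Fin 2) ℝ} (hg : g ∈ G0 N) : IsRat g := by
  obtain ⟨a, b, c, d, hg, -⟩ := mem_G0.1 hg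
  exact isRat_of_ent (a := a) (b := b) (c := (N * c : ℚ)) (d := d)
    (hg.congr (by simp) (by simp) (by push_cast; rfl) (by simp))

theorem isRat_Tr (x : ℚ) : IsRat (Tr x) :=
  isRat_of_ent (a := 1) (b := x) (c := 0) (d := 1)
    ((ent_Tr x).congr (by simp) (by simp) (by simp) (by simp))

theorem isRat_Lo (x : ℚ) : IsRat (Lo x) :=
  isRat_of_ent (a := 1) (b := 0) (c := x) (d := 1)
    ((ent_Lo x).congr (by simp) (by simp) (by simp) (by simp))

/-- `f` is (the function underlying) a weight two cusp form of level `Γ₀(N)` -/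
structure IsCF (N : ℕ) (f : ℍ → ℂ) : Prop where
  v : V2 f
  inv : ∀ γ ∈ G0 N, f ∣[(2 : ℤ)] γ = f

variable {N M d : ℕ} {f g : ℍ → ℂ}

theorem isCF [NeZero N] (f : CuspForm (CongruenceSubgroup.Gamma0 N) 2) : IsCF N f where
  v := ⟨CuspFormClass.holo f, fun _ hc => CuspFormClass.zero_at_cusps f
    ((Subgroup.IsArithmetic.isCusp_iff_isCusp_SL2Z (G0 N)).2 hc)⟩
  inv γ hγ := SlashInvariantFormClass.slash_action_eq f γ hγ

/-- the cusp form with given underlying function -/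
def mkCF (N : ℕ) [NeZero N] (f : ℍ → ℂ) (hf : IsCF N f) :
    CuspForm (CongruenceSubgroup.Gamma0 N) 2 where
  toFun := f
  slash_action_eq' := hf.inv
  holo' := hf.v.holo
  zero_at_cusps' hc := hf.v.zero _ ((Subgroup.IsArithmetic.isCusp_iff_isCusp_SL2Z (G0 N)).1 hc)

@[simp] theorem coe_mkCF [NeZero N] (hf : IsCF N f) : ⇑(mkCF N f hf) = f := rfl

theorem IsCF.zero : IsCF N (0 : ℍ → ℂ) := ⟨V2.zero', fun _ _ => SlashAction.zero_slash _ _⟩

theorem IsCF.add (hf : IsCF N f) (hg : IsCF N g) : IsCF N (f + g) :=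
  ⟨hf.v.add hg.v, fun γ hγ => by rw [SlashAction.add_slash, hf.inv γ hγ, hg.inv γ hγ]⟩

theorem smul_slash_pos {g : GL (Fin 2) ℝ} (hg : 0 < g.det.val) (a : ℂ) (f : ℍ → ℂ) :
    (a • f) ∣[(2 : ℤ)] g = a • (f ∣[(2 : ℤ)] g) := by
  rw [ModularForm.smul_slash, σ, if_pos hg]
  rfl

theorem det_pos_of_mem_G0 {γ : GL (Fin 2) ℝ} (hγ : γ ∈ G0 N) : 0 < γ.det.val := by
  obtain ⟨a, b, c, d, hγ, hdet⟩ := mem_G0.1 hγ
  rw [hγ.det]
  have : ((a * d - N * b * c : ℤ) : ℝ) = 1 := by rw [hdet]; simp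
  push_cast at this
  linarith

theorem IsCF.smul (hf : IsCF N f) (a : ℂ) : IsCF N (a • f) :=
  ⟨hf.v.smul a, fun γ hγ => by rw [smul_slash_pos (det_pos_of_mem_G0 hγ), hf.inv γ hγ]⟩

theorem IsCF.sub (hf : IsCF N f) (hg : IsCF N g) : IsCF N (f - g) := by
  have := hf.add (hg.smul (-1))
  rwa [neg_one_smul, ← sub_eq_add_neg] at this

theorem IsCF.neg (hf : IsCF N f) : IsCF N (-f) := by
  have := hf.smul (-1)
  rwa [neg_one_smul] at this

theorem IsCF.sum {ι : Type*} (S : Finset ι) {f : ι → ℍ → ℂ} (hf : ∀ i ∈ S, IsCF N (f i)) :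
    IsCF N (∑ i ∈ S, f i) := by
  classical
  induction S using Finset.induction_on with
  | empty => simpa using IsCF.zero
  | insert a s ha ih =>
    rw [Finset.sum_insert ha]
    exact (hf a (Finset.mem_insert_self a s)).add (ih fun i hi => hf i (Finset.mem_insert_of_mem hi))

theorem G0_mono (h : M ∣ N) : G0 N ≤ G0 M := by
  obtain ⟨k, rfl⟩ := h
  intro γ hγ
  obtain ⟨a, b, c, d, hγ, hdet⟩ := mem_G0.1 hγ
  exact mem_G0.2 ⟨a, b, k * c, d, hγ.congr rfl rfl (by push_cast; ring) rfl,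
    by push_cast at hdet; linarith⟩

theorem IsCF.mono (hf : IsCF M f) (h : M ∣ N) : IsCF N f :=
  ⟨hf.v, fun γ hγ => hf.inv γ (G0_mono h hγ)⟩

theorem Tr_one_mem (n : ℤ) : Tr n ∈ G0 N :=
  mem_G0.2 ⟨1, n, 0, 1, (ent_Tr n).congr (by simp) rfl (by simp) (by simp), by ring⟩

/-- `q`-coefficients -/
theorem IsCF.hasSum [NeZero N] (hf : IsCF N f) (z : ℍ) :
    HasSum (fun n : ℕ => qCoeff f n * Function.Periodic.qParam 1 z ^ n) (f z) := by
  have h1 := CongruenceSubgroup.one_mem_strictPeriods_Gamma0 N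
  have : Fact (IsCusp OnePoint.infty ((CongruenceSubgroup.Gamma0 N :
      Subgroup (GL (Fin 2) ℝ)))) := ⟨Subgroup.isCusp_of_mem_strictPeriods one_pos h1⟩
  exact hasSum_qExpansion one_pos
    (SlashInvariantFormClass.periodic_comp_ofComplex (mkCF N f hf) h1)
    (ModularFormClass.holo (mkCF N f hf)) (ModularFormClass.bdd_at_infty (mkCF N f hf)) z

theorem IsCF.qCoeff_unique [NeZero N] (hf : IsCF N f) {c : ℕ → ℂ}
    (h : ∀ z : ℍ, HasSum (fun n : ℕ => c n * Function.Periodic.qParam 1 z ^ n) (f z)) (n : ℕ) :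
    qCoeff f n = c n := by
  exact (ModularFormClass.qExpansion_coeff_unique one_pos
    (CongruenceSubgroup.one_mem_strictPeriods_Gamma0 N) (f := mkCF N f hf) h n).symm

theorem IsCF.ext [NeZero N] (hf : IsCF N f) (hg : IsCF N g) (h : ∀ n, qCoeff f n = qCoeff g n) :
    f = g := by
  have := DSLift.ext_qCoeff (f := mkCF N f hf) (g := mkCF N g hg) h
  exact congrArg DFunLike.coe this

theorem IsCF.qCoeff_add [NeZero N] (hf : IsCF N f) (hg : IsCF N g) (n : ℕ) :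
    qCoeff (f + g) n = qCoeff f n + qCoeff g n :=
  (DSLift.qCoeffLin N 2 n).map_add (mkCF N f hf) (mkCF N g hg)

theorem IsCF.qCoeff_smul [NeZero N] (hf : IsCF N f) (a : ℂ) (n : ℕ) :
    qCoeff (a • f) n = a * qCoeff f n :=
  (hf.smul a).qCoeff_unique (c := fun n => a * qCoeff f n) (fun z => by
    have := (hf.hasSum z).mul_left a
    simpa only [mul_assoc, Pi.smul_apply, smul_eq_mul] using this) n

theorem IsCF.qCoeff_sub [NeZero N] (hf : IsCF N f) (hg : IsCF N g) (n : ℕ) :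
    qCoeff (f - g) n = qCoeff f n - qCoeff g n :=
  (DSLift.qCoeffLin N 2 n).map_sub (mkCF N f hf) (mkCF N g hg)

theorem qCoeff_zero_fun (n : ℕ) : qCoeff (0 : ℍ → ℂ) n = 0 :=
  (DSLift.qCoeffLin 1 2 n).map_zero

theorem IsCF.qCoeff_zero [NeZero N] (hf : IsCF N f) : qCoeff f 0 = 0 :=
  DSLift.qCoeff_zero_eq (mkCF N f hf)

theorem IsCF.qCoeff_sum [NeZero N] {ι : Type*} (S : Finset ι) {f : ι → ℍ → ℂ}
    (hf : ∀ i ∈ S, IsCF N (f i)) (n : ℕ) :
    qCoeff (∑ i ∈ S, f i) n = ∑ i ∈ S, qCoeff (f i) n := by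
  classical
  induction S using Finset.induction_on with
  | empty => simpa using qCoeff_zero_fun n
  | insert a s ha ih =>
    rw [Finset.sum_insert ha, Finset.sum_insert ha, IsCF.qCoeff_add
      (hf a (Finset.mem_insert_self a s))
      (IsCF.sum s fun i hi => hf i (Finset.mem_insert_of_mem hi)),
      ih fun i hi => hf i (Finset.mem_insert_of_mem hi)]

/-- `f ↦ f(dz)` -/
def Bd (d : ℕ) (f : ℍ → ℂ) : ℍ → ℂ := fun z => f (ModularForm.heckeDiagMatrix d • z)

theorem ent_hD {d : ℕ} (hd : d ≠ 0) : Ent (ModularForm.heckeDiagMatrix d) d 0 0 1 :=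
  ModularForm.val_heckeDiagMatrix hd

theorem isRat_hD {d : ℕ} (hd : d ≠ 0) : IsRat (ModularForm.heckeDiagMatrix d) :=
  isRat_of_ent (a := d) (b := 0) (c := 0) (d := 1)
    ((ent_hD hd).congr (by simp) (by simp) (by simp) (by simp))

theorem det_hD_pos (d : ℕ) : 0 < (ModularForm.heckeDiagMatrix d).det.val :=
  ModularForm.det_heckeDiagMatrix_pos d

theorem Bd_eq {d : ℕ} (hd : d ≠ 0) (f : ℍ → ℂ) :
    Bd d f = (d : ℂ)⁻¹ • (f ∣[(2 : ℤ)] ModularForm.heckeDiagMatrix d) := by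
  ext z
  rw [Pi.smul_apply, ModularForm.slash_heckeDiagMatrix_apply 2 hd]
  have : (d : ℂ) ≠ 0 := by exact_mod_cast hd
  rw [show (2 : ℤ) - 1 = 1 by norm_num, zpow_one, smul_eq_mul, inv_mul_cancel_left₀ this, Bd]

theorem slash_hD {d : ℕ} (hd : d ≠ 0) (f : ℍ → ℂ) :
    f ∣[(2 : ℤ)] ModularForm.heckeDiagMatrix d = (d : ℂ) • Bd d f := by
  have : (d : ℂ) ≠ 0 := by exact_mod_cast hd
  rw [Bd_eq hd, smul_inv_smul₀ this]

theorem IsCF.Bd (hf : IsCF M f) {d : ℕ} (hd : d ≠ 0) : IsCF (M * d) (Bd d f) := by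
  rw [Bd_eq hd]
  refine ⟨(hf.v.slash (isRat_hD hd)).smul _, fun γ hγ => ?_⟩
  rw [smul_slash_pos (det_pos_of_mem_G0 hγ), ← SlashAction.slash_mul]
  congr 1
  obtain ⟨a, b, c, e, hγ, hdet⟩ := mem_G0.1 hγ
  have hdet' : (a : ℝ) * e - (d * b) * (M * c) = 1 := by
    have : ((a * e - (M * d : ℕ) * b * c : ℤ) : ℝ) = 1 := by rw [hdet]; simp
    push_cast at this
    linarith
  have h1 : ModularForm.heckeDiagMatrix d * γ =
      mkGL a (d * b) (M * c) e (by rw [hdet']; exact one_ne_zero) *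
        ModularForm.heckeDiagMatrix d := by
    refine (((ent_hD hd).mul hγ).congr ?_ ?_ ?_ ?_).ext ((ent_mkGL _ _ _ _ _).mul (ent_hD hd))
      <;> push_cast <;> ring
  rw [h1, SlashAction.slash_mul, hf.inv]
  exact mem_G0.2 ⟨a, d * b, c, e, (ent_mkGL _ _ _ _ _).congr rfl (by push_cast; rfl) rfl rfl,
    by push_cast at hdet; linarith⟩

theorem qParam_hD {d : ℕ} (hd : d ≠ 0) (z : ℍ) :
    Function.Periodic.qParam 1 ((ModularForm.heckeDiagMatrix d • z : ℍ) : ℂ) =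
      Function.Periodic.qParam 1 z ^ d := by
  rw [ModularForm.coe_heckeDiagMatrix_smul hd]
  simp only [Function.Periodic.qParam]
  rw [← Complex.exp_nat_mul]
  congr 1
  push_cast
  ring

theorem IsCF.qCoeff_Bd [NeZero M] (hf : IsCF M f) {d : ℕ} (hd : d ≠ 0) (n : ℕ) :
    qCoeff (Newform.Bd d f) n = if d ∣ n then qCoeff f (n / d) else 0 := by
  have : NeZero (M * d) := ⟨mul_ne_zero (NeZero.ne M) hd⟩
  refine (hf.Bd hd).qCoeff_unique (c := fun n => if d ∣ n then qCoeff f (n / d) else 0)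
    (fun z => ?_) n
  have h1 := hf.hasSum (ModularForm.heckeDiagMatrix d • z)
  have hinj : Function.Injective (fun n : ℕ => d * n) := fun a b h =>
    Nat.eq_of_mul_eq_mul_left (Nat.pos_of_ne_zero hd) h
  rw [← hinj.hasSum_iff]
  · refine h1.congr_fun fun m => ?_
    simp only [Function.comp_apply, dvd_mul_right, if_true,
      Nat.mul_div_cancel_left _ (Nat.pos_of_ne_zero hd)]
    rw [qParam_hD hd, pow_mul]
  · intro m hm
    have : ¬ d ∣ m := by
      rintro ⟨c, rfl⟩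
      exact hm ⟨c, rfl⟩
    simp [this]

theorem IsCF.heckeU (hf : IsCF N f) {d : ℕ} (hd : d ≠ 0) (hdN : d ∣ N) :
    IsCF N (ModularForm.heckeU 2 d f) where
  v := by
    rw [ModularForm.heckeU_def]
    refine V2.sum _ fun j _ => hf.v.slash ?_
    exact isRat_of_ent (a := 1) (b := j) (c := 0) (d := d)
      (Ent.congr (ModularForm.val_heckeMatrix hd j) (by simp) (by simp) (by simp) (by simp))
  inv := ModularForm.heckeU_slash_eq_self_of_mem_Gamma0 2 hdN hf.inv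

theorem IsCF.qCoeff_heckeU [NeZero N] (hf : IsCF N f) {d : ℕ} (hd : d ≠ 0) (n : ℕ) :
    qCoeff (ModularForm.heckeU 2 d f) n = qCoeff f (n * d) :=
  ModularFormClass.qCoeff_heckeU (mkCF N f hf) (CongruenceSubgroup.one_mem_strictPeriods_Gamma0 N)
    hd n

theorem IsCF.heckeT [NeZero N] (hf : IsCF N f) {p : ℕ} (hp : p.Prime) (hpN : ¬ p ∣ N) :
    IsCF N (ModularForm.heckeT 2 p f) :=
  isCF (CuspForm.heckeTLin 2 hp hpN (mkCF N f hf))

theorem IsCF.qCoeff_heckeT [NeZero N] (hf : IsCF N f) {d : ℕ} (hd : d ≠ 0) (n : ℕ) :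
    qCoeff (ModularForm.heckeT 2 d f) n =
      qCoeff f (n * d) + if d ∣ n then (d : ℂ) * qCoeff f (n / d) else 0 := by
  have := ModularFormClass.qCoeff_heckeT (mkCF N f hf)
    (CongruenceSubgroup.one_mem_strictPeriods_Gamma0 N) hd n
  rw [ModularForm.coeffHeckeT_apply, show (2 : ℤ) - 1 = 1 by norm_num, zpow_one] at this
  exact this

/-- the part of the expansion supported on multiples of `d`. -/
def ep (d : ℕ) (f : ℍ → ℂ) : ℍ → ℂ := Bd d (ModularForm.heckeU 2 d f)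

theorem IsCF.ep [NeZero N] (hf : IsCF N f) {d : ℕ} (hd : d ≠ 0) : IsCF (N * d ^ 2) (ep d f) := by
  have h1 : IsCF (N * d) f := hf.mono (dvd_mul_right _ _)
  have h2 := (h1.heckeU hd (dvd_mul_left _ _)).Bd hd
  rwa [mul_assoc, ← sq] at h2

theorem IsCF.qCoeff_ep [NeZero N] (hf : IsCF N f) {d : ℕ} (hd : d ≠ 0) (n : ℕ) :
    qCoeff (Newform.ep d f) n = if d ∣ n then qCoeff f n else 0 := by
  have : NeZero (N * d) := ⟨mul_ne_zero (NeZero.ne N) hd⟩
  have h1 : IsCF (N * d) f := hf.mono (dvd_mul_right _ _)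
  rw [Newform.ep, (h1.heckeU hd (dvd_mul_left _ _)).qCoeff_Bd hd]
  split_ifs with h
  · rw [hf.qCoeff_heckeU hd, Nat.div_mul_cancel h]
  · rfl

theorem det_Tr_pos (x : ℝ) : 0 < (Tr x).det.val := by
  rw [(ent_Tr x).det]; norm_num

theorem ep_eq_sum {d : ℕ} (hd : d ≠ 0) (f : ℍ → ℂ) :
    ep d f = (d : ℂ)⁻¹ • ∑ j ∈ Finset.range d, f ∣[(2 : ℤ)] Tr ((j : ℝ) / d) := by
  have hd' : (d : ℝ) ≠ 0 := by exact_mod_cast hd
  rw [ep, Bd_eq hd, ModularForm.heckeU_def, SlashAction.sum_slash]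
  congr 1
  refine Finset.sum_congr rfl fun j _ => ?_
  rw [← SlashAction.slash_mul]
  have h1 : ModularForm.heckeMatrix d j * ModularForm.heckeDiagMatrix d =
      Sc (d : ℝ) hd' * Tr ((j : ℝ) / d) := by
    refine ((Ent.mul (ModularForm.val_heckeMatrix hd j) (ent_hD hd)).congr ?_ ?_ ?_ ?_).ext
      ((ent_Sc _ hd').mul (ent_Tr _))
    · ring
    · field_simp; ring
    · ring
    · ring
  rw [h1, SlashAction.slash_mul, Sc_slash]

end Fermat.Agent.Newform
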