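import Mathlib

/-!
# Explicit 2x2 real matrices, `Γ₀(N)` inside `GL₂(ℝ)`
-/

set_option autoImplicit false

noncomputable section

namespace Fermat.Agent.Newform

open UpperHalfPlane Matrix Set
open scoped MatrixGroups ModularForm

/-- the entries of `g` are `a b c d`. -/
def Ent (g : GL (Fin 2) ℝ) (a b c d : ℝ) : Prop :=
  (g : Matrix (Fin 2) (Fin 2) ℝ) = !![a, b; c, d]

theorem Ent.mul {g h : GL (Fin 2) ℝ} {a b c d a' b' c' d' : ℝ} (hg : Ent g a b c d)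
    (hh : Ent h a' b' c' d') :
    Ent (g * h) (a * a' + b * c') (a * b' + b * d') (c * a' + d * c') (c * b' + d * d') := by
  rw [Ent, Units.val_mul, hg, hh, Matrix.mul_fin_two]

theorem Ent.congr {g : GL (Fin 2) ℝ} {a b c d a' b' c' d' : ℝ} (hg : Ent g a b c d)
    (h1 : a = a') (h2 : b = b') (h3 : c = c') (h4 : d = d') : Ent g a' b' c' d' := by
  subst h1 h2 h3 h4; exact hg

theorem Ent.ext {g h : GL (Fin 2) ℝ} {a b c d : ℝ} (hg : Ent g a b c d) (hh : Ent h a b c d) :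
    g = h := Units.ext (hg.trans hh.symm)

theorem Ent.inj {g : GL (Fin 2) ℝ} {a b c d a' b' c' d' : ℝ} (hg : Ent g a b c d)
    (hh : Ent g a' b' c' d') : a = a' ∧ b = b' ∧ c = c' ∧ d = d' := by
  have h : (!![a, b; c, d] : Matrix (Fin 2) (Fin 2) ℝ) = !![a', b'; c', d'] := hg.symm.trans hh
  exact ⟨congrFun (congrFun h 0) 0, congrFun (congrFun h 0) 1, congrFun (congrFun h 1) 0,
    congrFun (congrFun h 1) 1⟩

theorem Ent.det {g : GL (Fin 2) ℝ} {a b c d : ℝ} (hg : Ent g a b c d) :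
    (g.det.val : ℝ) = a * d - b * c := by
  rw [Matrix.GeneralLinearGroup.val_det_apply, hg, Matrix.det_fin_two_of]

theorem ent_one : Ent 1 1 0 0 1 := by
  rw [Ent, Units.val_one, Matrix.one_fin_two]

theorem exists_ent (g : GL (Fin 2) ℝ) : ∃ a b c d, Ent g a b c d :=
  ⟨_, _, _, _, Matrix.eta_fin_two _⟩

/-- a matrix from its entries -/
def mkGL (a b c d : ℝ) (h : a * d - b * c ≠ 0) : GL (Fin 2) ℝ :=
  Matrix.GeneralLinearGroup.mkOfDetNeZero !![a, b; c, d] (by rwa [Matrix.det_fin_two_of])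

theorem ent_mkGL (a b c d : ℝ) (h : a * d - b * c ≠ 0) : Ent (mkGL a b c d h) a b c d := rfl

theorem Ent.inv {g : GL (Fin 2) ℝ} {a b c d : ℝ} (hg : Ent g a b c d)
    (h1 : a * d - b * c = 1) : Ent g⁻¹ d (-b) (-c) a := by
  have h2 : d * a - (-b) * (-c) ≠ 0 := by
    rw [show d * a - (-b) * (-c) = a * d - b * c by ring, h1]; exact one_ne_zero
  have h3 : g * mkGL d (-b) (-c) a h2 = 1 := by
    refine ((hg.mul (ent_mkGL _ _ _ _ h2)).congr ?_ ?_ ?_ ?_).ext ent_one <;> linarith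
  rw [inv_eq_of_mul_eq_one_right h3]
  exact ent_mkGL _ _ _ _ h2

/-- translation by `x` -/
def Tr (x : ℝ) : GL (Fin 2) ℝ := mkGL 1 x 0 1 (by norm_num)

/-- lower triangular unipotent -/
def Lo (x : ℝ) : GL (Fin 2) ℝ := mkGL 1 0 x 1 (by norm_num)

theorem ent_Tr (x : ℝ) : Ent (Tr x) 1 x 0 1 := ent_mkGL _ _ _ _ _

theorem ent_Lo (x : ℝ) : Ent (Lo x) 1 0 x 1 := ent_mkGL _ _ _ _ _

theorem Tr_mul (x y : ℝ) : Tr x * Tr y = Tr (x + y) :=
  ((ent_Tr x).mul (ent_Tr y)).congr (by ring) (by ring) (by ring) (by ring) |>.ext (ent_Tr _)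

theorem Tr_zero : Tr 0 = 1 := (ent_Tr 0).ext ent_one

theorem Tr_inv (x : ℝ) : (Tr x)⁻¹ = Tr (-x) :=
  inv_eq_of_mul_eq_one_right (by rw [Tr_mul, add_neg_cancel, Tr_zero])

/-- diagonal matrices -/
def Dg (a d : ℝ) (h : a * d ≠ 0) : GL (Fin 2) ℝ := mkGL a 0 0 d (by simpa using h)

theorem ent_Dg (a d : ℝ) (h : a * d ≠ 0) : Ent (Dg a d h) a 0 0 d := ent_mkGL _ _ _ _ _

theorem ent_mapGL (γ : SL(2, ℤ)) : Ent (Matrix.SpecialLinearGroup.mapGL ℝ γ)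
    ((γ 0 0 : ℤ) : ℝ) ((γ 0 1 : ℤ) : ℝ) ((γ 1 0 : ℤ) : ℝ) ((γ 1 1 : ℤ) : ℝ) := by
  rw [Ent]
  ext i j
  fin_cases i <;> fin_cases j <;> simp

/-- `Γ₀(N)` inside `GL₂(ℝ)` -/
abbrev G0 (N : ℕ) : Subgroup (GL (Fin 2) ℝ) :=
  (CongruenceSubgroup.Gamma0 N).map (Matrix.SpecialLinearGroup.mapGL ℝ)

theorem exists_SL (a b c d : ℤ) (h : a * d - b * c = 1) :
    ∃ γ : SL(2, ℤ), γ 0 0 = a ∧ γ 0 1 = b ∧ γ 1 0 = c ∧ γ 1 1 = d :=
  ⟨⟨!![a, b; c, d], by rw [Matrix.det_fin_two_of, h]⟩, rfl, rfl, rfl, rfl⟩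

theorem mem_G0 {N : ℕ} {g : GL (Fin 2) ℝ} : g ∈ G0 N ↔
    ∃ a b c d : ℤ, Ent g a b ((N : ℝ) * c) d ∧ a * d - N * b * c = 1 := by
  constructor
  · rintro ⟨γ, hγ, rfl⟩
    rw [SetLike.mem_coe, CongruenceSubgroup.Gamma0_mem,
      ZMod.intCast_zmod_eq_zero_iff_dvd] at hγ
    obtain ⟨c, hc⟩ := hγ
    have hdet := Matrix.SpecialLinearGroup.det_coe γ
    rw [Matrix.det_fin_two] at hdet
    refine ⟨γ 0 0, γ 0 1, c, γ 1 1, (ent_mapGL γ).congr rfl rfl ?_ rfl, ?_⟩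
    · rw [hc]; push_cast; ring
    · rw [hc] at hdet
      linarith
  · rintro ⟨a, b, c, d, hg, hdet⟩
    obtain ⟨γ, h1, h2, h3, h4⟩ := exists_SL a b (N * c) d (by linarith)
    refine ⟨γ, ?_, ?_⟩
    · rw [SetLike.mem_coe, CongruenceSubgroup.Gamma0_mem, h3]
      simp
    · exact ((ent_mapGL γ).congr (by rw [h1]) (by rw [h2]) (by rw [h3]; push_cast; ring)
        (by rw [h4])).ext hg

theorem mem_G0_of_ent {N : ℕ} {g : GL (Fin 2) ℝ} (a b c d : ℤ) {x y z w : ℝ}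
    (hg : Ent g x y z w) (hx : x = a) (hy : y = b) (hz : z = N * c) (hw : w = d)
    (hdet : x * w - y * z = 1) : g ∈ G0 N := by
  subst hx hy hz hw
  refine mem_G0.2 ⟨a, b, c, d, hg, ?_⟩
  have : ((a * d - N * b * c : ℤ) : ℝ) = 1 := by push_cast; linarith
  exact_mod_cast this

instance (N : ℕ) : Countable (G0 N) := by
  have : Countable (CongruenceSubgroup.Gamma0 N) := by
    have : Countable SL(2, ℤ) := inferInstanceAs (Countable {A : Fin 2 → Fin 2 → ℤ // Matrix.det A = 1})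
    infer_instance
  exact ((CongruenceSubgroup.Gamma0 N).equivMapOfInjective _
    (Matrix.SpecialLinearGroup.mapGL_injective (n := Fin 2) (R := ℤ) (S := ℝ))).symm.injective.countable

/-- scalar matrices -/
def Sc (a : ℝ) (h : a ≠ 0) : GL (Fin 2) ℝ := Dg a a (mul_ne_zero h h)

theorem ent_Sc (a : ℝ) (h : a ≠ 0) : Ent (Sc a h) a 0 0 a := ent_Dg _ _ _

theorem Sc_comm (a : ℝ) (h : a ≠ 0) (g : GL (Fin 2) ℝ) : Sc a h * g = g * Sc a h := by
  obtain ⟨x, y, z, w, hg⟩ := exists_ent g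
  exact (((ent_Sc a h).mul hg).congr (by ring) (by ring) (by ring) (by ring)).ext
    (hg.mul (ent_Sc a h))

theorem coe_smul_ent {g : GL (Fin 2) ℝ} {a b c d : ℝ} (hg : Ent g a b c d)
    (hpos : 0 < a * d - b * c) (z : ℍ) : ((g • z : ℍ) : ℂ) = (a * z + b) / (c * z + d) := by
  rw [UpperHalfPlane.coe_smul_of_det_pos (by rw [hg.det]; exact hpos)]
  have h : (g : Matrix (Fin 2) (Fin 2) ℝ) = !![a, b; c, d] := hg
  simp [UpperHalfPlane.num, UpperHalfPlane.denom, h]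

theorem slash_ent {g : GL (Fin 2) ℝ} {a b c d : ℝ} (hg : Ent g a b c d)
    (hpos : 0 < a * d - b * c) (f : ℍ → ℂ) (z : ℍ) :
    (f ∣[(2 : ℤ)] g) z = (a * d - b * c) * f (g • z) * ((c * (z : ℂ) + d) ^ 2)⁻¹ := by
  rw [ModularForm.slash_apply, UpperHalfPlane.σ]
  have hdet : (g.det.val : ℝ) = a * d - b * c := hg.det
  rw [hdet, if_pos hpos]
  have h : (g : Matrix (Fin 2) (Fin 2) ℝ) = !![a, b; c, d] := hg
  simp only [ContinuousAlgEquiv.refl_apply, abs_of_pos hpos]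
  have h2 : denom g z = c * z + d := by simp [UpperHalfPlane.denom, h]
  rw [h2]
  rw [_root_.zpow_neg, show (2 : ℤ) - 1 = 1 by norm_num, zpow_one, zpow_two, sq]
  push_cast
  ring

theorem Sc_smul (a : ℝ) (h : a ≠ 0) (z : ℍ) : Sc a h • z = z := by
  apply UpperHalfPlane.ext
  rw [coe_smul_ent (ent_Sc a h) (by have := mul_self_pos.2 h; linarith)]
  have : (a : ℂ) ≠ 0 := by exact_mod_cast h
  push_cast
  rw [zero_mul, zero_add, add_zero, mul_div_cancel_left₀ _ this]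

theorem Sc_slash (a : ℝ) (h : a ≠ 0) (f : ℍ → ℂ) : f ∣[(2 : ℤ)] (Sc a h) = f := by
  ext z
  rw [slash_ent (ent_Sc a h) (by have := mul_self_pos.2 h; linarith), Sc_smul]
  have : (a : ℂ) ≠ 0 := by exact_mod_cast h
  push_cast
  simp only [zero_mul, zero_add, mul_zero, sub_zero]
  field_simp

end Fermat.Agent.Newform
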