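import Fermat.Agent.Newform.Forms

/-!
# Forms whose `q`-expansion is supported on the multiples of `p`
-/

set_option autoImplicit false

noncomputable section

namespace Fermat.Agent.Newform

open UpperHalfPlane Matrix Set
open scoped MatrixGroups ModularForm Manifold
open ModularFormClass (qCoeff)

variable {N M d p : ℕ} {f g : ℍ → ℂ}

theorem IsCF.slash_Tr_int (hf : IsCF N f) (n : ℤ) : f ∣[(2 : ℤ)] Tr n = f :=
  hf.inv _ (Tr_one_mem n)

theorem slash_inv_of {g : GL (Fin 2) ℝ} (h : f ∣[(2 : ℤ)] g = f) : f ∣[(2 : ℤ)] g⁻¹ = f := by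
  conv_lhs => rw [← h]
  rw [← SlashAction.slash_mul, mul_inv_cancel, SlashAction.slash_one]

theorem hD_mul_ent {d : ℕ} (hd : d ≠ 0) {g : GL (Fin 2) ℝ} {a b c e : ℝ} (hg : Ent g a b c e) :
    Ent (ModularForm.heckeDiagMatrix d * g) (d * a) (d * b) c e :=
  ((ent_hD hd).mul hg).congr (by ring) (by ring) (by ring) (by ring)

theorem mul_hD_ent {d : ℕ} (hd : d ≠ 0) {g : GL (Fin 2) ℝ} {a b c e : ℝ} (hg : Ent g a b c e) :
    Ent (g * ModularForm.heckeDiagMatrix d) (a * d) b (c * d) e :=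
  (hg.mul (ent_hD hd)).congr (by ring) (by ring) (by ring) (by ring)

/-- **Descent.** If `Bd p u` has level `M` and `u` has some level, then `u` has level
`M / gcd(M, p)`. -/
theorem IsCF.of_Bd (hp : p.Prime) {K : ℕ} (hu : IsCF K f) (hy : IsCF M (Newform.Bd p f)) {M' : ℕ}
    (hM' : M ∣ p * M') : IsCF M' f := by
  have hp0 := hp.ne_zero
  have hpR : (p : ℝ) ≠ 0 := by exact_mod_cast hp0
  obtain ⟨t, ht⟩ := hM'
  refine ⟨hu.v, ?_⟩
  -- invariance of `f` under the conjugate of `Γ₀(M)`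
  have h1 : ∀ g : GL (Fin 2) ℝ, ∀ a b c e : ℤ, Ent g a ((p : ℝ) * b) ((M' : ℝ) * c) e →
      a * e - (p * b) * (M' * c) = 1 → f ∣[(2 : ℤ)] g = f := by
    intro g a b c e hg hdet
    have hdetR : (a : ℝ) * e - b * (M * (t * c)) = 1 := by
      have h2 : ((a * e - (p * b) * (M' * c) : ℤ) : ℝ) = 1 := by rw [hdet]; simp
      have h3 : ((p * M' : ℕ) : ℝ) = M * t := by rw [ht]; push_cast; rfl
      push_cast at h2 h3
      linear_combination h2 + (b * c : ℝ) * h3
    have h4 : Newform.Bd p f ∣[(2 : ℤ)] mkGL a b (M * (t * c)) e (by rw [hdetR]; exact one_ne_zero)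
        = Newform.Bd p f := by
      refine hy.inv _ (mem_G0.2 ⟨a, b, t * c, e, (ent_mkGL _ _ _ _ _).congr rfl rfl
        (by push_cast; rfl) rfl, ?_⟩)
      have : ((a * e - M * b * (t * c) : ℤ) : ℝ) = 1 := by push_cast; linarith
      exact_mod_cast this
    rw [Bd_eq hp0, smul_slash_pos (by rw [(ent_mkGL _ _ _ _ _).det, hdetR]; exact one_pos),
      ← SlashAction.slash_mul] at h4
    have h5 : ModularForm.heckeDiagMatrix p *
        mkGL a b (M * (t * c)) e (by rw [hdetR]; exact one_ne_zero) =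
        g * ModularForm.heckeDiagMatrix p := by
      refine ((hD_mul_ent hp0 (ent_mkGL _ _ _ _ _)).congr ?_ ?_ ?_ ?_).ext (mul_hD_ent hp0 hg)
      · ring
      · ring
      · have h3 : ((p * M' : ℕ) : ℝ) = M * t := by rw [ht]; push_cast; rfl
        push_cast at h3
        linear_combination -(c : ℝ) * h3
      · ring
    rw [h5, SlashAction.slash_mul] at h4
    have hpC : (p : ℂ)⁻¹ ≠ 0 := inv_ne_zero (by exact_mod_cast hp0)
    have h6 := smul_right_injective (ℍ → ℂ) hpC h4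
    have h7 := congrArg (fun F => F ∣[(2 : ℤ)] (ModularForm.heckeDiagMatrix p)⁻¹) h6
    simpa only [← SlashAction.slash_mul, mul_inv_cancel_right, mul_inv_cancel,
      SlashAction.slash_one] using h7
  have h2 : ∀ g : GL (Fin 2) ℝ, ∀ a b c e : ℤ, Ent g a b ((M' : ℝ) * c) e →
      a * e - b * (M' * c) = 1 → ¬ (p : ℤ) ∣ a → f ∣[(2 : ℤ)] g = f := by
    intro g a b c e hg hdet ha
    obtain ⟨j, k, hjk⟩ : ∃ j k : ℤ, b + j * a = p * k := by
      have hco : IsCoprime (p : ℤ) a :=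
        (Prime.coprime_iff_not_dvd (Nat.prime_iff_prime_int.1 hp)).2 ha
      obtain ⟨u, v, huv⟩ := hco
      exact ⟨-(b * v), b * u, by linear_combination (-b) * huv⟩
    have h3 := h1 (g * Tr j) a k c (e + j * (M' * c)) ?_ ?_
    · rw [SlashAction.slash_mul] at h3
      have h4 := congrArg (fun F => F ∣[(2 : ℤ)] (Tr j)⁻¹) h3
      simp only [← SlashAction.slash_mul, mul_inv_cancel_right] at h4
      rw [h4, slash_inv_of (hu.slash_Tr_int j)]
    · have hjk' : (b : ℝ) + j * a = p * k := by exact_mod_cast hjk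
      refine (hg.mul (ent_Tr j)).congr ?_ ?_ ?_ ?_
      · ring
      · linear_combination hjk'
      · ring
      · push_cast; ring
    · linear_combination hdet + (M' * c) * hjk
  intro γ hγ
  obtain ⟨a, b, c, e, hγ, hdet⟩ := mem_G0.1 hγ
  by_cases ha : (p : ℤ) ∣ a
  · have hc : ¬ (p : ℤ) ∣ M' * c := by
      intro hc
      have h3 : (p : ℤ) ∣ 1 := by
        rw [← hdet]
        exact dvd_sub (ha.mul_right _) (by
          rw [show (M' : ℤ) * b * c = M' * c * b by ring]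
          exact hc.mul_right _)
      exact (Nat.prime_iff_prime_int.1 hp).not_dvd_one h3
    have h3 := h2 (Tr (1 : ℤ) * γ) (a + M' * c) (b + e) c e ?_ ?_ ?_
    · rwa [SlashAction.slash_mul, hu.slash_Tr_int] at h3
    · refine ((ent_Tr _).mul hγ).congr ?_ ?_ ?_ ?_ <;> push_cast <;> ring
    · linear_combination hdet
    · intro h4
      exact hc ((dvd_add_right ha).1 h4)
  · exact h2 γ a b c e hγ (by linear_combination hdet) ha

/-- **Lemma K.** -/
theorem IsCF.exists_Bd [NeZero M] (hp : p.Prime) (hf : IsCF M f)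
    (h : ∀ n, ¬ p ∣ n → qCoeff f n = 0) {M' : ℕ}
    (hM' : M ∣ p * M') :
    ∃ g, IsCF M' g ∧ f = Newform.Bd p g := by
  have : NeZero (M * p) := ⟨mul_ne_zero (NeZero.ne M) hp.ne_zero⟩
  have : NeZero (M * p ^ 2) := ⟨mul_ne_zero (NeZero.ne M) (pow_ne_zero 2 hp.ne_zero)⟩
  have h1 : f = Newform.ep p f := by
    refine (hf.mono (N := M * p ^ 2) (dvd_mul_right _ _)).ext (hf.ep hp.ne_zero) fun n => ?_
    rw [hf.qCoeff_ep hp.ne_zero]
    split_ifs with h2
    · rfl
    · exact h n h2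
  refine ⟨ModularForm.heckeU 2 p f, ?_, h1⟩
  refine IsCF.of_Bd hp (K := M * p) ((hf.mono (dvd_mul_right _ _)).heckeU hp.ne_zero
    (dvd_mul_left _ _)) ?_ hM'
  have h2 : Newform.Bd p (ModularForm.heckeU 2 p f) = f := h1.symm
  rwa [h2]

theorem IsCF.qCoeff_of_Tr [NeZero M] (hp : p ≠ 0) (hf : IsCF M f)
    (h : f ∣[(2 : ℤ)] Tr (1 / p) = f) (n : ℕ) (hn : ¬ p ∣ n) : qCoeff f n = 0 := by
  have h1 : ∀ j : ℕ, f ∣[(2 : ℤ)] Tr ((j : ℝ) / p) = f := by
    intro j
    induction j with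
    | zero => simp [Tr_zero]
    | succ j ih =>
      have : Tr (((j + 1 : ℕ) : ℝ) / p) = Tr ((j : ℝ) / p) * Tr (1 / p) := by
        rw [Tr_mul]; congr 1; push_cast; ring
      rw [this, SlashAction.slash_mul, ih, h]
  have h2 : Newform.ep p f = f := by
    rw [ep_eq_sum hp]
    simp only [h1, Finset.sum_const, Finset.card_range]
    have : (p : ℂ) ≠ 0 := by exact_mod_cast hp
    rw [← Nat.cast_smul_eq_nsmul ℂ, smul_smul, inv_mul_cancel₀ this, one_smul]
  rw [← h2, hf.qCoeff_ep hp, if_neg hn]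

theorem Bd_descent [NeZero M] (hp : p.Prime) (hpM : ¬ p ∣ M) (hf : IsCF M f)
    (hf' : IsCF M (Newform.Bd p f)) : ∃ g, IsCF M g ∧ f = Newform.Bd p g := by
  have hp0 := hp.ne_zero
  have hpR : (p : ℝ) ≠ 0 := by exact_mod_cast hp0
  refine hf.exists_Bd hp (hf.qCoeff_of_Tr hp0 ?_) (dvd_mul_left _ _)
  obtain ⟨a, b, hab⟩ : ∃ a b : ℤ, a * p - b * M = 1 := by
    have hco : IsCoprime (p : ℤ) M := by
      rw [Prime.coprime_iff_not_dvd (Nat.prime_iff_prime_int.1 hp), Int.natCast_dvd_natCast]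
      exact hpM
    obtain ⟨u, v, huv⟩ := hco
    exact ⟨u, -v, by linear_combination huv⟩
  have habR : (a : ℝ) * p - b * M = 1 := by exact_mod_cast hab
  set s := mkGL a b M p (by rw [habR]; exact one_ne_zero) with hs
  have hsE : Ent s a b M p := ent_mkGL _ _ _ _ _
  have hsmem : s ∈ G0 M := mem_G0.2 ⟨a, b, 1, p, hsE.congr rfl rfl (by simp) (by simp), by
    linear_combination hab⟩
  set g := mkGL (1 + M) 1 (-(M : ℝ) ^ 2) (1 - M) (by ring_nf; exact one_ne_zero) with hg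
  have hgE : Ent g (1 + M) 1 (-(M : ℝ) ^ 2) (1 - M) := ent_mkGL _ _ _ _ _
  have hgmem : g ∈ G0 M := mem_G0.2 ⟨1 + M, 1, -M, 1 - M, hgE.congr (by simp) (by simp)
    (by push_cast; ring) (by simp), by ring⟩
  have hkey : Tr (1 / p) * s * ModularForm.heckeDiagMatrix p =
      s * ModularForm.heckeDiagMatrix p * g := by
    refine ((mul_hD_ent hp0 ((ent_Tr _).mul hsE)).congr ?_ ?_ ?_ ?_).ext
      ((mul_hD_ent hp0 hsE).mul hgE)
    · field_simp
      linear_combination -(M : ℝ) * habR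
    · field_simp
      linear_combination -habR
    · ring
    · ring
  have h1 : (Newform.Bd p f) ∣[(2 : ℤ)] g = Newform.Bd p f := hf'.inv _ hgmem
  rw [Bd_eq hp0, smul_slash_pos (det_pos_of_mem_G0 hgmem)] at h1
  have hpC : (p : ℂ)⁻¹ ≠ 0 := inv_ne_zero (by exact_mod_cast hp0)
  have h2 := smul_right_injective (ℍ → ℂ) hpC h1
  have h3 : Tr (1 / p) = s * ModularForm.heckeDiagMatrix p * g *
      (ModularForm.heckeDiagMatrix p)⁻¹ * s⁻¹ := by
    rw [← hkey]; group
  rw [h3, SlashAction.slash_mul, SlashAction.slash_mul, SlashAction.slash_mul,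
    SlashAction.slash_mul, hf.inv _ hsmem]
  have h4 : (f ∣[(2 : ℤ)] ModularForm.heckeDiagMatrix p) ∣[(2 : ℤ)]
      (ModularForm.heckeDiagMatrix p)⁻¹ = f := by
    rw [← SlashAction.slash_mul, mul_inv_cancel, SlashAction.slash_one]
  rw [h2, h4]
  exact slash_inv_of (hf.inv _ hsmem)

theorem Bd_vanish [NeZero M] (hp : p.Prime) (hpM : ¬ p ∣ M) (n : ℕ) :
    ∀ f : ℍ → ℂ, IsCF M f → IsCF M (Newform.Bd p f) → qCoeff f n = 0 := by
  induction n using Nat.strong_induction_on with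
  | _ n ih =>
    intro f hf hf'
    obtain ⟨g, hg, rfl⟩ := Bd_descent hp hpM hf hf'
    rcases Nat.eq_zero_or_pos n with rfl | hn
    · exact hf.qCoeff_zero
    rw [hg.qCoeff_Bd hp.ne_zero]
    split_ifs with h
    · exact ih _ (Nat.div_lt_self hn hp.one_lt) g hg hf
    · rfl

/-- **Lemma K, `p ∤ M`.** -/
theorem IsCF.eq_zero_of_support [NeZero M] (hp : p.Prime) (hpM : ¬ p ∣ M) (hf : IsCF M f)
    (h : ∀ n, ¬ p ∣ n → qCoeff f n = 0) : f = 0 := by
  obtain ⟨g, hg, rfl⟩ := hf.exists_Bd hp h (M' := M) (dvd_mul_left _ _)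
  have h1 : g = 0 := hg.ext IsCF.zero fun n => by
    rw [Bd_vanish hp hpM n g hg hf, qCoeff_zero_fun]
  rw [h1]
  rfl

end Fermat.Agent.Newform
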