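import Fermat.Agent.Newform.New

/-!
# Existence of newforms and multiplicity one at a fixed level
-/

set_option autoImplicit false

noncomputable section

namespace Fermat.Agent.Newform

open UpperHalfPlane Matrix Set
open scoped MatrixGroups ModularForm Manifold
open ModularFormClass (qCoeff)
open DSLift (heckeOp)
open CuspForm (GoodEigensystemOccursAt)

variable {M N D : ℕ}

theorem GP.mul_left {D D' : ℕ} (ℓ : GP (D * D')) : ¬ ℓ.1 ∣ D := fun h =>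
  ℓ.2.2 (h.mul_right _)

/-- Two normalised eigenforms with the same eigenvalues outside `D` have the same coefficients
prime to the level. -/
theorem qCoeff_eq_of_chi_eq {N₁ N₂ : ℕ} [NeZero N₁] [NeZero N₂] [NeZero N] (h1 : N₁ ∣ N)
    (h2 : N₂ ∣ N) {f : S2 N₁} {g : S2 N₂} (hf : f.IsNormalizedEigenform)
    (hg : g.IsNormalizedEigenform) {D : ℕ} (hD : D ≠ 0)
    (h : ∀ ℓ : ℕ, ℓ.Prime → ¬ ℓ ∣ D → qCoeff f ℓ = qCoeff g ℓ) (n : ℕ) (hn : n.Coprime N) :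
    qCoeff f n = qCoeff g n := by
  have hDN : D * N ≠ 0 := mul_ne_zero hD (NeZero.ne N)
  have hD' : NeZero (D * N) := ⟨hDN⟩
  -- work at level `N`
  set F : S2 N := bL N₁ N 1 one_ne_zero (by rwa [mul_one]) f with hF
  set G : S2 N := bL N₂ N 1 one_ne_zero (by rwa [mul_one]) g with hG
  have hFc : ∀ n, qCoeff F n = qCoeff f n := fun n => by
    rw [hF, qCoeff_bL, if_pos (one_dvd _), Nat.div_one]
  have hGc : ∀ n, qCoeff G n = qCoeff g n := fun n => by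
    rw [hG, qCoeff_bL, if_pos (one_dvd _), Nat.div_one]
  have hFE : F ∈ Eig N (D * N) (chi f (D * N)) := by
    rw [mem_Eig]
    intro ℓ
    have hℓN : ¬ ℓ.1 ∣ N := fun h => ℓ.2.2 (h.mul_left _)
    rw [hF, ← bL_heckeOp one_ne_zero _ ℓ.2.1 (fun h => ℓ.2.1.one_lt.ne' (Nat.dvd_one.1 h))
      (fun h => absurd h hℓN), DSLift.heckeOp_apply_of_isNormalizedEigenform N₁ hf, map_smul]
    rfl
  have hGE : G ∈ Eig N (D * N) (chi f (D * N)) := by
    rw [mem_Eig]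
    intro ℓ
    have hℓN : ¬ ℓ.1 ∣ N := fun h => ℓ.2.2 (h.mul_left _)
    have hℓD : ¬ ℓ.1 ∣ D := fun h => ℓ.2.2 (h.mul_right _)
    rw [hG, ← bL_heckeOp one_ne_zero _ ℓ.2.1 (fun h => ℓ.2.1.one_lt.ne' (Nat.dvd_one.1 h))
      (fun h => absurd h hℓN), DSLift.heckeOp_apply_of_isNormalizedEigenform N₂ hg, map_smul,
      ← h ℓ.1 ℓ.2.1 hℓD]
    rfl
  have h3 : qCoeff (⇑(F - G)) n = 0 := by
    refine qCoeff_eq_zero_of_coprime hDN (isCF (F - G)) (fun m hm => ?_) n hn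
    refine qCoeff_eq_zero_of_mem_Eig (Submodule.sub_mem _ hFE hGE) ?_ m hm
    rw [qCoeff_sub', hFc, hGc, hf.qCoeff_one, hg.qCoeff_one, sub_self]
  rw [qCoeff_sub', hFc, hGc, sub_eq_zero] at h3
  exact h3

/-- **Existence of newforms.** -/
theorem exists_newform [NeZero N] {f : S2 N} (hf : f.IsNormalizedEigenform) :
    ∃ M, M ∣ N ∧ ∃ g : S2 M, g.IsNewform ∧ ∀ ℓ : ℕ, ℓ.Prime → ¬ ℓ ∣ N →
      qCoeff g ℓ = qCoeff f ℓ := by
  classical
  let Q : ℕ → Prop := fun M => M ∣ N ∧ GoodEigensystemOccursAt f M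
  have hQ : ∃ M, Q M := ⟨N, dvd_rfl, GoodEigensystemOccursAt.refl hf⟩
  obtain ⟨h1, g, hg, hgf⟩ := Nat.find_spec hQ
  refine ⟨_, h1, g, ⟨hg, fun M' hM' hne => ?_⟩, hgf⟩
  rintro ⟨h, hh, hhg⟩
  have h2 : Q M' := ⟨hM'.trans h1, h, hh, fun ℓ hℓ hℓN => by
    rw [hhg ℓ hℓ fun h => hℓN (h.trans h1), hgf ℓ hℓ hℓN]⟩
  have h3 := Nat.find_min' hQ h2
  have h4 : Nat.find hQ ≠ 0 := fun h => NeZero.ne N (Nat.eq_zero_of_zero_dvd (h ▸ h1))
  exact hne (le_antisymm (Nat.le_of_dvd (Nat.pos_of_ne_zero h4) hM') h3)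

theorem exists_newform_of_Eig [NeZero N] {D : ℕ} (hND : N ∣ D) {χ : GP D → ℂ}
    (h : Eig N D χ ≠ ⊥) :
    ∃ M, M ∣ N ∧ ∃ g : S2 M, g.IsNewform ∧ ∀ ℓ : GP D, qCoeff g ℓ.1 = χ ℓ := by
  obtain ⟨f, hf, -, hfχ⟩ := exists_eigenform_of_Eig h
  obtain ⟨M, hM, g, hg, hgf⟩ := exists_newform hf
  exact ⟨M, hM, g, hg, fun ℓ => by
    rw [hgf ℓ.1 ℓ.2.1 (fun h => ℓ.2.2 (h.trans hND)), hfχ]⟩

/-- the eigensystem of a newform does not occur at proper divisors of the level, even with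
finitely many primes removed. -/
theorem Eig_eq_bot_of_isNewform [NeZero N] {f : S2 N} (hf : f.IsNewform) {M : ℕ} [NeZero M]
    (hMN : M ∣ N) (hne : M ≠ N) {D : ℕ} (hD : D ≠ 0) : Eig M D (chi f D) = ⊥ := by
  by_contra h
  obtain ⟨g, hg, -, hgf⟩ := exists_eigenform_of_Eig h
  refine hf.2 M hMN hne ⟨g, hg, fun ℓ hℓ hℓN => ?_⟩
  refine qCoeff_eq_of_chi_eq hMN dvd_rfl hg hf.1 hD (fun ℓ' hℓ' hℓ'D => ?_) ℓ ?_
  · exact hgf ⟨ℓ', hℓ', hℓ'D⟩
  · exact (Nat.Prime.coprime_iff_not_dvd hℓ).2 hℓN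

/-- **Multiplicity one.** -/
theorem eq_smul_of_mem_Eig [NeZero N] {f : S2 N} (hf : f.IsNewform) {D : ℕ} (hD : D ≠ 0)
    {h : S2 N} (hh : h ∈ Eig N D (chi f D)) : h = qCoeff h 1 • f := by
  -- enlarge `D`
  have hDN : D * N ≠ 0 := mul_ne_zero hD (NeZero.ne N)
  have hh' : h ∈ Eig N (D * N) (chi f (D * N)) := by
    rw [mem_Eig] at hh ⊢
    intro ℓ
    exact hh ⟨ℓ.1, ℓ.2.1, fun h => ℓ.2.2 (h.mul_right _)⟩
  have hf' := mem_Eig_chi hf.1 (D * N)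
  rw [← sub_eq_zero]
  set w := h - qCoeff h 1 • f with hw
  have hwE : w ∈ Eig N (D * N) (chi f (D * N)) :=
    Submodule.sub_mem _ hh' (Submodule.smul_mem _ _ hf')
  have hw1 : qCoeff w 1 = 0 := by
    rw [hw, qCoeff_sub', qCoeff_smul', hf.1.qCoeff_one, mul_one, sub_self]
  have hw2 := mem_iSup_range_of_coprime hDN (h := w)
    fun n hn => qCoeff_eq_zero_of_mem_Eig hwE hw1 n hn
  have : ∀ p : N.primeFactors, NeZero (N / p) :=
    fun p => neZero_div (Nat.dvd_of_mem_primeFactors p.2)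
  have hw3 := exists_eig_preimage (M := N) (D := D * N) (dvd_mul_left _ _)
    (N := fun p : N.primeFactors => N / p)
    (fun p => (Nat.div_dvd_of_dvd (Nat.dvd_of_mem_primeFactors p.2)).mul_left _)
    (fun p => bL (N / p) N p (Nat.prime_of_mem_primeFactors p.2).ne_zero
        (by rw [Nat.div_mul_cancel (Nat.dvd_of_mem_primeFactors p.2)]))
    (fun p ℓ v => bL_heckeOp _ _ ℓ.2.1
      (fun h => ℓ.2.2 ((h.trans (Nat.dvd_of_mem_primeFactors p.2)).mul_left _))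
      (fun h => absurd (h.mul_left _) ℓ.2.2) v) (chi f (D * N)) hwE hw2
  have h4 : ∀ p : N.primeFactors, Eig (N / p) (D * N) (chi f (D * N)) = ⊥ := by
    intro p
    have hp := Nat.prime_of_mem_primeFactors p.2
    refine Eig_eq_bot_of_isNewform hf (Nat.div_dvd_of_dvd (Nat.dvd_of_mem_primeFactors p.2))
      ?_ hDN
    exact (Nat.div_lt_self (NeZero.pos N) hp.one_lt).ne
  simp only [h4, Submodule.map_bot, iSup_bot, Submodule.mem_bot] at hw3
  exact hw3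

/-- **Newforms with the same level and the same eigenvalues almost everywhere agree.** -/
theorem newform_eq_of_level_eq [NeZero N] {f g : S2 N} (hf : f.IsNewform)
    (hg : g.IsNormalizedEigenform) {D : ℕ} (hD : D ≠ 0)
    (h : ∀ ℓ : ℕ, ℓ.Prime → ¬ ℓ ∣ D → qCoeff f ℓ = qCoeff g ℓ) : g = f := by
  have h1 : g ∈ Eig N D (chi f D) := by
    rw [mem_Eig]
    intro ℓ
    rw [DSLift.heckeOp_apply_of_isNormalizedEigenform N hg, ← h ℓ.1 ℓ.2.1 ℓ.2.2]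
    rfl
  rw [eq_smul_of_mem_Eig hf hD h1, hg.qCoeff_one, one_smul]

end Fermat.Agent.Newform
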