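import Fermat.Agent.Newform.Unfold
import Fermat.Agent.Newform.GL
import Fermat.Prelude.Def_CuspForm_HeckeAlgebra

/-!
# The Petersson inner product on `S₂(Γ₀(N))`
-/

set_option autoImplicit false

noncomputable section

namespace Fermat.Agent.Newform

open UpperHalfPlane MeasureTheory Matrix Set
open scoped MatrixGroups ModularForm ENNReal ComplexConjugate

instance isOpenPosMeasure_H : (volume : Measure ℍ).IsOpenPosMeasure := by
  refine ⟨fun U hU hne h0 => ?_⟩
  rw [volume_def, withDensity_apply_eq_zero (by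
    refine Measurable.coe_nnreal_ennreal ?_
    refine Measurable.pow_const ?_ 2
    refine Measurable.div measurable_const ?_
    exact (continuous_im.subtype_mk _).measurable)] at h0
  have h1 : {x : ℍ | (((1 / NNReal.mk x.im x.im_pos.le : NNReal) ^ 2 : NNReal) : ℝ≥0∞) ≠ 0} ∩ U
      = U := by
    refine inter_eq_right.2 fun z _ => ?_
    simp only [mem_ofPred_eq, ne_eq, ENNReal.coe_eq_zero]
    refine pow_ne_zero 2 (div_ne_zero one_ne_zero ?_)
    exact NNReal.ne_iff.mp z.im_ne_zero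
  rw [h1, measurableEmbedding_coe.comap_apply] at h0
  have h2 : IsOpen (UpperHalfPlane.coe '' U) := isOpenEmbedding_coe.isOpenMap U hU
  rw [h2.measure_eq_zero_iff (volume : Measure ℂ)] at h0
  exact (hne.image _).ne_empty h0

variable {𝒢 : Subgroup (GL (Fin 2) ℝ)} {ψ : ℍ → ℝ≥0∞}

theorem IsWt.integrable (hψ : IsWt 𝒢 ψ) {h : ℍ → ℂ} (hh : Continuous h) {C : ℝ}
    (hC : ∀ z, ‖h z‖ ≤ C) : Integrable (fun z => ((ψ z).toReal : ℂ) * h z) := by
  have h1 : Integrable (fun z => ((ψ z).toReal : ℂ)) :=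
    (integrable_toReal_of_lintegral_ne_top hψ.meas.aemeasurable hψ.fin).ofReal
  exact h1.mul_bdd hh.aestronglyMeasurable (Filter.Eventually.of_forall hC)

theorem Nice.integrable {f g : ℍ → ℂ} (hf : Nice 𝒢 f) (hg : Nice 𝒢 g) (hψ : IsWt 𝒢 ψ) :
    Integrable (fun z => ((ψ z).toReal : ℂ) * petersson 2 f g z) := by
  obtain ⟨C, hC⟩ := hf.bdd
  obtain ⟨D, hD⟩ := hg.bdd
  exact hψ.integrable (petersson_continuous 2 hf.cont hg.cont)
    fun z => petersson_le (hC z) (hD z)

theorem ip_add_left {f f' g : ℍ → ℂ} (hf : Nice 𝒢 f) (hf' : Nice 𝒢 f') (hg : Nice 𝒢 g)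
    (hψ : IsWt 𝒢 ψ) : ip ψ (f + f') g = ip ψ f g + ip ψ f' g := by
  rw [ip, ip, ip, ← integral_add (hf.integrable hg hψ) (hf'.integrable hg hψ)]
  congr 1
  ext z
  simp only [petersson, Pi.add_apply, map_add]
  ring

theorem ip_smul_left (c : ℂ) (f g : ℍ → ℂ) : ip ψ (c • f) g = conj c * ip ψ f g := by
  rw [ip, ip, ← integral_const_mul]
  congr 1
  ext z
  simp only [petersson, Pi.smul_apply, smul_eq_mul, map_mul]
  ring

theorem ip_symm (f g : ℍ → ℂ) : conj (ip ψ g f) = ip ψ f g := by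
  rw [ip, ip, ← integral_conj]
  congr 1
  ext z
  rw [map_mul, Complex.conj_ofReal, ← petersson_symm]

theorem petersson_self (f : ℍ → ℂ) (z : ℍ) :
    petersson 2 f f z = ((‖f z‖ ^ 2 * z.im ^ 2 : ℝ) : ℂ) := by
  rw [petersson, mul_comm (conj (f z)), Complex.mul_conj, Complex.normSq_eq_norm_sq]
  push_cast
  rfl

theorem ip_self (f : ℍ → ℂ) :
    ip ψ f f = ((∫ z, (ψ z).toReal * (‖f z‖ ^ 2 * z.im ^ 2) : ℝ) : ℂ) := by
  rw [ip, ← integral_complex_ofReal]
  congr 1
  ext z
  rw [petersson_self]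
  push_cast
  rfl

theorem ip_self_nonneg (f : ℍ → ℂ) : 0 ≤ (ip ψ f f).re := by
  rw [ip_self, Complex.ofReal_re]
  exact integral_nonneg fun z => by positivity

theorem eq_zero_of_ip_self [Countable 𝒢] {f : ℍ → ℂ} (hf : Nice 𝒢 f) (hψ : IsWt 𝒢 ψ)
    (h : ip ψ f f = 0) : f = 0 := by
  rw [ip_self, Complex.ofReal_eq_zero, integral_eq_zero_iff_of_nonneg
    (fun z => by positivity)] at h
  swap
  · have := (hf.integrable hf hψ).re
    refine this.congr (Filter.Eventually.of_forall fun z => ?_)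
    simp only [petersson_self]
    rw [← Complex.ofReal_mul]
    exact Complex.ofReal_re _
  have h1 : ∀ᵐ z : ℍ, ∀ γ : 𝒢, (ψ ((γ : GL (Fin 2) ℝ) • z)).toReal *
      (‖f ((γ : GL (Fin 2) ℝ) • z)‖ ^ 2 * ((γ : GL (Fin 2) ℝ) • z).im ^ 2) = 0 := by
    rw [ae_all_iff]
    intro γ
    exact (measurePreserving_smul (γ : GL (Fin 2) ℝ) (volume : Measure ℍ)).quasiMeasurePreserving.ae h
  have h2 : f =ᵐ[volume] (0 : ℍ → ℂ) := by
    filter_upwards [h1] with z hz
    obtain ⟨γ, hγ⟩ : ∃ γ : 𝒢, ψ ((γ : GL (Fin 2) ℝ) • z) ≠ 0 := by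
      by_contra hcon
      push Not at hcon
      have := hψ.sum z
      simp only [hcon, tsum_zero] at this
      exact zero_ne_one this
    have h3 := hz γ
    rw [mul_eq_zero, ENNReal.toReal_eq_zero_iff] at h3
    rcases h3 with h3 | h3
    · exact absurd h3 (by simp [hγ, hψ.ne_top])
    · rw [mul_eq_zero] at h3
      rcases h3 with h3 | h3
      · have h4 : f ((γ : GL (Fin 2) ℝ) • z) = 0 := by simpa using h3
        have h5 := congrFun (hf.slash _ γ.2) z
        rw [ModularForm.slash_apply, h4] at h5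
        simpa using h5.symm
      · have := ((γ : GL (Fin 2) ℝ) • z).im_pos
        have h5 : 0 < ((γ : GL (Fin 2) ℝ) • z).im ^ 2 := by positivity
        exact absurd h3 h5.ne'
  exact (hf.cont.ae_eq_iff_eq _ continuous_zero).1 h2

theorem nice_cuspForm {N : ℕ} [NeZero N] (f : CuspForm (CongruenceSubgroup.Gamma0 N) 2) :
    Nice (G0 N) f where
  cont := (CuspFormClass.holo f).continuous
  slash γ hγ := SlashInvariantFormClass.slash_action_eq f γ hγ
  bdd := CuspFormClass.petersson_bounded_left 2 (G0 N) f f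

/-- a weight function for `Γ₀(N)` -/
def psi (N : ℕ) [NeZero N] : ℍ → ℝ≥0∞ :=
  Classical.choose (exists_isWt (CongruenceSubgroup.Gamma0 N))

theorem isWt_psi (N : ℕ) [NeZero N] : IsWt (G0 N) (psi N) :=
  Classical.choose_spec (exists_isWt (CongruenceSubgroup.Gamma0 N))

/-- The Petersson inner product. -/
@[instance_reducible] def core (N : ℕ) [NeZero N] :
    InnerProductSpace.Core ℂ (CuspForm (CongruenceSubgroup.Gamma0 N) 2) where
  inner f g := ip (psi N) f g
  conj_inner_symm _ _ := ip_symm _ _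
  re_inner_nonneg _ := ip_self_nonneg _
  add_left f g h := ip_add_left (nice_cuspForm f) (nice_cuspForm g) (nice_cuspForm h) (isWt_psi N)
  smul_left _ _ c := ip_smul_left c _ _
  definite f h := DFunLike.coe_injective (eq_zero_of_ip_self (nice_cuspForm f) (isWt_psi N) h)

end Fermat.Agent.Newform
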