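import Fermat.Agent.Newform.Basis
import Fermat.Agent.Newform.BadPrime

/-!
# Eigenforms with vanishing traces
-/

set_option autoImplicit false

noncomputable section

namespace Fermat.Agent.Newform

open UpperHalfPlane Matrix Set
open scoped MatrixGroups ModularForm Manifold
open ModularFormClass (qCoeff)
open DSLift (heckeOp)

variable {N M q D : ℕ}

/-- forms with vanishing trace are orthogonal to forms of lower level. -/
theorem ip_of_sumL [NeZero N] [NeZero (N * q)] (hq : q.Prime) (hqN : q ∣ N) {F G : ℍ → ℂ}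
    (hF : IsCF (N * q) F) (hG : IsCF N G)
    (hL : ∑ j : Fin q, F ∣[(2 : ℤ)] Lo (((j : ℕ) : ℝ) * (N * ((1 : ℤ) : ℝ))) = 0) :
    ip (psi (N * q)) F G = 0 := by
  have h1 := ip_sum_slash (hsysL1 hq (NeZero.ne N) hqN (w' := 1)
    (Nat.prime_iff_prime_int.1 hq).not_dvd_one) hF (hG.mono (dvd_mul_right N q)) hG.inv
  rw [hL] at h1
  have h2 : ip (psi (N * q)) (0 : ℍ → ℂ) G = 0 := by
    have := ip_smul_left (ψ := psi (N * q)) 0 F G
    rwa [zero_smul, map_zero, zero_mul] at this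
  rw [h2, Fintype.card_fin] at h1
  exact (mul_eq_zero.1 h1.symm).resolve_left (Nat.cast_ne_zero.2 hq.ne_zero)

/-- forms killed by `U_q` are orthogonal to `G(qz)`, `G` of lower level. -/
theorem ip_of_heckeU [NeZero N] [NeZero (N * q)] (hq : q.Prime) (hqN : q ∣ N) {F G : ℍ → ℂ}
    (hF : IsCF (N * q) F) (hG : IsCF N G) (hU : ModularForm.heckeU 2 q F = 0) :
    ip (psi (N * q)) F (Bd q G) = 0 := by
  have h1 := ip_sum_slash (hsysK1 (M := N) hq hqN) hF (hG.Bd hq.ne_zero)
    (fun γ hγ => KK_inv_of_isCF hq.ne_zero hG hγ)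
  have h3 : ∑ j : Fin q, F ∣[(2 : ℤ)] Tr (((j : ℕ) : ℝ) / q) = 0 := by
    have h4 := ep_eq_sum hq.ne_zero F
    have h5 : ep q F = 0 := by
      rw [ep, hU]; rfl
    rw [h5] at h4
    have h6 : (q : ℂ)⁻¹ ≠ 0 := inv_ne_zero (Nat.cast_ne_zero.2 hq.ne_zero)
    have h7 := (smul_eq_zero.1 h4.symm).resolve_left h6
    rw [Finset.sum_range] at h7
    exact h7
  rw [h3] at h1
  have h2 : ip (psi (N * q)) (0 : ℍ → ℂ) (Bd q G) = 0 := by
    have := ip_smul_left (ψ := psi (N * q)) 0 F (Bd q G)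
    rwa [zero_smul, map_zero, zero_mul] at this
  rw [h2, Fintype.card_fin] at h1
  exact (mul_eq_zero.1 h1.symm).resolve_left (Nat.cast_ne_zero.2 hq.ne_zero)

/-- **Eigenforms with vanishing traces come from newforms of level divisible by `q ^ 2`.** -/
theorem sq_dvd_level [NeZero N] [NeZero (N * q)] (hq : q.Prime) {N1 : ℕ} (hN : N = q * N1)
    {F : S2 (N * q)} (hF0 : F ≠ 0) [NeZero M] (hM : M ∣ N * q) {g : S2 M}
    (hg : g.IsNewform) (hD : D ≠ 0) (hND : N * q ∣ D) (hF : F ∈ Eig (N * q) D (chi g D))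
    (hL : ∑ j : Fin q, ⇑F ∣[(2 : ℤ)] Lo (((j : ℕ) : ℝ) * (N * ((1 : ℤ) : ℝ))) = 0)
    (hU : heckeOp (N * q) 2 hq F = 0) : q ^ 2 ∣ M := by
  have hqN : q ∣ N := ⟨N1, hN⟩
  by_contra hcon
  have hU' : ModularForm.heckeU 2 q ⇑F = 0 := by
    rw [DSLift.heckeOp_of_dvd hq (dvd_mul_left q N)] at hU
    exact congrArg (fun G : S2 (N * q) => (⇑G : ℍ → ℂ)) hU
  -- orthogonality
  have hort : ∀ G ∈ bset (N * q) g, ipR F G = 0 := by
    rintro _ ⟨d, hd, h, rfl⟩
    rw [ipR_apply, coe_bL]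
    by_cases h1 : M * d ∣ N
    · exact ip_of_sumL hq hqN (isCF F) (((isCF g).Bd hd).mono h1) hL
    · -- `q ∣ d`
      have hqd : q ∣ d := by
        by_contra hqd
        apply h1
        -- the `q`-part of `M * d` is at most `q`
        have hM' : ∃ e M1, e ≤ 1 ∧ M = q ^ e * M1 ∧ ¬ q ∣ M1 := by
          obtain ⟨e, M1, h2, h3⟩ := Nat.exists_eq_pow_mul_and_not_dvd (NeZero.ne M) q hq.ne_one
          refine ⟨e, M1, ?_, h3, h2⟩
          by_contra he
          push Not at he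
          exact hcon ((pow_dvd_pow q he).trans ⟨M1, h3⟩)
        obtain ⟨e, M1, he, rfl, hM1⟩ := hM'
        have hcop : Nat.Coprime (M1 * d) (q ^ 2) := by
          refine Nat.Coprime.pow_right 2 (Nat.Coprime.symm ?_)
          rw [Nat.Prime.coprime_iff_not_dvd hq, hq.dvd_mul, not_or]
          exact ⟨hM1, hqd⟩
        have h4 : M1 * d ∣ N1 := by
          have h5 : M1 * d ∣ q ^ 2 * N1 := by
            refine dvd_trans ⟨q ^ e, by ring⟩ (h.trans ?_)
            rw [hN]; exact ⟨1, by ring⟩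
          exact hcop.dvd_of_dvd_mul_left h5
        rw [hN, mul_assoc]
        exact mul_dvd_mul ((pow_dvd_pow q he).trans (by rw [pow_one])) h4
      obtain ⟨d1, rfl⟩ := hqd
      have hd1 : d1 ≠ 0 := fun h => hd (by rw [h, mul_zero])
      have h2 : M * d1 ∣ N := by
        have h3 : M * d1 * q ∣ N * q := by
          rwa [mul_assoc, mul_comm d1 q]
        exact Nat.dvd_of_mul_dvd_mul_right hq.pos h3
      have h4 : Bd (q * d1) (⇑g) = Bd q (Bd d1 (⇑g)) := by
        ext z
        rw [Bd, Bd, Bd, ← mul_smul]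
        congr 2
        exact ((ent_hD hd).congr (by push_cast; ring) (by ring) (by ring) (by ring)).ext
          ((ent_hD hd1).mul (ent_hD hq.ne_zero))
      rw [h4]
      exact ip_of_heckeU hq hqN (isCF F) (((isCF g).Bd hd1).mono h2) hU'
  have hspan : F ∈ Submodule.span ℂ (bset (N * q) g) := by
    rw [← Eig_eq_span hg hD hND]; exact hF
  have hle : Submodule.span ℂ (bset (N * q) g) ≤ LinearMap.ker (ipR F) := by
    rw [Submodule.span_le]
    exact fun G hG => hort G hG
  have h0 : ipR F F = 0 := hle hspan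
  rw [ipR_apply] at h0
  apply hF0
  have h1 := eq_zero_of_ip_self (nice_cuspForm F) (isWt_psi (N * q)) h0
  exact DFunLike.coe_injective h1

end Fermat.Agent.Newform
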