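import Fermat.Agent.Newform.Wt

/-!
# Unfolding, and self-adjointness of abstract Hecke operators in weight 2
-/

set_option autoImplicit false

noncomputable section

namespace Fermat.Agent.Newform

open UpperHalfPlane MeasureTheory Matrix Set
open scoped MatrixGroups ModularForm ENNReal

/-- Data describing an abstract (self-dual) Hecke operator `f ↦ ∑ f | rᵢ`. -/
structure HSys (𝒢 : Subgroup (GL (Fin 2) ℝ)) {ι : Type*} (r : ι → GL (Fin 2) ℝ)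
    (s : GL (Fin 2) ℝ) (Δ : Set (GL (Fin 2) ℝ)) : Prop where
  mem : ∀ γ ∈ 𝒢, ∀ i, γ * r i ∈ Δ
  surj : ∀ δ ∈ Δ, ∃ i, δ * (r i)⁻¹ ∈ 𝒢
  inj : ∀ i j, r i * (r j)⁻¹ ∈ 𝒢 → i = j
  pos : ∀ δ ∈ Δ, 0 < δ.det.val
  inv : ∀ δ ∈ Δ, s * δ⁻¹ ∈ Δ
  s_smul : ∀ z : ℍ, s • z = z
  s_slash : ∀ f : ℍ → ℂ, f ∣[(2 : ℤ)] s = f
  s_comm : ∀ g, s * g = g * s

variable {𝒢 : Subgroup (GL (Fin 2) ℝ)} {ι : Type*} {r : ι → GL (Fin 2) ℝ}
    {s : GL (Fin 2) ℝ} {Δ : Set (GL (Fin 2) ℝ)} {ψ : ℍ → ℝ≥0∞}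

/-- the bijection `𝒢 × ι ≃ Δ` -/
def HSys.equiv (h : HSys 𝒢 r s Δ) : 𝒢 × ι ≃ Δ :=
  Equiv.ofBijective (fun x => ⟨(x.1 : GL (Fin 2) ℝ) * r x.2, h.mem _ x.1.2 _⟩) <| by
    constructor
    · rintro ⟨γ, i⟩ ⟨γ', j⟩ hxy
      have h1 : (γ : GL (Fin 2) ℝ) * r i = γ' * r j := congrArg Subtype.val hxy
      have h2 : r i * (r j)⁻¹ = (γ : GL (Fin 2) ℝ)⁻¹ * γ' := by
        rw [mul_inv_eq_iff_eq_mul, mul_assoc, ← h1, inv_mul_cancel_left]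
      have h3 : i = j := h.inj i j (by rw [h2]; exact 𝒢.mul_mem (𝒢.inv_mem γ.2) γ'.2)
      subst h3
      have h4 : (γ : GL (Fin 2) ℝ) = γ' := mul_right_cancel h1
      rw [Subtype.ext h4]
    · rintro ⟨δ, hδ⟩
      obtain ⟨i, hi⟩ := h.surj δ hδ
      exact ⟨⟨⟨_, hi⟩, i⟩, Subtype.ext (inv_mul_cancel_right _ _)⟩

theorem HSys.equiv_apply (h : HSys 𝒢 r s Δ) (x : 𝒢 × ι) :
    ((h.equiv x : Δ) : GL (Fin 2) ℝ) = x.1 * r x.2 := rfl

/-- the duality on `Δ` -/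
def HSys.dual (h : HSys 𝒢 r s Δ) : Δ ≃ Δ where
  toFun δ := ⟨s * (δ : GL (Fin 2) ℝ)⁻¹, h.inv _ δ.2⟩
  invFun δ := ⟨s * (δ : GL (Fin 2) ℝ)⁻¹, h.inv _ δ.2⟩
  left_inv δ := Subtype.ext <| by
    simp only [_root_.mul_inv_rev, inv_inv]
    rw [← mul_assoc, h.s_comm, mul_assoc, mul_inv_cancel, mul_one]
  right_inv δ := Subtype.ext <| by
    simp only [_root_.mul_inv_rev, inv_inv]
    rw [← mul_assoc, h.s_comm, mul_assoc, mul_inv_cancel, mul_one]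

theorem HSys.dual_apply (h : HSys 𝒢 r s Δ) (δ : Δ) :
    ((h.dual δ : Δ) : GL (Fin 2) ℝ) = s * (δ : GL (Fin 2) ℝ)⁻¹ := rfl

theorem IsWt.le_one (hψ : IsWt 𝒢 ψ) (z : ℍ) : ψ z ≤ 1 := by
  rw [← hψ.sum z]
  calc ψ z = ψ (((1 : 𝒢) : GL (Fin 2) ℝ) • z) := by rw [Subgroup.coe_one, one_smul]
    _ ≤ _ := ENNReal.le_tsum (f := fun γ : 𝒢 => ψ ((γ : GL (Fin 2) ℝ) • z)) 1

theorem IsWt.ne_top (hψ : IsWt 𝒢 ψ) (z : ℍ) : ψ z ≠ ⊤ :=
  (lt_of_le_of_lt (hψ.le_one z) ENNReal.one_lt_top).ne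

theorem HSys.tsum_wt [Fintype ι] (h : HSys 𝒢 r s Δ) (hψ : IsWt 𝒢 ψ) (z : ℍ) :
    ∑' δ : Δ, ψ ((δ : GL (Fin 2) ℝ) • z) = Fintype.card ι := by
  rw [← h.equiv.tsum_eq]
  simp only [h.equiv_apply, mul_smul]
  rw [ENNReal.tsum_prod (f := fun (γ : 𝒢) (i : ι) => ψ ((γ : GL (Fin 2) ℝ) • r i • z)),
    ENNReal.tsum_comm]
  simp only [hψ.sum]
  rw [tsum_fintype]
  simp

theorem HSys.hasSum_apply [Fintype ι] (h : HSys 𝒢 r s Δ) (hψ : IsWt 𝒢 ψ)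
    {H : GL (Fin 2) ℝ → ℍ → ℂ} (hH : ∀ γ ∈ 𝒢, ∀ i, H (γ * r i) = H (r i)) (z : ℍ) :
    HasSum (fun δ : Δ => ((ψ ((δ : GL (Fin 2) ℝ) • z)).toReal : ℂ) * H δ z)
      (∑ i, H (r i) z) := by
  have h1 : ∀ w : ℍ, HasSum (fun γ : 𝒢 => ((ψ ((γ : GL (Fin 2) ℝ) • w)).toReal : ℂ)) 1 := by
    intro w
    have h2 := ENNReal.hasSum_toReal (f := fun γ : 𝒢 => ψ ((γ : GL (Fin 2) ℝ) • w))
      (by rw [hψ.sum]; exact ENNReal.one_ne_top)
    rw [← ENNReal.tsum_toReal_eq (fun γ => hψ.ne_top _), hψ.sum, ENNReal.toReal_one] at h2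
    have h3 := h2.map (Complex.ofRealCLM : ℝ →L[ℝ] ℂ) Complex.ofRealCLM.continuous
    simpa [Function.comp_def] using! h3
  have h3 : ∀ i : ι, HasSum (fun γ : 𝒢 => ((ψ ((γ : GL (Fin 2) ℝ) • r i • z)).toReal : ℂ) *
      H (r i) z) (H (r i) z) := by
    intro i
    simpa using (h1 (r i • z)).mul_right (H (r i) z)
  have h5 : Summable (fun δ : Δ => ((ψ ((δ : GL (Fin 2) ℝ) • z)).toReal : ℂ) * H δ z) := by
    have h6 : Summable (fun δ : Δ => (ψ ((δ : GL (Fin 2) ℝ) • z)).toReal *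
        ∑ i, ‖H (r i) z‖) := by
      refine Summable.mul_right _ (ENNReal.summable_toReal ?_)
      rw [h.tsum_wt hψ]
      exact ENNReal.natCast_ne_top _
    refine Summable.of_norm_bounded h6 fun δ => ?_
    obtain ⟨x, rfl⟩ := h.equiv.surjective δ
    rw [h.equiv_apply, norm_mul, hH _ x.1.2, Complex.norm_real, Real.norm_of_nonneg
      ENNReal.toReal_nonneg]
    exact mul_le_mul_of_nonneg_left (Finset.single_le_sum (f := fun i => ‖H (r i) z‖)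
      (fun i _ => norm_nonneg _) (Finset.mem_univ x.2)) ENNReal.toReal_nonneg
  have h7 := (((Equiv.prodComm ι 𝒢).trans h.equiv).hasSum_iff.2 h5.hasSum)
  have h8 := HasSum.prod_fiberwise h7 (g := fun i => H (r i) z) (fun i => by
    refine (h3 i).congr_fun fun γ => ?_
    simp only [Function.comp_apply, Equiv.trans_apply, Equiv.prodComm_apply, Prod.swap_prod_mk,
      h.equiv_apply, mul_smul, hH _ γ.2])
  have h9 := h8.unique (hasSum_fintype _)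
  rw [← h9]
  exact h5.hasSum

theorem HSys.integral_eq [Fintype ι] [Countable 𝒢] (h : HSys 𝒢 r s Δ) (hψ : IsWt 𝒢 ψ)
    {H : GL (Fin 2) ℝ → ℍ → ℂ} (hH : ∀ γ ∈ 𝒢, ∀ i, H (γ * r i) = H (r i))
    (hm : ∀ i, Measurable (H (r i))) {C : ℝ} (hC : ∀ i z, ‖H (r i) z‖ ≤ C) :
    ∫ z, ((ψ z).toReal : ℂ) * ∑ i, H (r i) z =
      ∑' δ : Δ, ∫ z, ((ψ z).toReal : ℂ) *
        (((ψ ((δ : GL (Fin 2) ℝ) • z)).toReal : ℂ) * H δ z) := by
  have : Countable Δ := h.equiv.symm.injective.countable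
  have hm' : ∀ δ : Δ, Measurable (H δ) := by
    intro δ
    obtain ⟨x, rfl⟩ := h.equiv.surjective δ
    rw [h.equiv_apply, hH _ x.1.2]
    exact hm _
  have hC' : ∀ (δ : Δ) z, ‖H δ z‖ ≤ C := by
    intro δ
    obtain ⟨x, rfl⟩ := h.equiv.surjective δ
    rw [h.equiv_apply, hH _ x.1.2]
    exact hC _
  have hmψ : ∀ δ : Δ, Measurable fun z : ℍ => ψ ((δ : GL (Fin 2) ℝ) • z) := fun δ =>
    hψ.meas.comp (continuous_const_smul _).measurable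
  rw [← integral_tsum]
  · congr 1
    ext z
    rw [tsum_mul_left, (h.hasSum_apply hψ hH z).tsum_eq]
  · intro δ
    refine Measurable.aestronglyMeasurable ?_
    exact (Complex.measurable_ofReal.comp hψ.meas.ennreal_toReal).mul
      ((Complex.measurable_ofReal.comp (hmψ δ).ennreal_toReal).mul (hm' δ))
  · have h1 : ∀ δ : Δ, ∫⁻ z, ‖((ψ z).toReal : ℂ) *
        (((ψ ((δ : GL (Fin 2) ℝ) • z)).toReal : ℂ) * H δ z)‖ₑ ≤
        ∫⁻ z, ENNReal.ofReal C * (ψ z * ψ ((δ : GL (Fin 2) ℝ) • z)) := by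
      intro δ
      refine lintegral_mono fun z => ?_
      rw [enorm_mul, enorm_mul]
      have h2 : ∀ w, ‖((ψ w).toReal : ℂ)‖ₑ = ψ w := by
        intro w
        rw [← ofReal_norm, Complex.norm_real, Real.norm_of_nonneg
          ENNReal.toReal_nonneg, ENNReal.ofReal_toReal (hψ.ne_top _)]
      rw [h2, h2, ← mul_assoc, mul_comm]
      refine mul_le_mul_left ?_ _
      rw [← ofReal_norm]
      exact ENNReal.ofReal_le_ofReal (hC' δ z)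
    refine ne_top_of_le_ne_top ?_ (ENNReal.tsum_le_tsum h1)
    rw [← lintegral_tsum (f := fun (δ : Δ) z => ENNReal.ofReal C *
      (ψ z * ψ ((δ : GL (Fin 2) ℝ) • z)))
      fun δ => ((hψ.meas.mul (hmψ δ)).const_mul _).aemeasurable]
    simp_rw [ENNReal.tsum_mul_left, h.tsum_wt hψ]
    rw [lintegral_const_mul _ (hψ.meas.mul_const _), lintegral_mul_const _ hψ.meas]
    exact ENNReal.mul_ne_top ENNReal.ofReal_ne_top
      (ENNReal.mul_ne_top hψ.fin (ENNReal.natCast_ne_top _))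

/-- The Petersson product with respect to a weight function. -/
def ip (ψ : ℍ → ℝ≥0∞) (f g : ℍ → ℂ) : ℂ := ∫ z, ((ψ z).toReal : ℂ) * petersson 2 f g z

theorem petersson_norm_sq (f g : ℍ → ℂ) (z : ℍ) :
    ‖petersson 2 f g z‖ ^ 2 = ‖petersson 2 f f z‖ * ‖petersson 2 g g z‖ := by
  simp only [petersson, norm_mul, Complex.norm_conj]
  ring

theorem petersson_le {f g : ℍ → ℂ} {C D : ℝ} {z : ℍ}
    (hf : ‖petersson 2 f f z‖ ≤ C) (hg : ‖petersson 2 g g z‖ ≤ D) :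
    ‖petersson 2 f g z‖ ≤ Real.sqrt (C * D) := by
  refine Real.le_sqrt_of_sq_le ?_
  rw [petersson_norm_sq]
  have := norm_nonneg (petersson 2 f f z)
  gcongr
  linarith

theorem petersson_slash_pos {f g : ℍ → ℂ} {δ : GL (Fin 2) ℝ} (hδ : 0 < δ.det.val) (z : ℍ) :
    petersson 2 (f ∣[(2 : ℤ)] δ) (g ∣[(2 : ℤ)] δ) z = petersson 2 f g (δ • z) := by
  rw [petersson_slash]
  simp only [σ, if_pos hδ, sub_self, zpow_zero, one_mul, ContinuousAlgEquiv.refl_apply]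

theorem petersson_sum_left {κ : Type*} (S : Finset κ) (F : κ → ℍ → ℂ) (g : ℍ → ℂ) (z : ℍ) :
    petersson 2 (∑ i ∈ S, F i) g z = ∑ i ∈ S, petersson 2 (F i) g z := by
  simp only [petersson, Finset.sum_apply, map_sum, Finset.sum_mul]

theorem petersson_sum_right {κ : Type*} (S : Finset κ) (F : κ → ℍ → ℂ) (g : ℍ → ℂ) (z : ℍ) :
    petersson 2 g (∑ i ∈ S, F i) z = ∑ i ∈ S, petersson 2 g (F i) z := by
  simp only [petersson, Finset.sum_apply, Finset.mul_sum, Finset.sum_mul]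

/-- functions for which Petersson products make sense -/
structure Nice (𝒢 : Subgroup (GL (Fin 2) ℝ)) (f : ℍ → ℂ) : Prop where
  cont : Continuous f
  slash : ∀ γ ∈ 𝒢, f ∣[(2 : ℤ)] γ = f
  bdd : ∃ C, ∀ z, ‖petersson 2 f f z‖ ≤ C

theorem HSys.ip_eq [Fintype ι] [Countable 𝒢] (h : HSys 𝒢 r s Δ) (hψ : IsWt 𝒢 ψ) {f g : ℍ → ℂ}
    (hf : Nice 𝒢 f) (hg : Nice 𝒢 g) (hfr : ∀ i, Continuous (f ∣[(2 : ℤ)] (r i))) :
    ip ψ (∑ i, f ∣[(2 : ℤ)] (r i)) g =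
      ∑' δ : Δ, ∫ z, ((ψ z).toReal : ℂ) * (((ψ ((δ : GL (Fin 2) ℝ) • z)).toReal : ℂ) *
        petersson 2 (f ∣[(2 : ℤ)] (δ : GL (Fin 2) ℝ)) g z) := by
  obtain ⟨C, hC⟩ := hf.bdd
  obtain ⟨D, hD⟩ := hg.bdd
  rw [← h.integral_eq hψ (H := fun δ => petersson 2 (f ∣[(2 : ℤ)] δ) g) (C := Real.sqrt (C * D))]
  · simp only [ip, petersson_sum_left]
  · intro γ hγ i
    simp only [SlashAction.slash_mul, hf.slash γ hγ]
  · intro i
    exact (petersson_continuous 2 (hfr i) hg.cont).measurable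
  · intro i z
    refine petersson_le ?_ (hD z)
    rw [petersson_slash_pos (h.pos _ (by simpa using h.mem 1 𝒢.one_mem i))]
    exact hC _

theorem HSys.ip_eq' [Fintype ι] [Countable 𝒢] (h : HSys 𝒢 r s Δ) (hψ : IsWt 𝒢 ψ) {f g : ℍ → ℂ}
    (hf : Nice 𝒢 f) (hg : Nice 𝒢 g) (hgr : ∀ i, Continuous (g ∣[(2 : ℤ)] (r i))) :
    ip ψ f (∑ i, g ∣[(2 : ℤ)] (r i)) =
      ∑' δ : Δ, ∫ z, ((ψ z).toReal : ℂ) * (((ψ ((δ : GL (Fin 2) ℝ) • z)).toReal : ℂ) *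
        petersson 2 f (g ∣[(2 : ℤ)] (δ : GL (Fin 2) ℝ)) z) := by
  obtain ⟨C, hC⟩ := hf.bdd
  obtain ⟨D, hD⟩ := hg.bdd
  rw [← h.integral_eq hψ (H := fun δ => petersson 2 f (g ∣[(2 : ℤ)] δ)) (C := Real.sqrt (C * D))]
  · simp only [ip, petersson_sum_right]
  · intro γ hγ i
    simp only [SlashAction.slash_mul, hg.slash γ hγ]
  · intro i
    exact (petersson_continuous 2 hf.cont (hgr i)).measurable
  · intro i z
    refine petersson_le (hC z) ?_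
    rw [petersson_slash_pos (h.pos _ (by simpa using h.mem 1 𝒢.one_mem i))]
    exact hD _

/-- **Self-adjointness of abstract Hecke operators.** -/
theorem HSys.selfadjoint [Fintype ι] [Countable 𝒢] (h : HSys 𝒢 r s Δ) (hψ : IsWt 𝒢 ψ)
    {f g : ℍ → ℂ} (hf : Nice 𝒢 f) (hg : Nice 𝒢 g) (hfr : ∀ i, Continuous (f ∣[(2 : ℤ)] (r i)))
    (hgr : ∀ i, Continuous (g ∣[(2 : ℤ)] (r i))) :
    ip ψ (∑ i, f ∣[(2 : ℤ)] (r i)) g = ip ψ f (∑ i, g ∣[(2 : ℤ)] (r i)) := by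
  rw [h.ip_eq hψ hf hg hfr, h.ip_eq' hψ hf hg hgr, ← h.dual.tsum_eq]
  refine tsum_congr fun δ => ?_
  rw [← integral_smul_eq_self (μ := (volume : Measure ℍ)) _ (g := (δ : GL (Fin 2) ℝ))]
  congr 1
  ext z
  have h1 : ∀ w : ℍ, ((h.dual δ : Δ) : GL (Fin 2) ℝ) • ((δ : GL (Fin 2) ℝ) • w) = w := by
    intro w
    rw [h.dual_apply, ← mul_smul, mul_assoc, inv_mul_cancel, mul_one, h.s_smul]
  have h2 : petersson 2 (f ∣[(2 : ℤ)] ((h.dual δ : Δ) : GL (Fin 2) ℝ)) g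
      ((δ : GL (Fin 2) ℝ) • z) = petersson 2 f (g ∣[(2 : ℤ)] (δ : GL (Fin 2) ℝ)) z := by
    rw [← petersson_slash_pos (h.pos _ δ.2), ← SlashAction.slash_mul, h.dual_apply, mul_assoc,
      inv_mul_cancel, mul_one, h.s_slash]
  rw [h1, h2]
  ring

end Fermat.Agent.Newform
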