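import Mathlib

/-!
# Weight functions for discrete groups acting on the upper half plane and unfolding
-/

set_option autoImplicit false

noncomputable section

namespace Fermat.Agent.Newform

open UpperHalfPlane MeasureTheory Matrix Set
open scoped MatrixGroups ModularForm ENNReal Modular

/-- The standard fundamental domain has finite volume. -/
theorem volume_fd_lt_top : (volume : Measure ℍ) 𝒟 < ⊤ := by
  rw [volume_eq_lintegral]
  have hsub : ((↑) '' 𝒟 : Set ℂ) ⊆ Complex.measurableEquivRealProd ⁻¹'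
      (Icc (-(1/2) : ℝ) (1/2) ×ˢ Ioi (1/2 : ℝ)) := by
    rintro _ ⟨z, hz, rfl⟩
    have h1 := ModularGroup.three_le_four_mul_im_sq_of_mem_fd hz
    have h2 : 0 < z.im := z.im_pos
    simp only [mem_preimage, Complex.measurableEquivRealProd_apply, mem_prod, mem_Icc, mem_Ioi,
      UpperHalfPlane.coe_re, UpperHalfPlane.coe_im]
    have h3 := abs_le.1 hz.2
    refine ⟨⟨by linarith, by linarith⟩, ?_⟩
    by_contra h
    push Not at h
    nlinarith
  refine lt_of_le_of_lt (lintegral_mono_set hsub) ?_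
  have hmp := Complex.volume_preserving_equiv_real_prod
  have h4 : ∫⁻ z in Complex.measurableEquivRealProd ⁻¹' (Icc (-(1/2) : ℝ) (1/2) ×ˢ Ioi (1/2 : ℝ)),
      ((((1 / ‖z.im‖₊) ^ 2 : NNReal)) : ℝ≥0∞) =
      ∫⁻ w in (Icc (-(1/2) : ℝ) (1/2) ×ˢ Ioi (1/2 : ℝ)),
        ((((1 / ‖w.2‖₊) ^ 2 : NNReal)) : ℝ≥0∞) := by
    rw [← hmp.setLIntegral_comp_preimage_emb (MeasurableEquiv.measurableEmbedding _)]
    rfl
  rw [h4]
  have h5 : ∀ w : ℝ × ℝ, ((((1 / ‖w.2‖₊) ^ 2 : NNReal)) : ℝ≥0∞) =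
      (fun _ : ℝ => (1 : ℝ≥0∞)) w.1 * (fun y : ℝ => ((((1 / ‖y‖₊) ^ 2 : NNReal)) : ℝ≥0∞)) w.2 :=
    fun w => by simp
  rw [setLIntegral_congr_fun (measurableSet_Icc.prod measurableSet_Ioi) fun w _ => h5 w]
  rw [Measure.volume_eq_prod, ← Measure.prod_restrict,
    lintegral_prod_mul (f := fun _ : ℝ => (1 : ℝ≥0∞))
      (g := fun y : ℝ => ((((1 / ‖y‖₊) ^ 2 : NNReal)) : ℝ≥0∞)) (by fun_prop) (by fun_prop)]
  refine ENNReal.mul_lt_top (by simp) ?_
  have h6 : IntegrableOn (fun t : ℝ => t ^ (-2 : ℝ)) (Ioi (1/2)) :=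
    integrableOn_Ioi_rpow_of_lt (by norm_num) (by norm_num)
  have h7 := h6.2
  rw [HasFiniteIntegral] at h7
  refine lt_of_le_of_lt (lintegral_mono_ae ?_) h7
  filter_upwards [ae_restrict_mem measurableSet_Ioi] with y hy
  have hy0 : (0 : ℝ) < y := lt_trans (by norm_num) hy
  rw [enorm_eq_nnnorm, ENNReal.coe_le_coe, ← NNReal.coe_le_coe]
  simp only [NNReal.coe_pow, NNReal.coe_div, NNReal.coe_one, coe_nnnorm, Real.norm_eq_abs]
  rw [abs_of_pos hy0, abs_of_pos (by positivity), Real.rpow_neg hy0.le]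
  simp

theorem finite_smul_mem_fd (z : ℍ) : {γ : SL(2, ℤ) | γ • z ∈ 𝒟}.Finite := by
  obtain ⟨g₀, hg₀⟩ := ModularGroup.exists_max_im z
  have h1 := ProperlyDiscontinuousSMul.finite_disjoint_inter_image (Γ := 𝒮ℒ) (T := ℍ)
    (isCompact_singleton (x := z))
    (ModularGroup.isCompact_truncatedFundamentalDomain (g₀ • z).im)
  have h2 : Function.Injective (fun γ : SL(2, ℤ) =>
      (⟨Matrix.SpecialLinearGroup.mapGL ℝ γ, ⟨γ, rfl⟩⟩ : 𝒮ℒ)) := by
    intro a b hab
    exact Matrix.SpecialLinearGroup.mapGL_injective (congrArg Subtype.val hab)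
  refine (h1.preimage h2.injOn).subset fun γ hγ => ?_
  refine ⟨γ • z, ⟨z, rfl, rfl⟩, hγ, hg₀ γ⟩

/-- number of points of the orbit of `z` (with multiplicity) in the fundamental domain. -/
def nfd (z : ℍ) : ℝ≥0∞ := ∑' γ : SL(2, ℤ), indicator 𝒟 (fun _ => (1 : ℝ≥0∞)) (γ • z)

theorem nfd_ne_zero (z : ℍ) : nfd z ≠ 0 := by
  obtain ⟨g, hg⟩ := ModularGroup.exists_smul_mem_fd z
  intro h
  have := (ENNReal.tsum_eq_zero.1 h) g
  rw [indicator_of_mem hg] at this
  exact one_ne_zero this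

theorem nfd_ne_top (z : ℍ) : nfd z ≠ ⊤ := by
  have hf := finite_smul_mem_fd z
  have : nfd z = ∑ γ ∈ hf.toFinset, indicator 𝒟 (fun _ => (1 : ℝ≥0∞)) (γ • z) := by
    refine tsum_eq_sum fun γ hγ => ?_
    rw [Finite.mem_toFinset] at hγ
    exact indicator_of_notMem (s := 𝒟) (a := γ • z) hγ (fun _ => (1 : ℝ≥0∞))
  rw [this]
  refine (ENNReal.sum_lt_top.2 fun γ _ => ?_).ne
  exact lt_of_le_of_lt (indicator_le_self _ _ _) (by simp)

theorem nfd_smul (g : SL(2, ℤ)) (z : ℍ) : nfd (g • z) = nfd z := by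
  rw [nfd, nfd, ← (Equiv.mulRight g).tsum_eq
    (fun γ : SL(2, ℤ) => indicator 𝒟 (fun _ => (1 : ℝ≥0∞)) (γ • z))]
  simp only [Equiv.coe_mulRight, mul_smul]

theorem continuous_SL_smul (γ : SL(2, ℤ)) : Continuous (fun z : ℍ => γ • z) :=
  continuous_const_smul (Matrix.SpecialLinearGroup.mapGL ℝ γ)

instance countable_SL : Countable SL(2, ℤ) :=
  inferInstanceAs (Countable {A : Fin 2 → Fin 2 → ℤ // Matrix.det A = 1})

theorem measurable_nfd : Measurable nfd := by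
  refine Measurable.tsum fun γ => ?_
  exact (measurable_const.indicator ModularGroup.isClosed_fd.measurableSet).comp
    (continuous_SL_smul γ).measurable

/-- weight function for the full modular group -/
def wt0 (z : ℍ) : ℝ≥0∞ := indicator 𝒟 (fun _ => (1 : ℝ≥0∞)) z * (nfd z)⁻¹

theorem measurable_wt0 : Measurable wt0 :=
  (measurable_const.indicator ModularGroup.isClosed_fd.measurableSet).mul measurable_nfd.inv

theorem tsum_wt0 (z : ℍ) : ∑' γ : SL(2, ℤ), wt0 (γ • z) = 1 := by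
  simp only [wt0, nfd_smul]
  rw [ENNReal.tsum_mul_right]
  exact ENNReal.mul_inv_cancel (nfd_ne_zero z) (nfd_ne_top z)

theorem lintegral_wt0 : ∫⁻ z, wt0 z < ⊤ := by
  refine lt_of_le_of_lt (lintegral_mono (g := indicator 𝒟 (fun _ => (1 : ℝ≥0∞))) fun z => ?_) ?_
  · rw [wt0]
    by_cases hz : z ∈ 𝒟
    · rw [indicator_of_mem hz, one_mul]
      rw [ENNReal.inv_le_one]
      calc (1 : ℝ≥0∞) = indicator 𝒟 (fun _ => (1 : ℝ≥0∞)) ((1 : SL(2, ℤ)) • z) := by
            rw [one_smul, indicator_of_mem hz]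
        _ ≤ nfd z := ENNReal.le_tsum _
    · rw [indicator_of_notMem hz, zero_mul]
  · rw [lintegral_indicator ModularGroup.isClosed_fd.measurableSet, setLIntegral_one]
    exact volume_fd_lt_top

/-- Weight functions for a subgroup `𝒢`. -/
structure IsWt (𝒢 : Subgroup (GL (Fin 2) ℝ)) (ψ : ℍ → ℝ≥0∞) : Prop where
  meas : Measurable ψ
  sum : ∀ z, ∑' γ : 𝒢, ψ ((γ : GL (Fin 2) ℝ) • z) = 1
  fin : ∫⁻ z, ψ z ≠ ⊤

/-- Every finite index subgroup of `SL(2, ℤ)` has a weight function. -/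
theorem exists_isWt (Γ : Subgroup SL(2, ℤ)) [Γ.FiniteIndex] :
    ∃ ψ, IsWt (Γ.map (Matrix.SpecialLinearGroup.mapGL ℝ)) ψ := by
  have : Fintype (SL(2, ℤ) ⧸ Γ) := Subgroup.fintypeQuotientOfFiniteIndex
  refine ⟨fun z => ∑ q : SL(2, ℤ) ⧸ Γ, wt0 (q.out • z), ?_, ?_, ?_⟩
  · exact Finset.measurable_sum _ fun q _ => measurable_wt0.comp (continuous_SL_smul _).measurable
  · intro z
    rw [← (Γ.equivMapOfInjective _
      (Matrix.SpecialLinearGroup.mapGL_injective (n := Fin 2) (R := ℤ) (S := ℝ))).toEquiv.tsum_eq]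
    have h1 : ∀ γ : Γ, ((((Γ.equivMapOfInjective _ (Matrix.SpecialLinearGroup.mapGL_injective
        (n := Fin 2) (R := ℤ) (S := ℝ))).toEquiv γ : Γ.map (Matrix.SpecialLinearGroup.mapGL ℝ)) :
        GL (Fin 2) ℝ)) • z = (γ : SL(2, ℤ)) • z := fun γ => rfl
    simp_rw [h1]
    have hb : Function.Bijective (fun x : (SL(2, ℤ) ⧸ Γ) × Γ => x.1.out * (x.2 : SL(2, ℤ))) := by
      constructor
      · rintro ⟨q, γ⟩ ⟨q', γ'⟩ h
        simp only at h
        have hq : q = q' := by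
          have h2 : (QuotientGroup.mk (q.out * (γ : SL(2, ℤ))) : SL(2, ℤ) ⧸ Γ) =
            QuotientGroup.mk (q'.out * (γ' : SL(2, ℤ))) := by rw [h]
          rw [QuotientGroup.mk_mul_of_mem _ γ.2, QuotientGroup.mk_mul_of_mem _ γ'.2] at h2
          simpa using h2
        subst hq
        have : (γ : SL(2, ℤ)) = γ' := mul_left_cancel h
        rw [Subtype.ext this]
      · intro g
        refine ⟨⟨QuotientGroup.mk g, ⟨(QuotientGroup.mk g : SL(2, ℤ) ⧸ Γ).out⁻¹ * g, ?_⟩⟩, ?_⟩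
        · rw [← QuotientGroup.eq]
          simp
        · simp
    rw [← tsum_wt0 z, ← (Equiv.ofBijective _ hb).tsum_eq]
    simp only [Equiv.ofBijective_apply, mul_smul]
    rw [ENNReal.tsum_prod (f := fun (q : SL(2, ℤ) ⧸ Γ) (γ : Γ) =>
      wt0 (q.out • (γ : SL(2, ℤ)) • z)), ENNReal.tsum_comm]
    refine tsum_congr fun γ => ?_
    rw [tsum_fintype]
  · refine (lt_of_eq_of_lt (lintegral_finsetSum _ fun q _ =>
      measurable_wt0.comp (continuous_SL_smul _).measurable) ?_).ne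
    refine ENNReal.sum_lt_top.2 fun q _ => ?_
    have := (measurePreserving_smul (Matrix.SpecialLinearGroup.mapGL ℝ q.out)
      (volume : Measure ℍ)).lintegral_comp measurable_wt0
    exact lt_of_eq_of_lt this lintegral_wt0

end Fermat.Agent.Newform
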